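/-
S13 moonshot, package (iv) "the prime 2" (helper2): the model `Y² + XY = X³ + a₂ X² + a₄ X`
(`a₁ = 1`, `a₃ = a₆ = 0`) — algebraic identities for the `X`-coordinates of `P ± Q` and `2P`,
and their point-level forms.
-/
import Fermat.Agent.Lib.Frey.E1

set_option autoImplicit false

namespace Fermat.Agent.Lib.Frey

open WeierstrassCurve WeierstrassCurve.Affine

variable {K : Type*} [Field K]

/-- The model `Y² + XY = X³ + a₂ X² + a₄ X`. -/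
def ftw_curve (a₂ a₄ : K) : WeierstrassCurve K := ⟨1, a₂, 0, a₄, 0⟩

@[simp] lemma ftw_curve_a₁ (a₂ a₄ : K) : (ftw_curve a₂ a₄).a₁ = 1 := rfl
@[simp] lemma ftw_curve_a₂ (a₂ a₄ : K) : (ftw_curve a₂ a₄).a₂ = a₂ := rfl
@[simp] lemma ftw_curve_a₃ (a₂ a₄ : K) : (ftw_curve a₂ a₄).a₃ = 0 := rfl
@[simp] lemma ftw_curve_a₄ (a₂ a₄ : K) : (ftw_curve a₂ a₄).a₄ = a₄ := rfl
@[simp] lemma ftw_curve_a₆ (a₂ a₄ : K) : (ftw_curve a₂ a₄).a₆ = 0 := rfl

lemma ftw_curve_equation_iff (a₂ a₄ x y : K) :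
    (ftw_curve a₂ a₄).toAffine.Equation x y ↔ y ^ 2 + x * y = x ^ 3 + a₂ * x ^ 2 + a₄ * x := by
  rw [Affine.equation_iff]
  simp only [ftw_curve_a₁, ftw_curve_a₂, ftw_curve_a₃, ftw_curve_a₄, ftw_curve_a₆]
  constructor <;> intro h <;> linear_combination h

section algebra

variable {a2 a4 x1 y1 x2 y2 x y : K}

/-- Sum of the `X`-coordinates of `P + Q` and `P - Q`, times `(x₁ - x₂)²`. -/
theorem ftw_sum (hx : x1 ≠ x2)
    (e1 : y1 ^ 2 + x1 * y1 = x1 ^ 3 + a2 * x1 ^ 2 + a4 * x1)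
    (e2 : y2 ^ 2 + x2 * y2 = x2 ^ 3 + a2 * x2 ^ 2 + a4 * x2) :
    ((((y1 - y2) / (x1 - x2)) ^ 2 + (y1 - y2) / (x1 - x2) - a2 - x1 - x2) +
     (((y1 + y2 + x2) / (x1 - x2)) ^ 2 + (y1 + y2 + x2) / (x1 - x2) - a2 - x1 - x2)) *
        (x1 - x2) ^ 2 =
      2 * (x1 * x2 * (x1 + x2)) + (1 + 4 * a2) * (x1 * x2) + 2 * (a4 * (x1 + x2)) := by
  have hd : x1 - x2 ≠ 0 := sub_ne_zero.mpr hx
  field_simp
  linear_combination 2 * e1 + 2 * e2

/-- Product of the `X`-coordinates of `P + Q` and `P - Q`, times `(x₁ - x₂)²`. -/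
theorem ftw_prod (hx : x1 ≠ x2)
    (e1 : y1 ^ 2 + x1 * y1 = x1 ^ 3 + a2 * x1 ^ 2 + a4 * x1)
    (e2 : y2 ^ 2 + x2 * y2 = x2 ^ 3 + a2 * x2 ^ 2 + a4 * x2) :
    ((((y1 - y2) / (x1 - x2)) ^ 2 + (y1 - y2) / (x1 - x2) - a2 - x1 - x2) *
     (((y1 + y2 + x2) / (x1 - x2)) ^ 2 + (y1 + y2 + x2) / (x1 - x2) - a2 - x1 - x2)) *
        (x1 - x2) ^ 2 =
      (x1 * x2 - a4) ^ 2 := by
  have hd : x1 - x2 ≠ 0 := sub_ne_zero.mpr hx
  field_simp
  grind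

/-- `(2y + x)² = 4x³ + b₂x² + 4a₄x` on the curve. -/
theorem ftw_two_y_sq (e : y ^ 2 + x * y = x ^ 3 + a2 * x ^ 2 + a4 * x) :
    (2 * y + x) ^ 2 = 4 * x ^ 3 + (1 + 4 * a2) * x ^ 2 + 4 * (a4 * x) := by
  linear_combination 4 * e

/-- Duplication formula. -/
theorem ftw_dbl_id (hy : 2 * y + x ≠ 0) (e : y ^ 2 + x * y = x ^ 3 + a2 * x ^ 2 + a4 * x) :
    (((3 * x ^ 2 + 2 * a2 * x + a4 - y) / (2 * y + x)) ^ 2 +
      (3 * x ^ 2 + 2 * a2 * x + a4 - y) / (2 * y + x) - a2 - x - x) *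
        (4 * x ^ 3 + (1 + 4 * a2) * x ^ 2 + 4 * (a4 * x)) = (x ^ 2 - a4) ^ 2 := by
  rw [← ftw_two_y_sq e]
  field_simp
  grind

end algebra

section points

variable {a₂ a₄ : K} [DecidableEq K]

omit [DecidableEq K] in
theorem ftw_eqn {x y : K} (h : (ftw_curve a₂ a₄).toAffine.Nonsingular x y) :
    y ^ 2 + x * y = x ^ 3 + a₂ * x ^ 2 + a₄ * x := (ftw_curve_equation_iff a₂ a₄ x y).mp h.1

theorem ftw_X_add_sub {x1 y1 x2 y2 : K}
    (hP : (ftw_curve a₂ a₄).toAffine.Nonsingular x1 y1)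
    (hQ : (ftw_curve a₂ a₄).toAffine.Nonsingular x2 y2) (hx : x1 ≠ x2) :
    Point.some x1 y1 hP + Point.some x2 y2 hQ ≠ 0 ∧
    Point.some x1 y1 hP - Point.some x2 y2 hQ ≠ 0 ∧
    fe1_X (Point.some x1 y1 hP + Point.some x2 y2 hQ) =
      ((y1 - y2) / (x1 - x2)) ^ 2 + (y1 - y2) / (x1 - x2) - a₂ - x1 - x2 ∧
    fe1_X (Point.some x1 y1 hP - Point.some x2 y2 hQ) =
      ((y1 + y2 + x2) / (x1 - x2)) ^ 2 + (y1 + y2 + x2) / (x1 - x2) - a₂ - x1 - x2 := by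
  refine ⟨?_, ?_, ?_, ?_⟩
  · rw [Point.add_of_X_ne hx]; exact Point.some_ne_zero _
  · rw [sub_eq_add_neg, Point.neg_some, Point.add_of_X_ne hx]; exact Point.some_ne_zero _
  · rw [Point.add_of_X_ne hx, fe1_X_some, addX, slope_of_X_ne hx]
    simp only [ftw_curve_a₁, ftw_curve_a₂]; ring
  · rw [sub_eq_add_neg, Point.neg_some, Point.add_of_X_ne hx, fe1_X_some, addX, slope_of_X_ne hx,
      negY]
    simp only [ftw_curve_a₁, ftw_curve_a₂, ftw_curve_a₃]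
    have : y1 - (-y2 - 1 * x2 - 0) = y1 + y2 + x2 := by ring
    rw [this]; ring

omit [DecidableEq K] in
theorem ftw_negY {x y : K} : (ftw_curve a₂ a₄).toAffine.negY x y = -y - x := by
  rw [negY]; simp only [ftw_curve_a₁, ftw_curve_a₃]; ring

theorem ftw_X_dbl {x y : K} (hP : (ftw_curve a₂ a₄).toAffine.Nonsingular x y)
    (hy : 2 * y + x ≠ 0) :
    Point.some x y hP + Point.some x y hP ≠ 0 ∧
    fe1_X (Point.some x y hP + Point.some x y hP) =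
      ((3 * x ^ 2 + 2 * a₂ * x + a₄ - y) / (2 * y + x)) ^ 2 +
        (3 * x ^ 2 + 2 * a₂ * x + a₄ - y) / (2 * y + x) - a₂ - x - x := by
  have hne : y ≠ (ftw_curve a₂ a₄).toAffine.negY x y := by
    rw [ftw_negY]
    intro h
    apply hy
    linear_combination h
  refine ⟨?_, ?_⟩
  · rw [Point.add_self_of_Y_ne hne]; exact Point.some_ne_zero _
  · rw [Point.add_self_of_Y_ne hne, fe1_X_some, addX, slope_of_Y_ne rfl hne, ftw_negY]
    simp only [ftw_curve_a₁, ftw_curve_a₂, ftw_curve_a₄]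
    have : y - (-y - x) = 2 * y + x := by ring
    rw [this]; ring

theorem ftw_dbl_zero {x y : K} (hP : (ftw_curve a₂ a₄).toAffine.Nonsingular x y)
    (hy : 2 * y + x = 0) : Point.some x y hP + Point.some x y hP = 0 := by
  have h : y = (ftw_curve a₂ a₄).toAffine.negY x y := by
    rw [ftw_negY]; linear_combination hy
  exact Point.add_self_of_Y_eq h

end points

end Fermat.Agent.Lib.Frey
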