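/-
S13 moonshot, package (iv) "the prime 2" (helper2): the kernel of reduction `E₁` of
`Y² + XY = X³ + a₂ X² + a₄ X` over a valued field (any residue characteristic, in particular `2`):
`E₁` is a subgroup and has no `p`-torsion for a prime `p ≠ 2` which is a unit.  Port of
`Lib/Frey/E1.lean` (`a₁ = a₃ = 0`) to `a₁ = 1`: with `u = 1/x` one still has
`u (P + Q) + u (P - Q) ≡ 2 (u P + u Q)` modulo `u P * u Q` and `u (2P) ≡ 4 u P` modulo `(u P)²`.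
-/
import Fermat.Agent.Lib.F2.Curve

set_option autoImplicit false

namespace Fermat.Agent.Lib.Frey

open WeierstrassCurve WeierstrassCurve.Affine

section algebra

variable {K : Type*} [Field K] {a2 a4 x1 y1 x2 y2 x y : K}

/-- The pair `P ± Q` in the coordinate `u = 1/x`. -/
theorem ftw_usum (hx : x1 ≠ x2) (hx1 : x1 ≠ 0) (hx2 : x2 ≠ 0)
    (e1 : y1 ^ 2 + x1 * y1 = x1 ^ 3 + a2 * x1 ^ 2 + a4 * x1)
    (e2 : y2 ^ 2 + x2 * y2 = x2 ^ 3 + a2 * x2 ^ 2 + a4 * x2)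
    (hE : 1 - a4 * (x1⁻¹ * x2⁻¹) ≠ 0) :
    (((y1 - y2) / (x1 - x2)) ^ 2 + (y1 - y2) / (x1 - x2) - a2 - x1 - x2) ≠ 0 ∧
    (((y1 + y2 + x2) / (x1 - x2)) ^ 2 + (y1 + y2 + x2) / (x1 - x2) - a2 - x1 - x2) ≠ 0 ∧
    (((y1 - y2) / (x1 - x2)) ^ 2 + (y1 - y2) / (x1 - x2) - a2 - x1 - x2)⁻¹ +
      (((y1 + y2 + x2) / (x1 - x2)) ^ 2 + (y1 + y2 + x2) / (x1 - x2) - a2 - x1 - x2)⁻¹ =
      (2 * (x1⁻¹ + x2⁻¹) + (1 + 4 * a2) * (x1⁻¹ * x2⁻¹) +
        2 * a4 * (x1⁻¹ * x2⁻¹) * (x1⁻¹ + x2⁻¹)) / (1 - a4 * (x1⁻¹ * x2⁻¹)) ^ 2 ∧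
    (((y1 - y2) / (x1 - x2)) ^ 2 + (y1 - y2) / (x1 - x2) - a2 - x1 - x2)⁻¹ *
      (((y1 + y2 + x2) / (x1 - x2)) ^ 2 + (y1 + y2 + x2) / (x1 - x2) - a2 - x1 - x2)⁻¹ =
      (x1⁻¹ - x2⁻¹) ^ 2 / (1 - a4 * (x1⁻¹ * x2⁻¹)) ^ 2 := by
  have hS := ftw_sum hx e1 e2
  have hP := ftw_prod hx e1 e2
  set T1 := ((y1 - y2) / (x1 - x2)) ^ 2 + (y1 - y2) / (x1 - x2) - a2 - x1 - x2 with hT1
  set T2 := ((y1 + y2 + x2) / (x1 - x2)) ^ 2 + (y1 + y2 + x2) / (x1 - x2) - a2 - x1 - x2 with hT2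
  have hd : x1 - x2 ≠ 0 := sub_ne_zero.mpr hx
  have hd2 : (x1 - x2) ^ 2 ≠ 0 := pow_ne_zero 2 hd
  set E := 1 - a4 * (x1⁻¹ * x2⁻¹) with hEdef
  have hnumP : (x1 * x2 - a4) ^ 2 = E ^ 2 * (x1 * x2) ^ 2 := by
    rw [hEdef]; field_simp
  have hnumS : 2 * (x1 * x2 * (x1 + x2)) + (1 + 4 * a2) * (x1 * x2) + 2 * (a4 * (x1 + x2)) =
      (2 * (x1⁻¹ + x2⁻¹) + (1 + 4 * a2) * (x1⁻¹ * x2⁻¹) +
        2 * a4 * (x1⁻¹ * x2⁻¹) * (x1⁻¹ + x2⁻¹)) * (x1 * x2) ^ 2 := by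
    field_simp; ring
  have hx12 : (x1 * x2) ^ 2 ≠ 0 := pow_ne_zero 2 (mul_ne_zero hx1 hx2)
  have hprod0 : T1 * T2 ≠ 0 := by
    intro h0
    rw [h0, zero_mul] at hP
    rw [hnumP] at hP
    exact mul_ne_zero (pow_ne_zero 2 hE) hx12 hP.symm
  have hT10 : T1 ≠ 0 := left_ne_zero_of_mul hprod0
  have hT20 : T2 ≠ 0 := right_ne_zero_of_mul hprod0
  have hP' : T1 * T2 = E ^ 2 * (x1 * x2) ^ 2 / (x1 - x2) ^ 2 := by
    rw [eq_div_iff hd2, hP, hnumP]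
  have hS' : T1 + T2 = (2 * (x1⁻¹ + x2⁻¹) + (1 + 4 * a2) * (x1⁻¹ * x2⁻¹) +
        2 * a4 * (x1⁻¹ * x2⁻¹) * (x1⁻¹ + x2⁻¹)) * (x1 * x2) ^ 2 / (x1 - x2) ^ 2 := by
    rw [eq_div_iff hd2, hS, hnumS]
  refine ⟨hT10, hT20, ?_, ?_⟩
  · have : T1⁻¹ + T2⁻¹ = (T1 + T2) / (T1 * T2) := by field_simp; ring
    rw [this, hS', hP']
    field_simp
  · rw [← mul_inv, hP']
    field_simp
    ring

/-- Duplication in the coordinate `u = 1/x`. -/
theorem ftw_udbl (hx0 : x ≠ 0) (hy : 2 * y + x ≠ 0)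
    (e : y ^ 2 + x * y = x ^ 3 + a2 * x ^ 2 + a4 * x)
    (hH : 1 - a4 * x⁻¹ ^ 2 ≠ 0) :
    (((3 * x ^ 2 + 2 * a2 * x + a4 - y) / (2 * y + x)) ^ 2 +
      (3 * x ^ 2 + 2 * a2 * x + a4 - y) / (2 * y + x) - a2 - x - x) ≠ 0 ∧
    (((3 * x ^ 2 + 2 * a2 * x + a4 - y) / (2 * y + x)) ^ 2 +
      (3 * x ^ 2 + 2 * a2 * x + a4 - y) / (2 * y + x) - a2 - x - x)⁻¹ =
      (4 * x⁻¹ + (1 + 4 * a2) * x⁻¹ ^ 2 + 4 * a4 * x⁻¹ ^ 3) / (1 - a4 * x⁻¹ ^ 2) ^ 2 := by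
  have hid := ftw_dbl_id hy e
  set T := ((3 * x ^ 2 + 2 * a2 * x + a4 - y) / (2 * y + x)) ^ 2 +
      (3 * x ^ 2 + 2 * a2 * x + a4 - y) / (2 * y + x) - a2 - x - x with hT
  set H := 1 - a4 * x⁻¹ ^ 2 with hHdef
  have hnum : (x ^ 2 - a4) ^ 2 = H ^ 2 * x ^ 4 := by
    rw [hHdef]; field_simp
  have hden : 4 * x ^ 3 + (1 + 4 * a2) * x ^ 2 + 4 * (a4 * x) =
      (4 * x⁻¹ + (1 + 4 * a2) * x⁻¹ ^ 2 + 4 * a4 * x⁻¹ ^ 3) * x ^ 4 := by
    field_simp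
  have hx4 : x ^ 4 ≠ 0 := pow_ne_zero 4 hx0
  have hD0 : 4 * x ^ 3 + (1 + 4 * a2) * x ^ 2 + 4 * (a4 * x) ≠ 0 := by
    rw [← ftw_two_y_sq e]; exact pow_ne_zero 2 hy
  have hT0 : T ≠ 0 := by
    intro h0
    rw [h0, zero_mul, hnum] at hid
    exact mul_ne_zero (pow_ne_zero 2 hH) hx4 hid.symm
  refine ⟨hT0, ?_⟩
  have hTe : T = H ^ 2 * x ^ 4 / (4 * x ^ 3 + (1 + 4 * a2) * x ^ 2 + 4 * (a4 * x)) := by
    rw [eq_div_iff hD0, hid, hnum]
  rw [hTe, inv_div, hden]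
  field_simp

end algebra

section valuation

variable {K : Type*} [Field K] {Γ₀ : Type*} [LinearOrderedCommGroupWithZero Γ₀] (v : Valuation K Γ₀)

theorem ftw_pair_E {u1 u2 a4 : K} (hu1 : v u1 < 1) (hu2 : v u2 < 1) (ha4 : v a4 ≤ 1) :
    v (1 - a4 * (u1 * u2)) = 1 := by
  have m1 := fe1_mem_of_lt v hu1
  have m2 := fe1_mem_of_lt v hu2
  have k4 : a4 ∈ v.integer := ha4
  have e : 1 - a4 * (u1 * u2) = 1 - u1 * (a4 * u2) := by ring
  rw [e]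
  apply Valuation.map_one_sub_of_lt
  refine lt_of_le_of_lt (fe1_mul_int_le v ?_) hu1
  apply_rules (maxDepth := 200) [Subring.add_mem, Subring.sub_mem, Subring.mul_mem,
    Subring.pow_mem, m1, m2, k4]

theorem ftw_pair_le {u1 u2 a2 a4 U1 U2 : K} (hu1 : v u1 < 1) (hu2 : v u2 < 1)
    (ha2 : v a2 ≤ 1) (ha4 : v a4 ≤ 1)
    (hS : U1 + U2 = (2 * (u1 + u2) + (1 + 4 * a2) * (u1 * u2) +
        2 * a4 * (u1 * u2) * (u1 + u2)) / (1 - a4 * (u1 * u2)) ^ 2)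
    (hP : U1 * U2 = (u1 - u2) ^ 2 / (1 - a4 * (u1 * u2)) ^ 2) :
    v U1 ≤ max (v u1) (v u2) := by
  have hE := ftw_pair_E v hu1 hu2 ha4
  have m1 := fe1_mem_of_lt v hu1
  have m2 := fe1_mem_of_lt v hu2
  have k2 : a2 ∈ v.integer := ha2
  have k4 : a4 ∈ v.integer := ha4
  have h2 : (2 : K) ∈ v.integer := ofNat_mem _ 2
  have h4 : (4 : K) ∈ v.integer := ofNat_mem _ 4
  set M := max (v u1) (v u2) with hM
  have l1 : v u1 ≤ M := le_max_left _ _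
  have l2 : v u2 ≤ M := le_max_right _ _
  apply fe1_root_le v (U2 := U2)
  · rw [hS, map_div₀, map_pow, hE, one_pow, div_one]
    have e : 2 * (u1 + u2) + (1 + 4 * a2) * (u1 * u2) + 2 * a4 * (u1 * u2) * (u1 + u2) =
        u1 * (2 + (1 + 4 * a2) * u2 + 2 * a4 * u2 * (u1 + u2)) + u2 * 2 := by
      ring
    rw [e]
    refine v.map_add_le ((fe1_mul_int_le v ?_).trans l1) ((fe1_mul_int_le v h2).trans l2)
    apply_rules (maxDepth := 200) [Subring.add_mem, Subring.sub_mem, Subring.mul_mem,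
      Subring.pow_mem, Subring.one_mem, m1, m2, k2, k4, h2, h4]
  · rw [hP, map_div₀, map_pow, map_pow, hE, one_pow, div_one]
    exact pow_le_pow_left₀ zero_le (v.map_sub_le l1 l2) 2

theorem ftw_pair_sum {u1 u2 a2 a4 U1 U2 : K} (hu1 : v u1 < 1) (hu2 : v u2 < 1)
    (ha2 : v a2 ≤ 1) (ha4 : v a4 ≤ 1)
    (hS : U1 + U2 = (2 * (u1 + u2) + (1 + 4 * a2) * (u1 * u2) +
        2 * a4 * (u1 * u2) * (u1 + u2)) / (1 - a4 * (u1 * u2)) ^ 2) :
    v (U1 + U2 - 2 * (u1 + u2)) ≤ v u1 * v u2 := by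
  have hE := ftw_pair_E v hu1 hu2 ha4
  have m1 := fe1_mem_of_lt v hu1
  have m2 := fe1_mem_of_lt v hu2
  have k2 : a2 ∈ v.integer := ha2
  have k4 : a4 ∈ v.integer := ha4
  have h2 : (2 : K) ∈ v.integer := ofNat_mem _ 2
  have h4 : (4 : K) ∈ v.integer := ofNat_mem _ 4
  set E := 1 - a4 * (u1 * u2) with hEdef
  have hE0 : E ≠ 0 := by
    intro h0; rw [h0, map_zero] at hE; exact zero_ne_one hE
  have e : U1 + U2 - 2 * (u1 + u2) =
      (u1 * u2) * ((1 + 4 * a2) + 2 * a4 * (u1 + u2) +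
        2 * (u1 + u2) * (2 * a4 - a4 ^ 2 * (u1 * u2))) / E ^ 2 := by
    rw [hS]; field_simp; rw [hEdef]; ring
  rw [e, map_div₀, map_pow, hE, one_pow, div_one, ← map_mul]
  apply fe1_mul_int_le
  apply_rules (maxDepth := 200) [Subring.add_mem, Subring.sub_mem, Subring.mul_mem,
      Subring.pow_mem, Subring.one_mem, m1, m2, k2, k4, h2, h4]

theorem ftw_dbl_H {u a4 : K} (hu : v u < 1) (ha4 : v a4 ≤ 1) : v (1 - a4 * u ^ 2) = 1 := by
  have m1 := fe1_mem_of_lt v hu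
  have k4 : a4 ∈ v.integer := ha4
  have e : 1 - a4 * u ^ 2 = 1 - u * (a4 * u) := by ring
  rw [e]
  apply Valuation.map_one_sub_of_lt
  refine lt_of_le_of_lt (fe1_mul_int_le v ?_) hu
  apply_rules (maxDepth := 200) [Subring.add_mem, Subring.sub_mem, Subring.mul_mem,
    Subring.pow_mem, m1, k4]

theorem ftw_dbl_le {u a2 a4 U : K} (hu : v u < 1) (ha2 : v a2 ≤ 1) (ha4 : v a4 ≤ 1)
    (hU : U = (4 * u + (1 + 4 * a2) * u ^ 2 + 4 * a4 * u ^ 3) / (1 - a4 * u ^ 2) ^ 2) :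
    v U ≤ v u ∧ v (U - 4 * u) ≤ v u ^ 2 := by
  have hH := ftw_dbl_H v hu ha4
  have m1 := fe1_mem_of_lt v hu
  have k2 : a2 ∈ v.integer := ha2
  have k4 : a4 ∈ v.integer := ha4
  have h2 : (2 : K) ∈ v.integer := ofNat_mem _ 2
  have h4 : (4 : K) ∈ v.integer := ofNat_mem _ 4
  have h8 : (8 : K) ∈ v.integer := ofNat_mem _ 8
  set H := 1 - a4 * u ^ 2 with hHdef
  have hH0 : H ≠ 0 := by
    intro h0; rw [h0, map_zero] at hH; exact zero_ne_one hH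
  constructor
  · have e : U = u * (4 + (1 + 4 * a2) * u + 4 * a4 * u ^ 2) / H ^ 2 := by rw [hU]; ring
    rw [e, map_div₀, map_pow, hH, one_pow, div_one]
    apply fe1_mul_int_le
    apply_rules (maxDepth := 200) [Subring.add_mem, Subring.sub_mem, Subring.mul_mem,
      Subring.pow_mem, Subring.one_mem, m1, k2, k4, h2, h4, h8]
  · have e : U - 4 * u = u ^ 2 * ((1 + 4 * a2) + 4 * a4 * u + 4 * u * (2 * a4 - a4 ^ 2 * u ^ 2)) /
        H ^ 2 := by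
      rw [hU]; field_simp; rw [hHdef]; ring
    rw [e, map_div₀, map_pow v H, hH, one_pow, div_one, ← map_pow]
    apply fe1_mul_int_le
    apply_rules (maxDepth := 200) [Subring.add_mem, Subring.sub_mem, Subring.mul_mem,
      Subring.pow_mem, Subring.one_mem, m1, k2, k4, h2, h4, h8]

end valuation

section points

variable {K : Type*} [Field K] {a₂ a₄ : K}
variable {Γ₀ : Type*} [LinearOrderedCommGroupWithZero Γ₀] (v : Valuation K Γ₀)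
variable [DecidableEq K]

/-- Two points of `E₁` with distinct `x`-coordinates: `P ± Q` are affine with non-integral
`x`-coordinates, `v (u (P ± Q)) ≤ max (v (u P)) (v (u Q))` and
`u (P + Q) + u (P - Q) ≡ 2 (u P + u Q)` modulo `u P * u Q` (where `u = 1 / x`). -/
theorem ftw_pair (ha2 : v a₂ ≤ 1) (ha4 : v a₄ ≤ 1) {x1 y1 x2 y2 : K}
    (hP : (ftw_curve a₂ a₄).toAffine.Nonsingular x1 y1)
    (hQ : (ftw_curve a₂ a₄).toAffine.Nonsingular x2 y2) (hx : x1 ≠ x2)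
    (hv1 : 1 < v x1) (hv2 : 1 < v x2) :
    Point.some x1 y1 hP + Point.some x2 y2 hQ ≠ 0 ∧
    Point.some x1 y1 hP - Point.some x2 y2 hQ ≠ 0 ∧
    fe1_X (Point.some x1 y1 hP + Point.some x2 y2 hQ) ≠ 0 ∧
    fe1_X (Point.some x1 y1 hP - Point.some x2 y2 hQ) ≠ 0 ∧
    v (fe1_X (Point.some x1 y1 hP + Point.some x2 y2 hQ))⁻¹ ≤ max (v x1⁻¹) (v x2⁻¹) ∧
    v (fe1_X (Point.some x1 y1 hP - Point.some x2 y2 hQ))⁻¹ ≤ max (v x1⁻¹) (v x2⁻¹) ∧
    v ((fe1_X (Point.some x1 y1 hP + Point.some x2 y2 hQ))⁻¹ +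
      (fe1_X (Point.some x1 y1 hP - Point.some x2 y2 hQ))⁻¹ - 2 * (x1⁻¹ + x2⁻¹)) ≤
      v x1⁻¹ * v x2⁻¹ := by
  obtain ⟨n1, n2, e1, e2⟩ := ftw_X_add_sub hP hQ hx
  have hu1 := fe1_inv_lt_one v hv1
  have hu2 := fe1_inv_lt_one v hv2
  have hx1 := fe1_ne_zero_of_one_lt v hv1
  have hx2 := fe1_ne_zero_of_one_lt v hv2
  have hE := ftw_pair_E v hu1 hu2 ha4
  have hE0 : 1 - a₄ * (x1⁻¹ * x2⁻¹) ≠ 0 := by
    intro h0; rw [h0, map_zero] at hE; exact zero_ne_one hE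
  obtain ⟨t1, t2, hS, hPi⟩ := ftw_usum hx hx1 hx2 (ftw_eqn hP) (ftw_eqn hQ) hE0
  rw [e1, e2]
  refine ⟨n1, n2, t1, t2, ?_, ?_, ?_⟩
  · exact ftw_pair_le v hu1 hu2 ha2 ha4 hS hPi
  · refine ftw_pair_le v hu1 hu2 ha2 ha4
      (U2 := (((y1 - y2) / (x1 - x2)) ^ 2 + (y1 - y2) / (x1 - x2) - a₂ - x1 - x2)⁻¹) ?_ ?_
    · rw [add_comm]; exact hS
    · rw [mul_comm]; exact hPi
  · exact ftw_pair_sum v hu1 hu2 ha2 ha4 hS

/-- Doubling a point of `E₁` which is not a `2`-torsion point. -/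
theorem ftw_dbl (ha2 : v a₂ ≤ 1) (ha4 : v a₄ ≤ 1) {x y : K}
    (hP : (ftw_curve a₂ a₄).toAffine.Nonsingular x y) (hv : 1 < v x) (hy : 2 * y + x ≠ 0) :
    Point.some x y hP + Point.some x y hP ≠ 0 ∧
    fe1_X (Point.some x y hP + Point.some x y hP) ≠ 0 ∧
    v (fe1_X (Point.some x y hP + Point.some x y hP))⁻¹ ≤ v x⁻¹ ∧
    v ((fe1_X (Point.some x y hP + Point.some x y hP))⁻¹ - 4 * x⁻¹) ≤ v x⁻¹ ^ 2 := by
  have hu := fe1_inv_lt_one v hv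
  have hx0 := fe1_ne_zero_of_one_lt v hv
  have e := ftw_eqn hP
  obtain ⟨n1, e1⟩ := ftw_X_dbl hP hy
  have hH := ftw_dbl_H v hu ha4
  have hH0 : 1 - a₄ * x⁻¹ ^ 2 ≠ 0 := by
    intro h0; rw [h0, map_zero] at hH; exact zero_ne_one hH
  obtain ⟨t1, hU⟩ := ftw_udbl hx0 hy e hH0
  rw [e1]
  obtain ⟨b1, b2⟩ := ftw_dbl_le v hu ha2 ha4 hU
  exact ⟨n1, t1, b1, b2⟩

/-- `E₁` is closed under addition, with control of `v (1 / x)`. -/
theorem ftw_E1_add_le (ha2 : v a₂ ≤ 1) (ha4 : v a₄ ≤ 1)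
    {P Q : (ftw_curve a₂ a₄).toAffine.Point} (hP : fe1_E1 v P) (hQ : fe1_E1 v Q) :
    fe1_E1 v (P + Q) ∧ v (fe1_X (P + Q))⁻¹ ≤ max (v (fe1_X P)⁻¹) (v (fe1_X Q)⁻¹) := by
  rcases P with _ | ⟨x1, y1, hP'⟩
  · change fe1_E1 v (0 + Q) ∧ v (fe1_X (0 + Q))⁻¹ ≤ _
    rw [zero_add]; exact ⟨hQ, le_max_right _ _⟩
  rcases Q with _ | ⟨x2, y2, hQ'⟩
  · change fe1_E1 v (Point.some x1 y1 hP' + 0) ∧ v (fe1_X (Point.some x1 y1 hP' + 0))⁻¹ ≤ _
    rw [add_zero]; exact ⟨hP, le_max_left _ _⟩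
  have hv1 : 1 < v x1 := hP.resolve_left (Point.some_ne_zero _)
  have hv2 : 1 < v x2 := hQ.resolve_left (Point.some_ne_zero _)
  simp only [fe1_X_some]
  by_cases hx : x1 = x2
  · rcases Y_eq_of_X_eq hP'.1 hQ'.1 hx with hy | hy
    · subst hx; subst hy
      by_cases h2y : 2 * y1 + x1 = 0
      · rw [ftw_dbl_zero hP' h2y]
        refine ⟨fe1_E1_zero v, ?_⟩
        simp
      · obtain ⟨-, t1, b1, -⟩ := ftw_dbl v ha2 ha4 hP' hv1 h2y
        refine ⟨Or.inr (fe1_one_lt_of_inv v t1 (lt_of_le_of_lt b1 (fe1_inv_lt_one v hv1))), ?_⟩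
        exact b1.trans (le_max_left _ _)
    · rw [Point.add_of_Y_eq hx hy]
      refine ⟨fe1_E1_zero v, ?_⟩
      simp
  · obtain ⟨-, -, t1, -, b1, -, -⟩ := ftw_pair v ha2 ha4 hP' hQ' hx hv1 hv2
    refine ⟨Or.inr (fe1_one_lt_of_inv v t1 (lt_of_le_of_lt b1 ?_)), b1⟩
    exact max_lt (fe1_inv_lt_one v hv1) (fe1_inv_lt_one v hv2)

theorem ftw_E1_add (ha2 : v a₂ ≤ 1) (ha4 : v a₄ ≤ 1)
    {P Q : (ftw_curve a₂ a₄).toAffine.Point} (hP : fe1_E1 v P) (hQ : fe1_E1 v Q) :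
    fe1_E1 v (P + Q) :=
  (ftw_E1_add_le v ha2 ha4 hP hQ).1

theorem ftw_E1_sub (ha2 : v a₂ ≤ 1) (ha4 : v a₄ ≤ 1)
    {P Q : (ftw_curve a₂ a₄).toAffine.Point} (hP : fe1_E1 v P) (hQ : fe1_E1 v Q) :
    fe1_E1 v (P - Q) := by
  rw [sub_eq_add_neg]
  exact ftw_E1_add v ha2 ha4 hP (fe1_E1_neg v hQ)

/-- `E₁` has no `p`-torsion for an odd prime `p` which is a unit (any residue characteristic). -/
theorem ftw_E1_torsion_free (ha2 : v a₂ ≤ 1) (ha4 : v a₄ ≤ 1) {p : ℕ} (hp : p.Prime)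
    (hp2 : p ≠ 2) (hvp : v (p : K) = 1) {P : (ftw_curve a₂ a₄).toAffine.Point}
    (hP : fe1_E1 v P) (hpP : p • P = 0) : P = 0 := by
  by_contra hP0
  obtain ⟨x, y, hxy, rfl⟩ := fe1_exists_some hP0
  have hX : 1 < v x := hP.resolve_left hP0
  have hu1 : v x⁻¹ < 1 := fe1_inv_lt_one v hX
  have hu0 : 0 < v x⁻¹ := by
    rw [map_inv₀]; exact inv_pos.mpr (lt_trans zero_lt_one hX)
  have h2mem : (2 : K) ∈ v.integer := ofNat_mem _ 2
  -- the order of `P` is `p`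
  have : Fact p.Prime := ⟨hp⟩
  have hop : addOrderOf (Point.some x y hxy) = p := addOrderOf_eq_prime hpP hP0
  have hord : ∀ k : ℕ, 0 < k → k < p → k • (Point.some x y hxy) ≠ 0 := by
    intro k hk hkp h0
    have hd := addOrderOf_dvd_of_nsmul_eq_zero h0
    rw [hop] at hd
    exact absurd (Nat.le_of_dvd hk hd) (not_le.mpr hkp)
  have hp3 : 2 < p := lt_of_le_of_ne hp.two_le (Ne.symm hp2)
  have h2y : 2 * y + x ≠ 0 := by
    intro h0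
    have := hord 2 (by norm_num) hp3
    rw [two_nsmul] at this
    exact this (ftw_dbl_zero hxy h0)
  -- all multiples lie in `E₁`, with `v (u (k • P)) ≤ v u`
  have hmult : ∀ k : ℕ, fe1_E1 v (k • (Point.some x y hxy)) ∧
      v (fe1_X (k • (Point.some x y hxy)))⁻¹ ≤ v x⁻¹ := by
    intro k
    induction k with
    | zero => rw [zero_nsmul]; exact ⟨fe1_E1_zero v, by simp⟩
    | succ k ih =>
      rw [succ_nsmul]
      obtain ⟨hE, hle⟩ := ftw_E1_add_le v ha2 ha4 ih.1 hP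
      exact ⟨hE, hle.trans (max_le ih.2 (by simp))⟩
  -- main congruence `u (k • P) ≡ k² u (P)` modulo `u²`
  have claim : ∀ k : ℕ, k + 1 < p →
      v ((fe1_X (k • (Point.some x y hxy)))⁻¹ - (k : K) ^ 2 * x⁻¹) ≤ v x⁻¹ ^ 2 ∧
      v ((fe1_X ((k + 1) • (Point.some x y hxy)))⁻¹ - ((k + 1 : ℕ) : K) ^ 2 * x⁻¹) ≤
        v x⁻¹ ^ 2 := by
    intro k
    induction k with
    | zero => intro _; simp
    | succ k ih =>
      intro hk
      obtain ⟨c0, c1⟩ := ih (by omega)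
      refine ⟨c1, ?_⟩
      rcases Nat.eq_zero_or_pos k with rfl | hkpos
      · -- doubling
        obtain ⟨-, -, -, b2⟩ := ftw_dbl v ha2 ha4 hxy hX h2y
        have e2 : (0 + 1 + 1) • (Point.some x y hxy) = Point.some x y hxy + Point.some x y hxy := by
          rw [zero_add, two_nsmul]
        rw [e2]
        have e4 : (((0 + 1 + 1 : ℕ) : K)) ^ 2 = 4 := by norm_num
        rw [e4]
        exact b2
      · -- the recursion
        obtain ⟨xk, yk, hk', hPk⟩ := fe1_exists_some (hord (k + 1) (by omega) (by omega))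
        have hvxk : 1 < v xk := by
          have := (hmult (k + 1)).1
          rw [hPk] at this
          exact this.resolve_left (Point.some_ne_zero _)
        have hukle : v xk⁻¹ ≤ v x⁻¹ := by
          have := (hmult (k + 1)).2
          rwa [hPk, fe1_X_some] at this
        have hne : xk ≠ x := by
          intro hxe
          have := (Point.X_eq_iff (h₁ := hk') (h₂ := hxy)).mp hxe
          rw [← hPk] at this
          rcases this with h | h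
          · have h0 : k • (Point.some x y hxy) = 0 := by
              rw [succ_nsmul] at h; exact add_eq_right.mp h
            exact hord k hkpos (by omega) h0
          · have h0 : (k + 1 + 1) • (Point.some x y hxy) = 0 := by
              rw [succ_nsmul, h, neg_add_cancel]
            exact hord (k + 1 + 1) (by omega) hk h0
        obtain ⟨-, -, -, -, -, -, hsum⟩ := ftw_pair v ha2 ha4 hk' hxy hne hvxk hX
        rw [← hPk] at hsum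
        have e1 : (k + 1) • (Point.some x y hxy) + Point.some x y hxy =
            (k + 1 + 1) • (Point.some x y hxy) := (succ_nsmul _ (k + 1)).symm
        have e2 : (k + 1) • (Point.some x y hxy) - Point.some x y hxy =
            k • (Point.some x y hxy) := by
          rw [succ_nsmul, add_sub_cancel_right]
        rw [e1, e2] at hsum
        rw [hPk, fe1_X_some] at c1
        set U2 := (fe1_X ((k + 1 + 1) • (Point.some x y hxy)))⁻¹ with hU2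
        set U0 := (fe1_X (k • (Point.some x y hxy)))⁻¹ with hU0
        have hsum' : v (U2 + U0 - 2 * (xk⁻¹ + x⁻¹)) ≤ v x⁻¹ ^ 2 := by
          refine hsum.trans ?_
          rw [sq]
          exact mul_le_mul_left hukle _
        have key : U2 - ((k + 1 + 1 : ℕ) : K) ^ 2 * x⁻¹ =
            (U2 + U0 - 2 * (xk⁻¹ + x⁻¹)) - (U0 - (k : K) ^ 2 * x⁻¹) +
              (xk⁻¹ - ((k + 1 : ℕ) : K) ^ 2 * x⁻¹) * 2 := by
          push_cast; ring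
        rw [key]
        exact v.map_add_le (v.map_sub_le hsum' c0) ((fe1_mul_int_le v h2mem).trans c1)
  -- the contradiction
  obtain ⟨a, rfl⟩ : ∃ a, p = 2 * a + 1 := by
    rcases hp.eq_two_or_odd' with h | h
    · exact absurd h hp2
    · exact h
  have ha : 0 < a := by
    rcases Nat.eq_zero_or_pos a with rfl | h
    · exact absurd hp (by norm_num)
    · exact h
  obtain ⟨c0, c1⟩ := claim a (by omega)
  have hneg : (a + 1) • (Point.some x y hxy) = -(a • (Point.some x y hxy)) := by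
    rw [eq_neg_iff_add_eq_zero, ← add_nsmul]
    have : a + 1 + a = 2 * a + 1 := by ring
    rw [this]; exact hpP
  rw [hneg, fe1_X_neg] at c1
  have hdiff : v (((2 * a + 1 : ℕ) : K) * x⁻¹) ≤ v x⁻¹ ^ 2 := by
    have e : ((2 * a + 1 : ℕ) : K) * x⁻¹ =
        ((fe1_X (a • (Point.some x y hxy)))⁻¹ - (a : K) ^ 2 * x⁻¹) -
        ((fe1_X (a • (Point.some x y hxy)))⁻¹ - ((a + 1 : ℕ) : K) ^ 2 * x⁻¹) := by
      push_cast; ring
    rw [e]
    exact v.map_sub_le c0 c1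
  rw [map_mul, hvp, one_mul, sq] at hdiff
  have : v x⁻¹ * v x⁻¹ < v x⁻¹ * 1 := mul_lt_mul_of_pos_left hu1 hu0
  rw [mul_one] at this
  exact absurd hdiff (not_le.mpr this)

end points

/-! ### Additive form (`v : AddValuation K (WithTop ℚ)`, `fl_InE1` from `Defs.lean`) -/

section additive

variable {K : Type*} [Field K] [DecidableEq K] (v : AddValuation K (WithTop ℚ)) {a₂ a₄ : K}

/-- `E₁` is closed under addition. -/
theorem ftw_add_mem (ha2 : 0 ≤ v a₂) (ha4 : 0 ≤ v a₄) {P Q : (ftw_curve a₂ a₄).toAffine.Point}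
    (hP : fl_InE1 v P) (hQ : fl_InE1 v Q) : fl_InE1 v (P + Q) :=
  (fe1_inE1_iff v _).mpr (ftw_E1_add (fe1_mul v) ha2 ha4
    ((fe1_inE1_iff v _).mp hP) ((fe1_inE1_iff v _).mp hQ))

/-- `E₁` is closed under subtraction. -/
theorem ftw_sub_mem (ha2 : 0 ≤ v a₂) (ha4 : 0 ≤ v a₄) {P Q : (ftw_curve a₂ a₄).toAffine.Point}
    (hP : fl_InE1 v P) (hQ : fl_InE1 v Q) : fl_InE1 v (P - Q) :=
  (fe1_inE1_iff v _).mpr (ftw_E1_sub (fe1_mul v) ha2 ha4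
    ((fe1_inE1_iff v _).mp hP) ((fe1_inE1_iff v _).mp hQ))

/-- `E₁` has no `p`-torsion for an odd prime `p` with `v p = 0`. -/
theorem ftw_torsion (ha2 : 0 ≤ v a₂) (ha4 : 0 ≤ v a₄) (p : ℕ) (hp : p.Prime) (hp2 : p ≠ 2)
    (hvp : v (p : K) = 0) {P : (ftw_curve a₂ a₄).toAffine.Point} (hP : fl_InE1 v P)
    (hpP : p • P = 0) : P = 0 :=
  ftw_E1_torsion_free (fe1_mul v) ha2 ha4 hp hp2 hvp ((fe1_inE1_iff v _).mp hP) hpP

end additive

end Fermat.Agent.Lib.Frey
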