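/-
S13 moonshot, package (iv) "the prime 2" (helper2): X-only unsigned-level casework for the model
`y² + x y = x³ + a₂ x² + a₄ x` (`a₁ = 1`, `a₃ = a₆ = 0`), `b₂ = 1 + 4 a₂`.

Context: `v : AddValuation K (WithTop ℚ)`, `0 ≤ v 2`, `v b₂ = 0`, `v a₄ = m > 0` (any residue
characteristic, in particular residue characteristic `2`).  For `x₁ ≠ x₂` the `X`-coordinates
`T₁, T₂` of `P ± Q` satisfy
`(T₁ + T₂) (x₁ - x₂)² = 2 x₁ x₂ (x₁ + x₂) + b₂ x₁ x₂ + 2 a₄ (x₁ + x₂)` and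
`T₁ T₂ (x₁ - x₂)² = (x₁ x₂ - a₄)²`; the `X`-coordinate `T` of `2 P` satisfies
`T (4 x³ + b₂ x² + 4 a₄ x) = (x² - a₄)²`.
Main results: `ftw_lemmaU` (levels of `T₁, T₂`), `ftw_lemmaDup` (level of `T`), `ftw_E1_pair`,
`ftw_E1_dup` (strict versions for the kernel of reduction).
-/
import Fermat.Agent.Lib.Frey.ULevelVal
import Fermat.Agent.Lib.Frey.ULevelU

set_option autoImplicit false

namespace Fermat.Agent.Lib.Frey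

variable {K : Type*} [Field K] (v : AddValuation K (WithTop ℚ))

/-- Standing hypotheses. -/
structure ftw_Ctx (b₂ a₄ : K) (m : ℚ) : Prop where
  h2 : ((0 : ℚ) : WithTop ℚ) ≤ v 2
  hb₂ : v b₂ = ((0 : ℚ) : WithTop ℚ)
  ha₄ : v a₄ = (m : WithTop ℚ)
  hm : 0 < m

/-- numerator of `T₁ + T₂` -/
def ftw_N (b₂ a₄ x₁ x₂ : K) : K :=
  2 * (x₁ * x₂ * (x₁ + x₂)) + b₂ * (x₁ * x₂) + 2 * (a₄ * (x₁ + x₂))

variable {v}

section numerator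

variable {b₂ a₄ x₁ x₂ : K} {m : ℚ}

theorem ftw_two_mul_lb (hc : ftw_Ctx v b₂ a₄ m) {x : K} {r : ℚ} (h : (r : WithTop ℚ) ≤ v x) :
    (r : WithTop ℚ) ≤ v (2 * x) :=
  fuc_lbm v r hc.h2 h (by linarith)

theorem ftw_four_mul_lb (hc : ftw_Ctx v b₂ a₄ m) {x : K} {r : ℚ} (h : (r : WithTop ℚ) ≤ v x) :
    (r : WithTop ℚ) ≤ v (4 * x) := by
  have : (4 : K) * x = 2 * (2 * x) := by ring
  rw [this]
  exact ftw_two_mul_lb hc (ftw_two_mul_lb hc h)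

/-- lower bound for the numerator -/
theorem ftw_N_lb (hc : ftw_Ctx v b₂ a₄ m) {r q g : ℚ} (hr : (r : WithTop ℚ) ≤ v (x₁ * x₂))
    (hq : (q : WithTop ℚ) ≤ v (x₁ + x₂)) (h1 : g ≤ r + q) (h2 : g ≤ r) (h3 : g ≤ m + q) :
    (g : WithTop ℚ) ≤ v (ftw_N b₂ a₄ x₁ x₂) := by
  unfold ftw_N
  have hA : (g : WithTop ℚ) ≤ v (2 * (x₁ * x₂ * (x₁ + x₂))) :=
    ftw_two_mul_lb hc (fuc_lbm v g hr hq h1)
  have hB : (g : WithTop ℚ) ≤ v (b₂ * (x₁ * x₂)) := fuc_lbm v g hc.hb₂.ge hr (by linarith)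
  have hC : (g : WithTop ℚ) ≤ v (2 * (a₄ * (x₁ + x₂))) :=
    ftw_two_mul_lb hc (fuc_lbm v g hc.ha₄.ge hq h3)
  exact fuc_lb_add v (fuc_lb_add v hA hB le_rfl le_rfl) hC le_rfl le_rfl

/-- exact value of the numerator when `b₂ x₁ x₂` dominates -/
theorem ftw_N_ex (hc : ftw_Ctx v b₂ a₄ m) {r q : ℚ} (hr : v (x₁ * x₂) = (r : WithTop ℚ))
    (hq : (q : WithTop ℚ) ≤ v (x₁ + x₂)) (h1 : 0 < q) (h3 : r < m + q) :
    v (ftw_N b₂ a₄ x₁ x₂) = (r : WithTop ℚ) := by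
  unfold ftw_N
  have hB : v (b₂ * (x₁ * x₂)) = (r : WithTop ℚ) := fuc_exm v r hc.hb₂ hr (by ring)
  have hA : ((r + q : ℚ) : WithTop ℚ) ≤ v (2 * (x₁ * x₂ * (x₁ + x₂))) :=
    ftw_two_mul_lb hc (fuc_lbm v (r + q) hr.ge hq le_rfl)
  have hC : ((m + q : ℚ) : WithTop ℚ) ≤ v (2 * (a₄ * (x₁ + x₂))) :=
    ftw_two_mul_lb hc (fuc_lbm v (m + q) hc.ha₄.ge hq le_rfl)
  have h12 : v (2 * (x₁ * x₂ * (x₁ + x₂)) + b₂ * (x₁ * x₂)) = (r : WithTop ℚ) :=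
    fuc_ex_add' v hB hA (by linarith)
  exact fuc_ex_add v h12 hC h3

end numerator

/-- The data: `T₁, T₂` are the `X`-coordinates of `P ± Q`. -/
structure ftw_Pair (b₂ a₄ x₁ x₂ T₁ T₂ : K) : Prop where
  hx : x₁ ≠ x₂
  hS : (T₁ + T₂) * (x₁ - x₂) ^ 2 = ftw_N b₂ a₄ x₁ x₂
  hP : T₁ * T₂ * (x₁ - x₂) ^ 2 = (x₁ * x₂ - a₄) ^ 2

section pair

variable {b₂ a₄ x₁ x₂ T₁ T₂ : K} {m : ℚ}

theorem ftw_Pair.symm (h : ftw_Pair b₂ a₄ x₁ x₂ T₁ T₂) : ftw_Pair b₂ a₄ x₂ x₁ T₁ T₂ where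
  hx := h.hx.symm
  hS := by
    have := h.hS
    unfold ftw_N at this ⊢
    linear_combination this
  hP := by
    have := h.hP
    linear_combination this

theorem ftw_Pair.S_lb (h : ftw_Pair b₂ a₄ x₁ x₂ T₁ T₂) {d g : ℚ}
    (hd : v (x₁ - x₂) = (d : WithTop ℚ)) (hN : (g : WithTop ℚ) ≤ v (ftw_N b₂ a₄ x₁ x₂)) (r : ℚ)
    (hr : r ≤ g - 2 * d) : (r : WithTop ℚ) ≤ v (T₁ + T₂) := by
  rw [← h.hS] at hN
  exact fuc_lb_mono v (fuc_lb_of_mul v hN (fuc_ex_sq v hd)) hr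

theorem ftw_Pair.S_ex (h : ftw_Pair b₂ a₄ x₁ x₂ T₁ T₂) {d g : ℚ}
    (hd : v (x₁ - x₂) = (d : WithTop ℚ)) (hN : v (ftw_N b₂ a₄ x₁ x₂) = (g : WithTop ℚ)) (r : ℚ)
    (hr : r = g - 2 * d) : v (T₁ + T₂) = (r : WithTop ℚ) := by
  rw [← h.hS] at hN
  rw [hr]
  exact fuc_ex_of_mul v hN (fuc_ex_sq v hd)

theorem ftw_Pair.P_lb (h : ftw_Pair b₂ a₄ x₁ x₂ T₁ T₂) {d g : ℚ}
    (hd : v (x₁ - x₂) = (d : WithTop ℚ)) (hM : (g : WithTop ℚ) ≤ v (x₁ * x₂ - a₄)) (r : ℚ)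
    (hr : r ≤ 2 * g - 2 * d) : (r : WithTop ℚ) ≤ v (T₁ * T₂) :=
  fuc_prod_lb v hd h.hP hM r hr

theorem ftw_Pair.P_ex (h : ftw_Pair b₂ a₄ x₁ x₂ T₁ T₂) {d g : ℚ}
    (hd : v (x₁ - x₂) = (d : WithTop ℚ)) (hM : v (x₁ * x₂ - a₄) = (g : WithTop ℚ)) (r : ℚ)
    (hr : r = 2 * g - 2 * d) : v (T₁ * T₂) = (r : WithTop ℚ) :=
  fuc_prod_ex v hd h.hP hM r hr

end pair


section regimes

variable {b₂ a₄ x₁ x₂ T₁ T₂ : K} {m : ℚ}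

theorem ftw_ex_of_le_zero {x : K} (h : v x ≤ 0) : ∃ t : ℚ, v x = (t : WithTop ℚ) ∧ t ≤ 0 := by
  have hx0 : x ≠ 0 := by
    rintro rfl
    rw [v.map_zero] at h
    simp at h
  obtain ⟨t, ht⟩ := fuc_exists_ex v hx0
  refine ⟨t, ht, ?_⟩
  rw [ht] at h
  exact_mod_cast h

theorem ftw_ex_of_lt_zero {x : K} (h : v x < 0) : ∃ t : ℚ, v x = (t : WithTop ℚ) ∧ t < 0 := by
  obtain ⟨t, ht, -⟩ := ftw_ex_of_le_zero h.le
  refine ⟨t, ht, ?_⟩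
  rw [ht] at h
  exact_mod_cast h

/-- `min t₁ t₂ ≤ v (x₁ ± x₂)` -/
theorem ftw_lb_add_min {t₁ t₂ : ℚ} (h₁ : v x₁ = (t₁ : WithTop ℚ)) (h₂ : v x₂ = (t₂ : WithTop ℚ)) :
    ((min t₁ t₂ : ℚ) : WithTop ℚ) ≤ v (x₁ + x₂) :=
  fuc_lb_add v h₁.ge h₂.ge (min_le_left _ _) (min_le_right _ _)

theorem ftw_lb_sub_min {t₁ t₂ : ℚ} (h₁ : v x₁ = (t₁ : WithTop ℚ)) (h₂ : v x₂ = (t₂ : WithTop ℚ)) :
    ((min t₁ t₂ : ℚ) : WithTop ℚ) ≤ v (x₁ - x₂) :=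
  fuc_lb_sub v h₁.ge h₂.ge (min_le_left _ _) (min_le_right _ _)

/-- regime ZZ: both in `E₀` -/
theorem ftw_regime_ZZ (hc : ftw_Ctx v b₂ a₄ m) (h : ftw_Pair b₂ a₄ x₁ x₂ T₁ T₂)
    (h₁ : v x₁ ≤ 0) (h₂ : v x₂ ≤ 0) : v T₁ ≤ 0 ∧ v T₂ ≤ 0 := by
  obtain ⟨t₁, e₁, ht₁⟩ := ftw_ex_of_le_zero h₁
  obtain ⟨t₂, e₂, ht₂⟩ := ftw_ex_of_le_zero h₂
  obtain ⟨d, hd⟩ := fuc_exists_ex v (sub_ne_zero.mpr h.hx)
  have hdm : min t₁ t₂ ≤ d := fuc_le_of_ex_lb v hd (ftw_lb_sub_min e₁ e₂)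
  have hmin1 : min t₁ t₂ ≤ t₁ := min_le_left _ _
  have hmin2 : min t₁ t₂ ≤ t₂ := min_le_right _ _
  have hminsum : t₁ + t₂ ≤ min t₁ t₂ := by
    rcases min_choice t₁ t₂ with hh | hh <;> rw [hh] <;> linarith
  have hr : v (x₁ * x₂) = ((t₁ + t₂ : ℚ) : WithTop ℚ) := fuc_ex_mul v e₁ e₂
  have hM : v (x₁ * x₂ - a₄) = ((t₁ + t₂ : ℚ) : WithTop ℚ) :=
    fuc_ex_sub v hr hc.ha₄.ge (by linarith [hc.hm])
  have hP := h.P_ex hd hM (2 * (t₁ + t₂) - 2 * d) rfl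
  have hN : ((2 * (t₁ + t₂) : ℚ) : WithTop ℚ) ≤ v (ftw_N b₂ a₄ x₁ x₂) :=
    ftw_N_lb hc hr.ge (ftw_lb_add_min e₁ e₂) (by linarith) (by linarith) (by linarith [hc.hm])
  have hS := h.S_lb hd hN (2 * (t₁ + t₂) - 2 * d) le_rfl
  exact fuc_pair_le_zero v hP (by linarith) hS

/-- regime ZZ, strict version: both in `E₁` -/
theorem ftw_regime_E1 (hc : ftw_Ctx v b₂ a₄ m) (h : ftw_Pair b₂ a₄ x₁ x₂ T₁ T₂)
    (h₁ : v x₁ < 0) (h₂ : v x₂ < 0) : v T₁ < 0 ∧ v T₂ < 0 := by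
  obtain ⟨t₁, e₁, ht₁⟩ := ftw_ex_of_lt_zero h₁
  obtain ⟨t₂, e₂, ht₂⟩ := ftw_ex_of_lt_zero h₂
  obtain ⟨d, hd⟩ := fuc_exists_ex v (sub_ne_zero.mpr h.hx)
  have hdm : min t₁ t₂ ≤ d := fuc_le_of_ex_lb v hd (ftw_lb_sub_min e₁ e₂)
  have hmin1 : min t₁ t₂ ≤ t₁ := min_le_left _ _
  have hmin2 : min t₁ t₂ ≤ t₂ := min_le_right _ _
  have hminsum : t₁ + t₂ < min t₁ t₂ := by
    rcases min_choice t₁ t₂ with hh | hh <;> rw [hh] <;> linarith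
  have hr : v (x₁ * x₂) = ((t₁ + t₂ : ℚ) : WithTop ℚ) := fuc_ex_mul v e₁ e₂
  have hM : v (x₁ * x₂ - a₄) = ((t₁ + t₂ : ℚ) : WithTop ℚ) :=
    fuc_ex_sub v hr hc.ha₄.ge (by linarith [hc.hm])
  have hP := h.P_ex hd hM (2 * (t₁ + t₂) - 2 * d) rfl
  -- `g = t₁ + t₂ + min t₁ t₂ > 2 (t₁ + t₂)`
  have hN : ((t₁ + t₂ + min t₁ t₂ : ℚ) : WithTop ℚ) ≤ v (ftw_N b₂ a₄ x₁ x₂) :=
    ftw_N_lb hc hr.ge (ftw_lb_add_min e₁ e₂) le_rfl (by linarith) (by linarith [hc.hm])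
  have hS := h.S_lb hd hN (t₁ + t₂ + min t₁ t₂ - 2 * d) le_rfl
  have hne := fuc_ne_zero_of_ex v hP
  obtain ⟨τ₁, k1⟩ := fuc_exists_ex v (left_ne_zero_of_mul hne)
  obtain ⟨τ₂, k2⟩ := fuc_exists_ex v (right_ne_zero_of_mul hne)
  have hsum : τ₁ + τ₂ = 2 * (t₁ + t₂) - 2 * d := fuc_ex_unique v (fuc_ex_mul v k1 k2) hP
  constructor
  · by_contra hcon
    rw [k1, not_lt] at hcon
    have hτ : 0 ≤ τ₁ := by exact_mod_cast hcon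
    have := fuc_ex_add' v k2 k1.ge (by linarith)
    have := fuc_le_of_ex_lb v this hS
    linarith
  · by_contra hcon
    rw [k2, not_lt] at hcon
    have hτ : 0 ≤ τ₂ := by exact_mod_cast hcon
    have := fuc_ex_add v k1 k2.ge (by linarith)
    have := fuc_le_of_ex_lb v this hS
    linarith


/-- regime ZN: `v x₁ ≤ 0`, `0 < v x₂ = s < m`: both roots have value `s` -/
theorem ftw_regime_ZN (hc : ftw_Ctx v b₂ a₄ m) (h : ftw_Pair b₂ a₄ x₁ x₂ T₁ T₂)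
    (h₁ : v x₁ ≤ 0) {s : ℚ} (e₂ : v x₂ = (s : WithTop ℚ)) (hs : 0 < s) (hsm : s < m) :
    v T₁ = (s : WithTop ℚ) ∧ v T₂ = (s : WithTop ℚ) := by
  obtain ⟨t₁, e₁, ht₁⟩ := ftw_ex_of_le_zero h₁
  have hd : v (x₁ - x₂) = (t₁ : WithTop ℚ) := fuc_ex_sub v e₁ e₂.ge (by linarith)
  have hq : v (x₁ + x₂) = (t₁ : WithTop ℚ) := fuc_ex_add v e₁ e₂.ge (by linarith)
  have hr : v (x₁ * x₂) = ((t₁ + s : ℚ) : WithTop ℚ) := fuc_ex_mul v e₁ e₂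
  have hM : v (x₁ * x₂ - a₄) = ((t₁ + s : ℚ) : WithTop ℚ) :=
    fuc_ex_sub v hr hc.ha₄.ge (by linarith)
  have hP := h.P_ex hd hM (2 * s) (by ring)
  have hN : ((2 * t₁ + s : ℚ) : WithTop ℚ) ≤ v (ftw_N b₂ a₄ x₁ x₂) :=
    ftw_N_lb hc hr.ge hq.ge (by linarith) (by linarith) (by linarith)
  have hS := h.S_lb hd hN s (by linarith)
  have := fuc_pair_eq v hS hP le_rfl
  rwa [show 2 * s / 2 = s by ring] at this

/-- regime ZM: `v x₁ ≤ 0`, `m ≤ v x₂`: both roots have value `≥ m` -/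
theorem ftw_regime_ZM (hc : ftw_Ctx v b₂ a₄ m) (h : ftw_Pair b₂ a₄ x₁ x₂ T₁ T₂)
    (h₁ : v x₁ ≤ 0) (h₂ : (m : WithTop ℚ) ≤ v x₂) :
    (m : WithTop ℚ) ≤ v T₁ ∧ (m : WithTop ℚ) ≤ v T₂ := by
  have hm := hc.hm
  obtain ⟨t₁, e₁, ht₁⟩ := ftw_ex_of_le_zero h₁
  have hd : v (x₁ - x₂) = (t₁ : WithTop ℚ) := fuc_ex_sub v e₁ h₂ (by linarith)
  have hq : v (x₁ + x₂) = (t₁ : WithTop ℚ) := fuc_ex_add v e₁ h₂ (by linarith)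
  have hr : ((t₁ + m : ℚ) : WithTop ℚ) ≤ v (x₁ * x₂) := fuc_lb_mul v e₁.ge h₂
  have hM : ((t₁ + m : ℚ) : WithTop ℚ) ≤ v (x₁ * x₂ - a₄) :=
    fuc_lb_sub v hr hc.ha₄.ge le_rfl (by linarith)
  have hP := h.P_lb hd hM (2 * m) (by linarith)
  have hN : ((m + 2 * t₁ : ℚ) : WithTop ℚ) ≤ v (ftw_N b₂ a₄ x₁ x₂) :=
    ftw_N_lb hc hr hq.ge (by linarith) (by linarith) (by linarith)
  have hS := h.S_lb hd hN m (by linarith)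
  exact fuc_pair_ge v hS hP

/-- regime NM: `0 < v x₁ = s < m`, `m ≤ v x₂`: both roots have value `m - s` -/
theorem ftw_regime_NM (hc : ftw_Ctx v b₂ a₄ m) (h : ftw_Pair b₂ a₄ x₁ x₂ T₁ T₂)
    {s : ℚ} (e₁ : v x₁ = (s : WithTop ℚ)) (hs : 0 < s) (hsm : s < m)
    (h₂ : (m : WithTop ℚ) ≤ v x₂) :
    v T₁ = ((m - s : ℚ) : WithTop ℚ) ∧ v T₂ = ((m - s : ℚ) : WithTop ℚ) := by
  have hd : v (x₁ - x₂) = (s : WithTop ℚ) := fuc_ex_sub v e₁ h₂ hsm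
  have hq : v (x₁ + x₂) = (s : WithTop ℚ) := fuc_ex_add v e₁ h₂ hsm
  have hr : ((s + m : ℚ) : WithTop ℚ) ≤ v (x₁ * x₂) := fuc_lb_mul v e₁.ge h₂
  have hM : v (x₁ * x₂ - a₄) = (m : WithTop ℚ) := fuc_ex_sub' v hc.ha₄ hr (by linarith)
  have hP := h.P_ex hd hM (2 * m - 2 * s) rfl
  have hN : ((s + m : ℚ) : WithTop ℚ) ≤ v (ftw_N b₂ a₄ x₁ x₂) :=
    ftw_N_lb hc hr hq.ge (by linarith) le_rfl (by linarith)
  have hS := h.S_lb hd hN (m - s) (by linarith)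
  have := fuc_pair_eq v hS hP (by linarith)
  rwa [show (2 * m - 2 * s) / 2 = m - s by ring] at this

/-- regime MM: `m ≤ v x₁`, `m ≤ v x₂`: both roots have value `≤ 0` -/
theorem ftw_regime_MM (hc : ftw_Ctx v b₂ a₄ m) (h : ftw_Pair b₂ a₄ x₁ x₂ T₁ T₂)
    (h₁ : (m : WithTop ℚ) ≤ v x₁) (h₂ : (m : WithTop ℚ) ≤ v x₂) : v T₁ ≤ 0 ∧ v T₂ ≤ 0 := by
  have hm := hc.hm
  obtain ⟨d, hd⟩ := fuc_exists_ex v (sub_ne_zero.mpr h.hx)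
  have hdm : m ≤ d := fuc_le_of_ex_lb v hd (fuc_lb_sub v h₁ h₂ le_rfl le_rfl)
  have hq : (m : WithTop ℚ) ≤ v (x₁ + x₂) := fuc_lb_add v h₁ h₂ le_rfl le_rfl
  have hr : ((2 * m : ℚ) : WithTop ℚ) ≤ v (x₁ * x₂) := by
    have := fuc_lb_mul v h₁ h₂
    rwa [show m + m = 2 * m by ring] at this
  have hM : v (x₁ * x₂ - a₄) = (m : WithTop ℚ) := fuc_ex_sub' v hc.ha₄ hr (by linarith)
  have hP := h.P_ex hd hM (2 * m - 2 * d) rfl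
  have hN : ((2 * m : ℚ) : WithTop ℚ) ≤ v (ftw_N b₂ a₄ x₁ x₂) :=
    ftw_N_lb hc hr hq (by linarith) le_rfl (by linarith)
  have hS := h.S_lb hd hN (2 * m - 2 * d) le_rfl
  exact fuc_pair_le_zero v hP (by linarith) hS


/-- the level of the root of value `s₁ + s₂ - 2 d` in regime NN is `s₂ - s₁` -/
theorem ftw_lvl_diff {s₁ s₂ d : ℚ} (e₁ : v x₁ = (s₁ : WithTop ℚ)) (e₂ : v x₂ = (s₂ : WithTop ℚ))
    (hd : v (x₁ - x₂) = (d : WithTop ℚ)) (hs1 : 0 < s₁) (hle : s₁ ≤ s₂) (hs2m : s₂ < m) {T : K}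
    (hT : v T = ((s₁ + s₂ - 2 * d : ℚ) : WithTop ℚ)) : fuc_IsLvl v m T (s₂ - s₁) := by
  rcases lt_or_eq_of_le hle with hlt | heq
  · have hd' : v (x₁ - x₂) = (s₁ : WithTop ℚ) := fuc_ex_sub v e₁ e₂.ge hlt
    have hds : d = s₁ := fuc_ex_unique v hd hd'
    refine Or.inr (Or.inl ⟨s₂ - s₁, ?_, by linarith, by linarith, rfl⟩)
    rw [hT]; congr 1; rw [hds]; ring
  · have hdm : s₁ ≤ d := fuc_le_of_ex_lb v hd (fuc_lb_sub v e₁.ge e₂.ge le_rfl hle)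
    refine Or.inl ⟨?_, by linarith⟩
    rw [hT]
    have : s₁ + s₂ - 2 * d ≤ 0 := by linarith
    exact_mod_cast this

/-- regime NN: `0 < s₁ ≤ s₂ < m` -/
theorem ftw_regime_NN (hc : ftw_Ctx v b₂ a₄ m) (h : ftw_Pair b₂ a₄ x₁ x₂ T₁ T₂)
    {s₁ s₂ : ℚ} (e₁ : v x₁ = (s₁ : WithTop ℚ)) (e₂ : v x₂ = (s₂ : WithTop ℚ))
    (hs1 : 0 < s₁) (hle : s₁ ≤ s₂) (hs2m : s₂ < m) :
    (fuc_IsLvl v m T₁ (s₂ - s₁) ∧ fuc_IsLvl v m T₂ (min (s₁ + s₂) (2 * m - s₁ - s₂))) ∨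
    (fuc_IsLvl v m T₂ (s₂ - s₁) ∧ fuc_IsLvl v m T₁ (min (s₁ + s₂) (2 * m - s₁ - s₂))) := by
  have hm := hc.hm
  obtain ⟨d, hd⟩ := fuc_exists_ex v (sub_ne_zero.mpr h.hx)
  have hdm : s₁ ≤ d := fuc_le_of_ex_lb v hd (fuc_lb_sub v e₁.ge e₂.ge le_rfl hle)
  have hq : (s₁ : WithTop ℚ) ≤ v (x₁ + x₂) := fuc_lb_add v e₁.ge e₂.ge le_rfl hle
  have hr : v (x₁ * x₂) = ((s₁ + s₂ : ℚ) : WithTop ℚ) := fuc_ex_mul v e₁ e₂
  have hN : v (ftw_N b₂ a₄ x₁ x₂) = ((s₁ + s₂ : ℚ) : WithTop ℚ) :=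
    ftw_N_ex hc hr hq hs1 (by linarith)
  have hS := h.S_ex hd hN (s₁ + s₂ - 2 * d) rfl
  rcases lt_trichotomy (s₁ + s₂) m with hlt | heq | hgt
  · -- `s₁ + s₂ < m`
    have hM : v (x₁ * x₂ - a₄) = ((s₁ + s₂ : ℚ) : WithTop ℚ) := fuc_ex_sub v hr hc.ha₄.ge hlt
    have hP := h.P_ex hd hM (2 * (s₁ + s₂) - 2 * d) rfl
    have hmin : min (s₁ + s₂) (2 * m - s₁ - s₂) = s₁ + s₂ := min_eq_left (by linarith)
    rw [hmin]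
    have hlvl : ∀ T : K, v T = ((s₁ + s₂ : ℚ) : WithTop ℚ) → fuc_IsLvl v m T (s₁ + s₂) :=
      fun T hT => Or.inr (Or.inl ⟨s₁ + s₂, hT, by linarith, hlt, rfl⟩)
    rcases fuc_pair_split v hS hP.ge (by linarith) with ⟨k1, -⟩ | ⟨k2, -⟩
    · left
      refine ⟨ftw_lvl_diff e₁ e₂ hd hs1 hle hs2m k1, hlvl _ ?_⟩
      have := fuc_ex_of_mul v (by rwa [mul_comm] at hP) k1
      rw [this]; congr 1; ring
    · right
      refine ⟨ftw_lvl_diff e₁ e₂ hd hs1 hle hs2m k2, hlvl _ ?_⟩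
      have := fuc_ex_of_mul v hP k2
      rw [this]; congr 1; ring
  · -- `s₁ + s₂ = m`
    have hM : (m : WithTop ℚ) ≤ v (x₁ * x₂ - a₄) :=
      fuc_lb_sub v hr.ge hc.ha₄.ge (by linarith) le_rfl
    have hP := h.P_lb hd hM (2 * m - 2 * d) le_rfl
    have hmin : min (s₁ + s₂) (2 * m - s₁ - s₂) = m := by
      rw [heq]; rw [show 2 * m - s₁ - s₂ = m by linarith]; exact min_self m
    rw [hmin]
    have hlvl : ∀ T : K, ((2 * m - 2 * d - (s₁ + s₂ - 2 * d) : ℚ) : WithTop ℚ) ≤ v T →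
        fuc_IsLvl v m T m := fun T hT =>
      Or.inr (Or.inr ⟨fuc_lb_mono v hT (by linarith), rfl⟩)
    rcases fuc_pair_split v hS hP (by linarith) with ⟨k1, k2⟩ | ⟨k2, k1⟩
    · exact Or.inl ⟨ftw_lvl_diff e₁ e₂ hd hs1 hle hs2m k1, hlvl _ k2⟩
    · exact Or.inr ⟨ftw_lvl_diff e₁ e₂ hd hs1 hle hs2m k2, hlvl _ k1⟩
  · -- `m < s₁ + s₂`
    have hM : v (x₁ * x₂ - a₄) = (m : WithTop ℚ) := fuc_ex_sub' v hc.ha₄ hr.ge hgt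
    have hP := h.P_ex hd hM (2 * m - 2 * d) rfl
    have hmin : min (s₁ + s₂) (2 * m - s₁ - s₂) = 2 * m - s₁ - s₂ := min_eq_right (by linarith)
    rw [hmin]
    have hlvl : ∀ T : K, v T = ((2 * m - s₁ - s₂ : ℚ) : WithTop ℚ) →
        fuc_IsLvl v m T (2 * m - s₁ - s₂) :=
      fun T hT => Or.inr (Or.inl ⟨2 * m - s₁ - s₂, hT, by linarith, by linarith, rfl⟩)
    rcases fuc_pair_split v hS hP.ge (by linarith) with ⟨k1, -⟩ | ⟨k2, -⟩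
    · left
      refine ⟨ftw_lvl_diff e₁ e₂ hd hs1 hle hs2m k1, hlvl _ ?_⟩
      have := fuc_ex_of_mul v (by rwa [mul_comm] at hP) k1
      rw [this]; congr 1; ring
    · right
      refine ⟨ftw_lvl_diff e₁ e₂ hd hs1 hle hs2m k2, hlvl _ ?_⟩
      have := fuc_ex_of_mul v hP k2
      rw [this]; congr 1; ring

end regimes

section main

variable {b₂ a₄ x₁ x₂ T₁ T₂ : K} {m c₁ c₂ : ℚ}

/-- **Lemma U** (valuation form): the unsigned levels of the two roots `T₁, T₂`. -/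
theorem ftw_lemmaU (hc : ftw_Ctx v b₂ a₄ m) (h : ftw_Pair b₂ a₄ x₁ x₂ T₁ T₂)
    (h₁ : fuc_IsLvl v m x₁ c₁) (h₂ : fuc_IsLvl v m x₂ c₂) :
    ∃ d₁ d₂ : ℚ, fuc_IsLvl v m T₁ d₁ ∧ fuc_IsLvl v m T₂ d₂ ∧
      ((d₁ = min (c₁ + c₂) (2 * m - c₁ - c₂) ∧ d₂ = |c₁ - c₂|) ∨
       (d₁ = |c₁ - c₂| ∧ d₂ = min (c₁ + c₂) (2 * m - c₁ - c₂))) := by
  have hm := hc.hm
  have h' := h.symm
  rcases h₁ with ⟨h1, ea1⟩ | ⟨s₁, e1, hs1, hs1m, ea1⟩ | ⟨h1, ea1⟩ <;>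
  rcases h₂ with ⟨h2', ea2⟩ | ⟨s₂, e2, hs2, hs2m, ea2⟩ | ⟨h2', ea2⟩
  · -- ZZ
    obtain ⟨k1, k2⟩ := ftw_regime_ZZ hc h h1 h2'
    refine ⟨0, 0, Or.inl ⟨k1, rfl⟩, Or.inl ⟨k2, rfl⟩, Or.inl ⟨?_, ?_⟩⟩
    · rw [ea1, ea2]; exact fuc_min_val (Or.inl ⟨by ring, by linarith⟩)
    · rw [ea1, ea2]; simp
  · -- ZN
    obtain ⟨k1, k2⟩ := ftw_regime_ZN hc h h1 e2 hs2 hs2m
    refine ⟨s₂, s₂, Or.inr (Or.inl ⟨s₂, k1, hs2, hs2m, rfl⟩),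
      Or.inr (Or.inl ⟨s₂, k2, hs2, hs2m, rfl⟩), Or.inl ⟨?_, ?_⟩⟩
    · rw [ea1, ea2]; exact fuc_min_val (Or.inl ⟨by ring, by linarith⟩)
    · rw [ea1, ea2]; exact fuc_abs_val (Or.inr ⟨by ring, by linarith⟩)
  · -- ZM
    obtain ⟨k1, k2⟩ := ftw_regime_ZM hc h h1 h2'
    refine ⟨m, m, Or.inr (Or.inr ⟨k1, rfl⟩), Or.inr (Or.inr ⟨k2, rfl⟩), Or.inl ⟨?_, ?_⟩⟩
    · rw [ea1, ea2]; exact fuc_min_val (Or.inl ⟨by ring, by linarith⟩)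
    · rw [ea1, ea2]; exact fuc_abs_val (Or.inr ⟨by ring, by linarith⟩)
  · -- NZ
    obtain ⟨k1, k2⟩ := ftw_regime_ZN hc h' h2' e1 hs1 hs1m
    refine ⟨s₁, s₁, Or.inr (Or.inl ⟨s₁, k1, hs1, hs1m, rfl⟩),
      Or.inr (Or.inl ⟨s₁, k2, hs1, hs1m, rfl⟩), Or.inl ⟨?_, ?_⟩⟩
    · rw [ea1, ea2]; exact fuc_min_val (Or.inl ⟨by ring, by linarith⟩)
    · rw [ea1, ea2]; exact fuc_abs_val (Or.inl ⟨by ring, by linarith⟩)
  · -- NN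
    rcases le_or_gt s₁ s₂ with hle | hgt
    · have habs : s₂ - s₁ = |c₁ - c₂| := by
        rw [ea1, ea2]; exact fuc_abs_val (Or.inr ⟨by ring, by linarith⟩)
      rcases ftw_regime_NN hc h e1 e2 hs1 hle hs2m with ⟨k1, k2⟩ | ⟨k2, k1⟩
      · exact ⟨_, _, k1, k2, Or.inr ⟨habs, by rw [ea1, ea2]⟩⟩
      · exact ⟨_, _, k1, k2, Or.inl ⟨by rw [ea1, ea2], habs⟩⟩
    · have habs : s₁ - s₂ = |c₁ - c₂| := by
        rw [ea1, ea2]; exact fuc_abs_val (Or.inl ⟨by ring, by linarith⟩)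
      have hmin : min (s₂ + s₁) (2 * m - s₂ - s₁) = min (c₁ + c₂) (2 * m - c₁ - c₂) := by
        rw [ea1, ea2]; congr 1 <;> ring
      rcases ftw_regime_NN hc h' e2 e1 hs2 hgt.le hs1m with ⟨k1, k2⟩ | ⟨k2, k1⟩
      · exact ⟨_, _, k1, k2, Or.inr ⟨habs, hmin⟩⟩
      · exact ⟨_, _, k1, k2, Or.inl ⟨hmin, habs⟩⟩
  · -- NM
    obtain ⟨k1, k2⟩ := ftw_regime_NM hc h e1 hs1 hs1m h2'
    refine ⟨m - s₁, m - s₁, Or.inr (Or.inl ⟨m - s₁, k1, by linarith, by linarith, rfl⟩),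
      Or.inr (Or.inl ⟨m - s₁, k2, by linarith, by linarith, rfl⟩), Or.inl ⟨?_, ?_⟩⟩
    · rw [ea1, ea2]; exact fuc_min_val (Or.inr ⟨by ring, by linarith⟩)
    · rw [ea1, ea2]; exact fuc_abs_val (Or.inr ⟨by ring, by linarith⟩)
  · -- MZ
    obtain ⟨k1, k2⟩ := ftw_regime_ZM hc h' h2' h1
    refine ⟨m, m, Or.inr (Or.inr ⟨k1, rfl⟩), Or.inr (Or.inr ⟨k2, rfl⟩), Or.inl ⟨?_, ?_⟩⟩
    · rw [ea1, ea2]; exact fuc_min_val (Or.inl ⟨by ring, by linarith⟩)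
    · rw [ea1, ea2]; exact fuc_abs_val (Or.inl ⟨by ring, by linarith⟩)
  · -- MN
    obtain ⟨k1, k2⟩ := ftw_regime_NM hc h' e2 hs2 hs2m h1
    refine ⟨m - s₂, m - s₂, Or.inr (Or.inl ⟨m - s₂, k1, by linarith, by linarith, rfl⟩),
      Or.inr (Or.inl ⟨m - s₂, k2, by linarith, by linarith, rfl⟩), Or.inl ⟨?_, ?_⟩⟩
    · rw [ea1, ea2]; exact fuc_min_val (Or.inr ⟨by ring, by linarith⟩)
    · rw [ea1, ea2]; exact fuc_abs_val (Or.inl ⟨by ring, by linarith⟩)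
  · -- MM
    obtain ⟨k1, k2⟩ := ftw_regime_MM hc h h1 h2'
    refine ⟨0, 0, Or.inl ⟨k1, rfl⟩, Or.inl ⟨k2, rfl⟩, Or.inl ⟨?_, ?_⟩⟩
    · rw [ea1, ea2]; exact fuc_min_val (Or.inr ⟨by ring, by linarith⟩)
    · rw [ea1, ea2]; simp

end main

section dup

variable {b₂ a₄ x T : K} {m c : ℚ}

/-- denominator of the duplication formula: `(2y + x)² = 4 x³ + b₂ x² + 4 a₄ x` -/
def ftw_D (b₂ a₄ x : K) : K := 4 * x ^ 3 + b₂ * x ^ 2 + 4 * (a₄ * x)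

/-- in the regime `0 < v x = s < m` the denominator has value exactly `2s` -/
theorem ftw_D_ex_N (hc : ftw_Ctx v b₂ a₄ m) {s : ℚ} (e : v x = (s : WithTop ℚ)) (hs : 0 < s)
    (hsm : s < m) : v (ftw_D b₂ a₄ x) = ((2 * s : ℚ) : WithTop ℚ) := by
  unfold ftw_D
  have e3 : v (x ^ 3) = ((3 * s : ℚ) : WithTop ℚ) := by
    rw [pow_succ, fuc_ex_mul v (fuc_ex_sq v e) e]; congr 1; ring
  have hA : ((3 * s : ℚ) : WithTop ℚ) ≤ v (4 * x ^ 3) := ftw_four_mul_lb hc e3.ge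
  have hB : v (b₂ * x ^ 2) = ((2 * s : ℚ) : WithTop ℚ) :=
    fuc_exm v (2 * s) hc.hb₂ (fuc_ex_sq v e) (by ring)
  have hC : ((m + s : ℚ) : WithTop ℚ) ≤ v (4 * (a₄ * x)) :=
    ftw_four_mul_lb hc (fuc_lbm v (m + s) hc.ha₄.ge e.ge le_rfl)
  have h12 : v (4 * x ^ 3 + b₂ * x ^ 2) = ((2 * s : ℚ) : WithTop ℚ) :=
    fuc_ex_add' v hB hA (by linarith)
  exact fuc_ex_add v h12 hC (by linarith)

/-- a zero of the denominator has level `0` or `m` -/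
theorem ftw_lvl_of_D_eq_zero (hc : ftw_Ctx v b₂ a₄ m) (hD : ftw_D b₂ a₄ x = 0)
    (hx : fuc_IsLvl v m x c) : min (2 * c) (2 * m - 2 * c) = 0 := by
  have hm := hc.hm
  rcases hx with ⟨-, h0⟩ | ⟨s, e, hs, hsm, -⟩ | ⟨-, hcm⟩
  · rw [h0, mul_zero, sub_zero]; exact min_eq_left (by linarith)
  · exfalso
    have := ftw_D_ex_N hc e hs hsm
    rw [hD, v.map_zero] at this
    exact WithTop.top_ne_coe this
  · rw [hcm, sub_self]; exact min_eq_right (by linarith)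

/-- **Duplication lemma**: if `T · D(x) = (x² - a₄)²` with `D(x) ≠ 0` then the level of `T` is
`min (2c) (2m - 2c)`, `c` the level of `x`. -/
theorem ftw_lemmaDup (hc : ftw_Ctx v b₂ a₄ m) (hD : ftw_D b₂ a₄ x ≠ 0)
    (hT : T * ftw_D b₂ a₄ x = (x ^ 2 - a₄) ^ 2) (hx : fuc_IsLvl v m x c) :
    fuc_IsLvl v m T (min (2 * c) (2 * m - 2 * c)) := by
  have hm := hc.hm
  obtain ⟨δ, hδ⟩ := fuc_exists_ex v hD
  rcases hx with ⟨h1, rfl⟩ | ⟨s, e, hs, hsm, hcs⟩ | ⟨h1, hcm⟩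
  · -- Z
    obtain ⟨t, e, ht⟩ := ftw_ex_of_le_zero h1
    have hmin : min (2 * (0 : ℚ)) (2 * m - 2 * 0) = 0 := by
      rw [mul_zero, sub_zero]; exact min_eq_left (by linarith)
    rw [hmin]
    refine Or.inl ⟨?_, rfl⟩
    have hM : v (x ^ 2 - a₄) = ((2 * t : ℚ) : WithTop ℚ) :=
      fuc_ex_sub v (fuc_ex_sq v e) hc.ha₄.ge (by linarith)
    have hnum : v (T * ftw_D b₂ a₄ x) = ((2 * (2 * t) : ℚ) : WithTop ℚ) := by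
      rw [hT]; exact fuc_ex_sq v hM
    have hTv := fuc_ex_of_mul v hnum hδ
    -- lower bound `3 t ≤ δ`
    have hDlb : ((3 * t : ℚ) : WithTop ℚ) ≤ v (ftw_D b₂ a₄ x) := by
      unfold ftw_D
      have e3 : v (x ^ 3) = ((3 * t : ℚ) : WithTop ℚ) := by
        rw [pow_succ, fuc_ex_mul v (fuc_ex_sq v e) e]; congr 1; ring
      have hA : ((3 * t : ℚ) : WithTop ℚ) ≤ v (4 * x ^ 3) := ftw_four_mul_lb hc e3.ge
      have hB : ((3 * t : ℚ) : WithTop ℚ) ≤ v (b₂ * x ^ 2) :=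
        fuc_lbm v (3 * t) hc.hb₂.ge (fuc_ex_sq v e).ge (by linarith)
      have hC : ((3 * t : ℚ) : WithTop ℚ) ≤ v (4 * (a₄ * x)) :=
        ftw_four_mul_lb hc (fuc_lbm v (3 * t) hc.ha₄.ge e.ge (by linarith))
      exact fuc_lb_add v (fuc_lb_add v hA hB le_rfl le_rfl) hC le_rfl le_rfl
    have := fuc_le_of_ex_lb v hδ hDlb
    rw [hTv]
    have : 2 * (2 * t) - δ ≤ 0 := by linarith
    exact_mod_cast this
  · -- N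
    rw [hcs]
    have hDv : v (ftw_D b₂ a₄ x) = ((2 * s : ℚ) : WithTop ℚ) := ftw_D_ex_N hc e hs hsm
    rcases lt_trichotomy (2 * s) m with hlt | heq | hgt
    · have hmin : min (2 * s) (2 * m - 2 * s) = 2 * s := min_eq_left (by linarith)
      rw [hmin]
      have hM : v (x ^ 2 - a₄) = ((2 * s : ℚ) : WithTop ℚ) :=
        fuc_ex_sub v (fuc_ex_sq v e) hc.ha₄.ge hlt
      have hnum : v (T * ftw_D b₂ a₄ x) = ((2 * (2 * s) : ℚ) : WithTop ℚ) := by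
        rw [hT]; exact fuc_ex_sq v hM
      have hTv := fuc_ex_of_mul v hnum hDv
      refine Or.inr (Or.inl ⟨2 * s, ?_, by linarith, hlt, rfl⟩)
      rw [hTv]; congr 1; ring
    · have hmin : min (2 * s) (2 * m - 2 * s) = m := by
        rw [heq, show 2 * m - m = m by ring]; exact min_self m
      rw [hmin]
      have hM : (m : WithTop ℚ) ≤ v (x ^ 2 - a₄) :=
        fuc_lb_sub v (fuc_ex_sq v e).ge hc.ha₄.ge (by linarith) le_rfl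
      have hnum : ((2 * m : ℚ) : WithTop ℚ) ≤ v (T * ftw_D b₂ a₄ x) := by
        rw [hT]; exact fuc_lb_sq v hM
      have hTv := fuc_lb_of_mul v hnum hDv
      exact Or.inr (Or.inr ⟨fuc_lb_mono v hTv (by linarith), rfl⟩)
    · have hmin : min (2 * s) (2 * m - 2 * s) = 2 * m - 2 * s := min_eq_right (by linarith)
      rw [hmin]
      have hM : v (x ^ 2 - a₄) = (m : WithTop ℚ) :=
        fuc_ex_sub' v hc.ha₄ (fuc_ex_sq v e).ge hgt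
      have hnum : v (T * ftw_D b₂ a₄ x) = ((2 * m : ℚ) : WithTop ℚ) := by
        rw [hT]; exact fuc_ex_sq v hM
      have hTv := fuc_ex_of_mul v hnum hDv
      exact Or.inr (Or.inl ⟨2 * m - 2 * s, hTv, by linarith, by linarith, rfl⟩)
  · -- M
    rw [hcm]
    have hmin : min (2 * m) (2 * m - 2 * m) = 0 := by
      rw [sub_self]; exact min_eq_right (by linarith)
    rw [hmin]
    refine Or.inl ⟨?_, rfl⟩
    have hx0 : x ≠ 0 := by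
      rintro rfl
      apply hD
      unfold ftw_D; ring
    obtain ⟨t, e⟩ := fuc_exists_ex v hx0
    have htm : m ≤ t := fuc_le_of_ex_lb v e h1
    have hM : v (x ^ 2 - a₄) = (m : WithTop ℚ) :=
      fuc_ex_sub' v hc.ha₄ (fuc_ex_sq v e).ge (by linarith)
    have hnum : v (T * ftw_D b₂ a₄ x) = ((2 * m : ℚ) : WithTop ℚ) := by
      rw [hT]; exact fuc_ex_sq v hM
    have hTv := fuc_ex_of_mul v hnum hδ
    have hDlb : ((2 * m : ℚ) : WithTop ℚ) ≤ v (ftw_D b₂ a₄ x) := by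
      unfold ftw_D
      have e3 : v (x ^ 3) = ((3 * t : ℚ) : WithTop ℚ) := by
        rw [pow_succ, fuc_ex_mul v (fuc_ex_sq v e) e]; congr 1; ring
      have hA : ((2 * m : ℚ) : WithTop ℚ) ≤ v (4 * x ^ 3) :=
        ftw_four_mul_lb hc (fuc_lb_mono v e3.ge (by linarith))
      have hB : ((2 * m : ℚ) : WithTop ℚ) ≤ v (b₂ * x ^ 2) :=
        fuc_lbm v (2 * m) hc.hb₂.ge (fuc_ex_sq v e).ge (by linarith)
      have hC : ((2 * m : ℚ) : WithTop ℚ) ≤ v (4 * (a₄ * x)) :=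
        ftw_four_mul_lb hc (fuc_lbm v (2 * m) hc.ha₄.ge e.ge (by linarith))
      exact fuc_lb_add v (fuc_lb_add v hA hB le_rfl le_rfl) hC le_rfl le_rfl
    have := fuc_le_of_ex_lb v hδ hDlb
    rw [hTv]
    have : 2 * m - δ ≤ 0 := by linarith
    exact_mod_cast this

/-- strict duplication for the kernel of reduction -/
theorem ftw_E1_dup (hc : ftw_Ctx v b₂ a₄ m) (hD : ftw_D b₂ a₄ x ≠ 0)
    (hT : T * ftw_D b₂ a₄ x = (x ^ 2 - a₄) ^ 2) (hx : v x < 0) : v T < 0 := by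
  have hm := hc.hm
  obtain ⟨δ, hδ⟩ := fuc_exists_ex v hD
  obtain ⟨t, e, ht⟩ := ftw_ex_of_lt_zero hx
  have hM : v (x ^ 2 - a₄) = ((2 * t : ℚ) : WithTop ℚ) :=
    fuc_ex_sub v (fuc_ex_sq v e) hc.ha₄.ge (by linarith)
  have hnum : v (T * ftw_D b₂ a₄ x) = ((2 * (2 * t) : ℚ) : WithTop ℚ) := by
    rw [hT]; exact fuc_ex_sq v hM
  have hTv := fuc_ex_of_mul v hnum hδ
  have hDlb : ((3 * t : ℚ) : WithTop ℚ) ≤ v (ftw_D b₂ a₄ x) := by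
    unfold ftw_D
    have e3 : v (x ^ 3) = ((3 * t : ℚ) : WithTop ℚ) := by
      rw [pow_succ, fuc_ex_mul v (fuc_ex_sq v e) e]; congr 1; ring
    have hA : ((3 * t : ℚ) : WithTop ℚ) ≤ v (4 * x ^ 3) := ftw_four_mul_lb hc e3.ge
    have hB : ((3 * t : ℚ) : WithTop ℚ) ≤ v (b₂ * x ^ 2) :=
      fuc_lbm v (3 * t) hc.hb₂.ge (fuc_ex_sq v e).ge (by linarith)
    have hC : ((3 * t : ℚ) : WithTop ℚ) ≤ v (4 * (a₄ * x)) :=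
      ftw_four_mul_lb hc (fuc_lbm v (3 * t) hc.ha₄.ge e.ge (by linarith))
    exact fuc_lb_add v (fuc_lb_add v hA hB le_rfl le_rfl) hC le_rfl le_rfl
  have := fuc_le_of_ex_lb v hδ hDlb
  rw [hTv]
  have : 2 * (2 * t) - δ < 0 := by linarith
  exact_mod_cast this

end dup

end Fermat.Agent.Lib.Frey
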