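/-
S13 moonshot, package (iv) "the prime 2" (helper2): the difference lemma (L1) for
`Y² + XY = X³ + a₂ X² + a₄ X` in residue characteristic `2`: two integral points with the same
reduction, whose common reduction has `x ≠ 0` (so it is a nonsingular point of the reduced curve),
differ by a point of the kernel of reduction `E₁`.
-/
import Fermat.Agent.Lib.F2.E1
import Fermat.Agent.Lib.F2.LawField

set_option autoImplicit false

namespace Fermat.Agent.Lib.Frey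

open WeierstrassCurve WeierstrassCurve.Affine

variable {K : Type*} [Field K] (v : AddValuation K (WithTop ℚ))

section nonneg

variable {v} {x y : K}

theorem ftw_nn_add (hx : 0 ≤ v x) (hy : 0 ≤ v y) : 0 ≤ v (x + y) :=
  le_trans (le_min hx hy) (v.map_add x y)

theorem ftw_nn_mul (hx : 0 ≤ v x) (hy : 0 ≤ v y) : 0 ≤ v (x * y) := by
  rw [v.map_mul]; exact add_nonneg hx hy

theorem ftw_nn_neg (hx : 0 ≤ v x) : 0 ≤ v (-x) := by rwa [v.map_neg]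

theorem ftw_nn_sub (hx : 0 ≤ v x) (hy : 0 ≤ v y) : 0 ≤ v (x - y) := by
  rw [sub_eq_add_neg]; exact ftw_nn_add hx (ftw_nn_neg hy)

theorem ftw_nn_pow (hx : 0 ≤ v x) (n : ℕ) : 0 ≤ v (x ^ n) := by
  rw [v.map_pow]; exact nsmul_nonneg hx n

theorem ftw_pos_add (hx : 0 < v x) (hy : 0 < v y) : 0 < v (x + y) :=
  lt_of_lt_of_le (lt_min hx hy) (v.map_add x y)

theorem ftw_pos_mul_left (hx : 0 < v x) (hy : 0 ≤ v y) : 0 < v (x * y) := by
  rw [v.map_mul]; exact add_pos_of_pos_of_nonneg hx hy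

theorem ftw_coe_zero_le (hx : 0 ≤ v x) : ((0 : ℚ) : WithTop ℚ) ≤ v x := hx

end nonneg

variable {a₂ a₄ : K}

/-- a point with integral `x` has integral `y` -/
theorem ftw_y_integral (ha2 : 0 ≤ v a₂) (ha4 : 0 ≤ v a₄) {x y : K} (hx : 0 ≤ v x)
    (e : y ^ 2 + x * y = x ^ 3 + a₂ * x ^ 2 + a₄ * x) : 0 ≤ v y := by
  by_contra hneg
  rw [not_le] at hneg
  obtain ⟨t, ht, htneg⟩ := ftw_ex_of_lt_zero hneg
  have h1 : v (y ^ 2) = ((2 * t : ℚ) : WithTop ℚ) := fuc_ex_sq v ht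
  have h2 : ((0 + t : ℚ) : WithTop ℚ) ≤ v (x * y) := fuc_lb_mul v (ftw_coe_zero_le hx) ht.ge
  have h3 : v (y ^ 2 + x * y) = ((2 * t : ℚ) : WithTop ℚ) := fuc_ex_add v h1 h2 (by linarith)
  have h4 : 0 ≤ v (x ^ 3 + a₂ * x ^ 2 + a₄ * x) :=
    ftw_nn_add (ftw_nn_add (ftw_nn_pow hx 3) (ftw_nn_mul ha2 (ftw_nn_pow hx 2))) (ftw_nn_mul ha4 hx)
  rw [← e] at h4
  have := fuc_le_of_ex_lb v h3 (ftw_coe_zero_le h4)
  linarith

variable [DecidableEq K]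

/-- **(L1)** in residue characteristic `2`. -/
theorem ftw_diff_mem (h2 : 0 < v 2) (ha2 : 0 ≤ v a₂) (ha4 : 0 ≤ v a₄) {x₁ y₁ x₂ y₂ : K}
    (h₁ : (ftw_curve a₂ a₄).toAffine.Nonsingular x₁ y₁)
    (h₂ : (ftw_curve a₂ a₄).toAffine.Nonsingular x₂ y₂) (hx₂ : v x₂ = 0)
    (hdx : 0 < v (x₁ - x₂)) (hdy : 0 < v (y₁ - y₂)) :
    fl_InE1 v (Point.some x₁ y₁ h₁ - Point.some x₂ y₂ h₂) := by
  have hy₂ : 0 ≤ v y₂ := ftw_y_integral v ha2 ha4 hx₂.ge (ftw_eqn h₂)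
  have hx₁ : 0 ≤ v x₁ := by
    have : x₁ = x₂ + (x₁ - x₂) := by ring
    rw [this]; exact ftw_nn_add hx₂.ge hdx.le
  -- the numerator is a unit
  have hn : v (y₁ + y₂ + x₂) = 0 := by
    have e : y₁ + y₂ + x₂ = x₂ + ((y₁ - y₂) + 2 * y₂) := by ring
    rw [e, v.map_add_eq_of_lt_left, hx₂]
    rw [hx₂]
    exact ftw_pos_add hdy (ftw_pos_mul_left h2 hy₂)
  by_cases hx : x₁ = x₂
  · subst hx
    rcases Y_eq_of_X_eq h₁.1 h₂.1 rfl with hy | hy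
    · subst hy
      left
      exact sub_self _
    · exfalso
      rw [ftw_negY] at hy
      have e : y₁ + y₂ + x₁ = 0 := by rw [hy]; ring
      rw [e, v.map_zero] at hn
      exact WithTop.top_ne_zero hn
  · obtain ⟨-, n2, -, e2⟩ := ftw_X_add_sub h₁ h₂ hx
    obtain ⟨x, y, h, hP⟩ := fe1_exists_some n2
    refine Or.inr ⟨x, y, h, hP, ?_⟩
    rw [hP, fe1_X_some] at e2
    rw [e2]
    have hd0 : x₁ - x₂ ≠ 0 := sub_ne_zero.mpr hx
    obtain ⟨δ, hδ⟩ := fuc_exists_ex v hd0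
    have hδpos : 0 < δ := by
      rw [hδ] at hdx; exact_mod_cast hdx
    set ℓ := (y₁ + y₂ + x₂) / (x₁ - x₂) with hℓ
    have hℓmul : v (ℓ * (x₁ - x₂)) = ((0 : ℚ) : WithTop ℚ) := by
      rw [hℓ, div_mul_cancel₀ _ hd0, hn]; rfl
    have hℓv : v ℓ = ((0 - δ : ℚ) : WithTop ℚ) := fuc_ex_of_mul v hℓmul hδ
    have hℓ2 : v (ℓ ^ 2) = ((2 * (0 - δ) : ℚ) : WithTop ℚ) := fuc_ex_sq v hℓv
    have hs : v (ℓ ^ 2 + ℓ) = ((2 * (0 - δ) : ℚ) : WithTop ℚ) :=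
      fuc_ex_add v hℓ2 hℓv.ge (by linarith)
    have hr : ((0 : ℚ) : WithTop ℚ) ≤ v (a₂ + x₁ + x₂) :=
      ftw_coe_zero_le (ftw_nn_add (ftw_nn_add ha2 hx₁) hx₂.ge)
    have e : ℓ ^ 2 + ℓ - a₂ - x₁ - x₂ = (ℓ ^ 2 + ℓ) - (a₂ + x₁ + x₂) := by ring
    rw [e, fuc_ex_sub v hs hr (by linarith)]
    have : 2 * (0 - δ) < 0 := by linarith
    exact_mod_cast this

end Fermat.Agent.Lib.Frey
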