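/-
S13 moonshot, package "the prime 2" (helper2's package), piece (L1): the DIFFERENCE LEMMA in
residue characteristic 2 for integral Weierstrass models with `a₁` a unit and `a₃` in the maximal
ideal, in particular for `Y² + XY = X³ + a₂X² + a₄X` (the shape of the Frey model at 2).

The general (L1) `frd_sub_inE1` of `Lib/Frey/Diff.lean` has no hypothesis on the residue
characteristic; here we discharge its non-singularity hypothesis at points with unit `X`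
(`W_Y = 2Y + a₁X + a₃` is a unit) and the integrality of `Y`.
-/
import Mathlib
import Fermat.Agent.Lib.Frey.Diff
import Fermat.Agent.Lib.Frey.Abstract

set_option autoImplicit false

namespace Fermat.Agent.Lib.F2

open WeierstrassCurve WeierstrassCurve.Affine Fermat.Agent.Lib.Frey

variable {K : Type*} [Field K]

/-- On an integral Weierstrass model (any `a₁, …, a₆`, any residue characteristic) an integral
`X` forces an integral `Y`. -/
theorem ftg_y_integral (v : AddValuation K (WithTop ℚ)) {W : WeierstrassCurve K}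
    (ha1 : 0 ≤ v W.a₁) (ha2 : 0 ≤ v W.a₂) (ha3 : 0 ≤ v W.a₃) (ha4 : 0 ≤ v W.a₄)
    (ha6 : 0 ≤ v W.a₆) {x y : K} (h : W.toAffine.Equation x y) (hx : 0 ≤ v x) : 0 ≤ v y := by
  have he := (equation_iff _ _).mp h
  by_contra hneg
  rw [not_le] at hneg
  -- `y² = R - c y` with `R`, `c` integral
  have hR : 0 ≤ v (x ^ 3 + W.a₂ * x ^ 2 + W.a₄ * x + W.a₆) := by
    have hx2 : 0 ≤ v (x ^ 2) := by
      rw [AddValuation.map_pow]; exact nsmul_nonneg hx 2
    have hx3 : 0 ≤ v (x ^ 3) := by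
      rw [AddValuation.map_pow]; exact nsmul_nonneg hx 3
    refine AddValuation.map_le_add v (AddValuation.map_le_add v (AddValuation.map_le_add v hx3 ?_)
      ?_) ha6
    · rw [AddValuation.map_mul]; exact add_nonneg ha2 hx2
    · rw [AddValuation.map_mul]; exact add_nonneg ha4 hx
  have hc : 0 ≤ v (W.a₁ * x + W.a₃) := by
    refine AddValuation.map_le_add v ?_ ha3
    rw [AddValuation.map_mul]; exact add_nonneg ha1 hx
  have hy2 : y ^ 2 = (x ^ 3 + W.a₂ * x ^ 2 + W.a₄ * x + W.a₆) - (W.a₁ * x + W.a₃) * y := by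
    linear_combination he
  have h0 : v y ≤ v (y ^ 2) := by
    rw [hy2]
    refine AddValuation.map_le_sub v (le_trans hneg.le hR) ?_
    rw [AddValuation.map_mul]
    exact le_add_of_nonneg_left hc
  rw [AddValuation.map_pow] at h0
  obtain ⟨r, hr, hr0⟩ := WithTop.lt_iff_exists_coe.mp hneg
  rw [hr] at h0
  have hr0' : r < 0 := by exact_mod_cast hr0
  have h0' : r ≤ 2 • r := by exact_mod_cast h0
  rw [two_nsmul] at h0'
  linarith

/-- Residue characteristic `2`, `a₁` a unit, `a₃` in the maximal ideal: at a point with unit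
`X` and integral `Y` the partial derivative `W_Y = 2Y + a₁X + a₃` is a unit. -/
theorem ftg_polynomialY_unit (v : AddValuation K (WithTop ℚ)) {W : WeierstrassCurve K}
    (ha1 : v W.a₁ = 0) (ha3 : 0 < v W.a₃) (h2 : 0 < v (2 : K)) {x y : K} (hx : v x = 0)
    (hy : 0 ≤ v y) : v (W.toAffine.polynomialY.evalEval x y) = 0 := by
  rw [evalEval_polynomialY]
  have h1 : v (W.a₁ * x) = 0 := by rw [AddValuation.map_mul, ha1, hx, add_zero]
  have h2y : 0 < v (2 * y) := by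
    rw [AddValuation.map_mul]
    exact add_pos_of_pos_of_nonneg h2 hy
  have h3 : v (2 * y + W.a₁ * x) = 0 := by
    rw [AddValuation.map_add_eq_of_lt_right (v := v) (by rw [h1]; exact h2y), h1]
  rw [AddValuation.map_add_eq_of_lt_left (v := v) (by rw [h3]; exact ha3), h3]

/-- **(L1) in residue characteristic `2`** for an integral model with `a₁` a unit and `a₃` in the
maximal ideal (e.g. `Y² + XY = X³ + a₂X² + a₄X`): two points with the same reduction, the first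
one with unit `X`-coordinate, differ by an element of the kernel of reduction. -/
theorem ftg_sub_inE1_two [DecidableEq K] (v : AddValuation K (WithTop ℚ)) {W : WeierstrassCurve K}
    (ha1 : v W.a₁ = 0) (ha2 : 0 ≤ v W.a₂) (ha3 : 0 < v W.a₃) (ha4 : 0 ≤ v W.a₄)
    (ha6 : 0 ≤ v W.a₆) (h2 : 0 < v (2 : K)) {x₁ y₁ x₂ y₂ : K}
    (h₁ : W.toAffine.Nonsingular x₁ y₁) (h₂ : W.toAffine.Nonsingular x₂ y₂) (hx₁ : v x₁ = 0)
    (hx : 0 < v (x₁ - x₂)) (hy : 0 < v (y₁ - y₂)) :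
    fl_InE1 v (Point.some x₁ y₁ h₁ - Point.some x₂ y₂ h₂) := by
  have hy₁ : 0 ≤ v y₁ := ftg_y_integral v ha1.ge ha2 ha3.le ha4 ha6 h₁.1 hx₁.ge
  exact frd_sub_inE1 v ha1.ge ha2 ha3.le ha4 ha6 h₁ h₂ hx₁.ge hy₁ hx hy
    (Or.inr (ftg_polynomialY_unit v ha1 ha3 h2 hx₁ hy₁))

/-- Symmetric form: the second point has unit `X`-coordinate. -/
theorem ftg_sub_inE1_two' [DecidableEq K] (v : AddValuation K (WithTop ℚ)) {W : WeierstrassCurve K}
    (ha1 : v W.a₁ = 0) (ha2 : 0 ≤ v W.a₂) (ha3 : 0 < v W.a₃) (ha4 : 0 ≤ v W.a₄)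
    (ha6 : 0 ≤ v W.a₆) (h2 : 0 < v (2 : K)) {x₁ y₁ x₂ y₂ : K}
    (h₁ : W.toAffine.Nonsingular x₁ y₁) (h₂ : W.toAffine.Nonsingular x₂ y₂) (hx₂ : v x₂ = 0)
    (hx : 0 < v (x₁ - x₂)) (hy : 0 < v (y₁ - y₂)) :
    fl_InE1 v (Point.some x₁ y₁ h₁ - Point.some x₂ y₂ h₂) := by
  have h := ftg_sub_inE1_two v ha1 ha2 ha3 ha4 ha6 h2 h₂ h₁ hx₂
    (by rwa [AddValuation.map_sub_swap]) (by rwa [AddValuation.map_sub_swap])
  have h' := frd_E1_neg (v := frd_mul v) (W := W.toAffine) h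
  rwa [neg_sub] at h'

/-- If `0 < v (x₁ - x₂)` then `x₁` is a unit iff `x₂` is. -/
theorem ftg_unit_of_close (v : AddValuation K (WithTop ℚ)) {x₁ x₂ : K} (hx₁ : v x₁ = 0)
    (hx : 0 < v (x₁ - x₂)) : v x₂ = 0 := by
  have : x₂ = x₁ - (x₁ - x₂) := by ring
  rw [this, AddValuation.map_sub_eq_of_lt_left (v := v) (by rw [hx₁]; exact hx), hx₁]

/-- **(L1) for an "inertial" `σ`, residue characteristic `2`**: if `σ` preserves `v` and is trivial
modulo the maximal ideal, then `σ(x, y) - (x, y) ∈ E₁` for every point `(x, y)` with unit `x`. -/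
theorem ftg_sigma_sub_inE1_two [DecidableEq K] (v : AddValuation K (WithTop ℚ))
    {W : WeierstrassCurve K} (ha1 : v W.a₁ = 0) (ha2 : 0 ≤ v W.a₂) (ha3 : 0 < v W.a₃)
    (ha4 : 0 ≤ v W.a₄) (ha6 : 0 ≤ v W.a₆) (h2 : 0 < v (2 : K)) (σ : K →+* K)
    (hσv : ∀ a, v (σ a) = v a) (hσ : ∀ a, 0 ≤ v a → 0 < v (σ a - a)) {x y : K}
    (h : W.toAffine.Nonsingular x y) (h' : W.toAffine.Nonsingular (σ x) (σ y)) (hx : v x = 0) :
    fl_InE1 v (Point.some (σ x) (σ y) h' - Point.some x y h) := by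
  have hy : 0 ≤ v y := ftg_y_integral v ha1.ge ha2 ha3.le ha4 ha6 h.1 hx.ge
  exact ftg_sub_inE1_two v ha1 ha2 ha3 ha4 ha6 h2 h' h (by rw [hσv, hx]) (hσ x hx.ge) (hσ y hy)

/-- The same with the action `fab_sigma` of `σ` on the points (`σ` fixing the coefficients). -/
theorem ftg_fab_sigma_sub_inE1_two [DecidableEq K] (v : AddValuation K (WithTop ℚ))
    {W : WeierstrassCurve K} (ha1 : v W.a₁ = 0) (ha2 : 0 ≤ v W.a₂) (ha3 : 0 < v W.a₃)
    (ha4 : 0 ≤ v W.a₄) (ha6 : 0 ≤ v W.a₆) (h2 : 0 < v (2 : K)) (σ : K →+* K)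
    (hW : W.map σ = W) (hσv : ∀ a, v (σ a) = v a) (hσ : ∀ a, 0 ≤ v a → 0 < v (σ a - a))
    {x y : K} (h : W.toAffine.Nonsingular x y) (hx : v x = 0) :
    fl_InE1 v (fab_sigma σ W hW (Point.some x y h) - Point.some x y h) := by
  rw [fab_sigma_some]
  exact ftg_sigma_sub_inE1_two v ha1 ha2 ha3 ha4 ha6 h2 σ hσv hσ h _ hx

/-! ### The model `Y² + XY = X³ + a₂X² + a₄X` -/

/-- The model `Y² + XY = X³ + a₂ X² + a₄ X` (the shape of the Frey curve). -/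
def ftg_curve (a₂ a₄ : K) : WeierstrassCurve K := ⟨1, a₂, 0, a₄, 0⟩

@[simp] lemma ftg_curve_a₁ (a₂ a₄ : K) : (ftg_curve a₂ a₄).a₁ = 1 := rfl
@[simp] lemma ftg_curve_a₂ (a₂ a₄ : K) : (ftg_curve a₂ a₄).a₂ = a₂ := rfl
@[simp] lemma ftg_curve_a₃ (a₂ a₄ : K) : (ftg_curve a₂ a₄).a₃ = 0 := rfl
@[simp] lemma ftg_curve_a₄ (a₂ a₄ : K) : (ftg_curve a₂ a₄).a₄ = a₄ := rfl
@[simp] lemma ftg_curve_a₆ (a₂ a₄ : K) : (ftg_curve a₂ a₄).a₆ = 0 := rfl

lemma ftg_curve_equation_iff (a₂ a₄ x y : K) :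
    (ftg_curve a₂ a₄).toAffine.Equation x y ↔ y ^ 2 + x * y = x ^ 3 + a₂ * x ^ 2 + a₄ * x := by
  rw [Affine.equation_iff]
  simp only [ftg_curve_a₁, ftg_curve_a₂, ftg_curve_a₃, ftg_curve_a₄, ftg_curve_a₆]
  constructor <;> intro h <;> linear_combination h

/-- (L1) for `Y² + XY = X³ + a₂X² + a₄X`, `a₂`, `a₄` integral, residue characteristic `2`. -/
theorem ftg_sub_inE1_curve [DecidableEq K] (v : AddValuation K (WithTop ℚ)) {a₂ a₄ : K}
    (ha2 : 0 ≤ v a₂) (ha4 : 0 ≤ v a₄) (h2 : 0 < v (2 : K)) {x₁ y₁ x₂ y₂ : K}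
    (h₁ : (ftg_curve a₂ a₄).toAffine.Nonsingular x₁ y₁)
    (h₂ : (ftg_curve a₂ a₄).toAffine.Nonsingular x₂ y₂) (hx₁ : v x₁ = 0)
    (hx : 0 < v (x₁ - x₂)) (hy : 0 < v (y₁ - y₂)) :
    fl_InE1 v (Point.some x₁ y₁ h₁ - Point.some x₂ y₂ h₂) :=
  ftg_sub_inE1_two v (by rw [ftg_curve_a₁, AddValuation.map_one]) ha2
    (by rw [ftg_curve_a₃, AddValuation.map_zero]; exact WithTop.coe_lt_top 0) ha4
    (by rw [ftg_curve_a₆, AddValuation.map_zero]; exact le_top) h2 h₁ h₂ hx₁ hx hy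

/-- (L1) in hypothesis shape (analogue of `fab_HypL1`): two points with the same reduction, the
first with unit `X`, differ by an element of `E₁`. -/
def ftg_HypL1 (v : AddValuation K (WithTop ℚ)) (W : WeierstrassCurve K) [DecidableEq K] : Prop :=
  ∀ (x₁ y₁ x₂ y₂ : K) (h₁ : W.toAffine.Nonsingular x₁ y₁) (h₂ : W.toAffine.Nonsingular x₂ y₂),
    v x₁ = 0 → 0 < v (x₁ - x₂) → 0 < v (y₁ - y₂) →
    fl_InE1 v (Point.some x₁ y₁ h₁ - Point.some x₂ y₂ h₂)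

theorem ftg_L1_curve [DecidableEq K] (v : AddValuation K (WithTop ℚ)) {a₂ a₄ : K}
    (ha2 : 0 ≤ v a₂) (ha4 : 0 ≤ v a₄) (h2 : 0 < v (2 : K)) :
    ftg_HypL1 v (ftg_curve a₂ a₄) :=
  fun _ _ _ _ h₁ h₂ hx₁ hx hy => ftg_sub_inE1_curve v ha2 ha4 h2 h₁ h₂ hx₁ hx hy

/-- the same for the anonymous-constructor form of the model -/
theorem ftg_L1_mk [DecidableEq K] (v : AddValuation K (WithTop ℚ)) {a₂ a₄ : K}
    (ha2 : 0 ≤ v a₂) (ha4 : 0 ≤ v a₄) (h2 : 0 < v (2 : K)) :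
    ftg_HypL1 v (⟨1, a₂, 0, a₄, 0⟩ : WeierstrassCurve K) :=
  ftg_L1_curve v ha2 ha4 h2

/-- (L1) for `σ` on `Y² + XY = X³ + a₂X² + a₄X`. -/
theorem ftg_sigma_sub_inE1_curve [DecidableEq K] (v : AddValuation K (WithTop ℚ)) {a₂ a₄ : K}
    (ha2 : 0 ≤ v a₂) (ha4 : 0 ≤ v a₄) (h2 : 0 < v (2 : K)) (σ : K →+* K)
    (hσv : ∀ a, v (σ a) = v a) (hσ : ∀ a, 0 ≤ v a → 0 < v (σ a - a)) {x y : K}
    (h : (ftg_curve a₂ a₄).toAffine.Nonsingular x y)
    (h' : (ftg_curve a₂ a₄).toAffine.Nonsingular (σ x) (σ y)) (hx : v x = 0) :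
    fl_InE1 v (Point.some (σ x) (σ y) h' - Point.some x y h) :=
  ftg_sigma_sub_inE1_two v (by rw [ftg_curve_a₁, AddValuation.map_one]) ha2
    (by rw [ftg_curve_a₃, AddValuation.map_zero]; exact WithTop.coe_lt_top 0) ha4
    (by rw [ftg_curve_a₆, AddValuation.map_zero]; exact le_top) h2 σ hσv hσ h h' hx

end Fermat.Agent.Lib.F2
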