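/-
S13 moonshot, package (iv) "the prime 2" (helper2): the Frey arithmetic at `2`.
`a ≡ 3 (mod 4)`, `2 ∣ b`: the coefficient `a₂ = (b^p - 1 - a^p)/4` of the frozen Frey model is an
integer, `a₄ = -a^p b^p/16 = u · 2^(k p - 4)` with `u` odd, `k = v₂(b) ≥ 1`; over a valued field
`(K, v)` of characteristic `0` in which the integers are integral and `0 < v 2`:
`0 ≤ v a₂`, `v a₄ = (k p - 4) · v 2 > 0`.  The base change of the Frey curve is `ftw_curve a₂ a₄`.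
-/
import Mathlib
import Fermat.Prelude.Def_FLTPrelim_FreyPackage
import Fermat.Agent.Lib.Frey.FqArith
import Fermat.Agent.Lib.F2.Curve

set_option autoImplicit false

namespace Fermat.Agent.Lib.Frey

open WeierstrassCurve

section int

variable (P : FreyPackage)

theorem ftw_two_dvd_b : (2 : ℤ) ∣ P.b := (ZMod.intCast_zmod_eq_zero_iff_dvd P.b 2).1 P.hb2

theorem ftw_a_odd : ¬ (2 : ℤ) ∣ P.a := by
  have h : gcd P.b P.a = 1 := by rw [gcd_comm]; exact P.hgcdab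
  have := fq_not_dvd_of_gcd (q := 2) h Nat.prime_two (by exact_mod_cast ftw_two_dvd_b P)
  exact_mod_cast this

theorem ftw_four_dvd : (4 : ℤ) ∣ P.b ^ P.p - 1 - P.a ^ P.p := by
  have h4 : ((P.b ^ P.p - 1 - P.a ^ P.p : ℤ) : ZMod 4) = 0 := by
    push_cast
    rw [P.ha4]
    have hb : (P.b : ZMod 4) ^ P.p = 0 := by
      obtain ⟨c, hc⟩ := ftw_two_dvd_b P
      rw [hc]
      push_cast
      rw [mul_pow]
      have h2 : (2 : ZMod 4) ^ P.p = 0 := by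
        obtain ⟨j, hj⟩ : ∃ j, P.p = 2 + j := ⟨P.p - 2, by have := P.hp5; omega⟩
        rw [hj, pow_add]
        have : (2 : ZMod 4) ^ 2 = 0 := by decide
        rw [this, zero_mul]
      rw [h2, zero_mul]
    have h3 : (3 : ZMod 4) ^ P.p = 3 := by
      obtain ⟨j, hj⟩ := P.hp_odd
      rw [hj, pow_succ, pow_mul]
      have : (3 : ZMod 4) ^ 2 = 1 := by decide
      rw [this, one_pow, one_mul]
    rw [hb, h3]
    decide
  exact (ZMod.intCast_zmod_eq_zero_iff_dvd _ 4).1 h4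

/-- `b = 2^k b'` with `k ≥ 1` and `b'` odd -/
theorem ftw_b_decomp : ∃ (k : ℕ) (b' : ℤ), 0 < k ∧ ¬ (2 : ℤ) ∣ b' ∧ P.b = 2 ^ k * b' := by
  obtain ⟨k, b', hk, hb', h⟩ := fq_exists_pow_mul_pos (q := 2) Nat.prime_two P.hb0
    (by exact_mod_cast ftw_two_dvd_b P)
  exact ⟨k, b', hk, by exact_mod_cast hb', by exact_mod_cast h⟩

theorem ftw_kp_ge (k : ℕ) (hk : 0 < k) : 5 ≤ k * P.p := by
  have := P.hp5
  nlinarith

/-- `p ∤ 2 (k p - 4)` -/
theorem ftw_not_dvd_two_m (k : ℕ) (hk : 0 < k) : ¬ (P.p : ℤ) ∣ 2 * ((k * P.p - 4 : ℕ) : ℤ) := by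
  have h5 := ftw_kp_ge P k hk
  have hp5 := P.hp5
  intro hdvd
  have hcast : ((k * P.p - 4 : ℕ) : ℤ) = (k : ℤ) * P.p - 4 := by
    rw [Nat.cast_sub (by omega)]; push_cast; ring
  rw [hcast] at hdvd
  have h8 : (P.p : ℤ) ∣ 8 := by
    have h1 : (P.p : ℤ) ∣ 2 * ((k : ℤ) * P.p) := Dvd.intro_left (2 * (k : ℤ)) (by ring)
    have h2 := dvd_sub h1 hdvd
    have e : 2 * ((k : ℤ) * P.p) - 2 * ((k : ℤ) * P.p - 4) = 8 := by ring
    rwa [e] at h2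
  have h8' : P.p ∣ 8 := by exact_mod_cast h8
  have := Nat.le_of_dvd (by norm_num) h8'
  have hp : P.p.Prime := P.pp
  interval_cases P.p <;> simp_all (config := {decide := true})

end int

section field

variable {K : Type*} [Field K] [Algebra ℚ K] (P : FreyPackage)

/-- the coefficient `a₂` over `K` -/
noncomputable def ftw_a₂ : K := algebraMap ℚ K P.freyCurve.a₂

/-- the coefficient `a₄` over `K` -/
noncomputable def ftw_a₄ : K := algebraMap ℚ K P.freyCurve.a₄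

theorem ftw_frey_map :
    P.freyCurve.map (algebraMap ℚ K) = ftw_curve (ftw_a₂ (K := K) P) (ftw_a₄ (K := K) P) := by
  ext <;> simp [FreyPackage.freyCurve, ftw_curve, ftw_a₂, ftw_a₄, WeierstrassCurve.map]

theorem ftw_a₂_int : ∃ A₂ : ℤ, ftw_a₂ (K := K) P = (A₂ : K) := by
  obtain ⟨A₂, hA₂⟩ := ftw_four_dvd P
  refine ⟨A₂, ?_⟩
  have h1 : P.freyCurve.a₂ = (A₂ : ℚ) := by
    show ((P.b : ℚ) ^ P.p - 1 - (P.a : ℚ) ^ P.p) / 4 = A₂
    have : ((P.b : ℚ) ^ P.p - 1 - (P.a : ℚ) ^ P.p) = 4 * (A₂ : ℚ) := by exact_mod_cast hA₂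
    rw [this]; field_simp
  rw [ftw_a₂, h1, map_intCast]

theorem ftw_a₄_decomp : ∃ (k : ℕ) (u : ℤ), 0 < k ∧ ¬ (2 : ℤ) ∣ u ∧
    ftw_a₄ (K := K) P = (u : K) * 2 ^ (k * P.p - 4) := by
  obtain ⟨k, b', hk, hb', hb⟩ := ftw_b_decomp P
  have h5 := ftw_kp_ge P k hk
  refine ⟨k, -(P.a ^ P.p) * b' ^ P.p, hk, ?_, ?_⟩
  · intro hdvd
    have hp2 : Prime (2 : ℤ) := Int.prime_two
    rcases hp2.dvd_or_dvd hdvd with h | h
    · rw [dvd_neg] at h
      exact ftw_a_odd P (hp2.dvd_of_dvd_pow h)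
    · exact hb' (hp2.dvd_of_dvd_pow h)
  · have h1 : P.freyCurve.a₄ = ((-(P.a ^ P.p) * b' ^ P.p : ℤ) : ℚ) * 2 ^ (k * P.p - 4) := by
      show -((P.a : ℚ) ^ P.p) * ((P.b : ℚ) ^ P.p) / 16 = _
      have hbq : (P.b : ℚ) = 2 ^ k * (b' : ℚ) := by exact_mod_cast congrArg (Int.cast : ℤ → ℚ) hb
      rw [hbq, mul_pow, ← pow_mul]
      have hsplit : (2 : ℚ) ^ (k * P.p) = 2 ^ (k * P.p - 4) * 16 := by
        have : k * P.p = (k * P.p - 4) + 4 := by omega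
        conv_lhs => rw [this, pow_add]
        norm_num
      rw [hsplit]
      push_cast
      field_simp
    rw [ftw_a₄, h1, map_mul, map_intCast, map_pow, map_ofNat]

variable (v : AddValuation K (WithTop ℚ))

omit [Algebra ℚ K] in
theorem ftw_v_odd (hint : ∀ z : ℤ, 0 ≤ v (z : K)) (h2 : 0 < v (2 : K)) {z : ℤ}
    (hz : ¬ (2 : ℤ) ∣ z) : v (z : K) = 0 := by
  have h2' : 0 < v ((2 : ℕ) : K) := by simpa using h2
  exact fq_v_int_of_not_dvd v (q := 2) Nat.prime_two hint h2' (by exact_mod_cast hz)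

theorem ftw_v_a₂ (hint : ∀ z : ℤ, 0 ≤ v (z : K)) : 0 ≤ v (ftw_a₂ (K := K) P) := by
  obtain ⟨A₂, h⟩ := ftw_a₂_int (K := K) P
  rw [h]; exact hint A₂

/-- `v a₄ = (k p - 4) e` where `e = v 2` -/
theorem ftw_v_a₄ (hint : ∀ z : ℤ, 0 ≤ v (z : K)) {e : ℚ} (he : 0 < e)
    (hv2 : v (2 : K) = (e : WithTop ℚ)) :
    ∃ k : ℕ, 0 < k ∧ v (ftw_a₄ (K := K) P) = ((((k * P.p - 4 : ℕ) : ℚ) * e : ℚ) : WithTop ℚ) := by
  obtain ⟨k, u, hk, hu, h⟩ := ftw_a₄_decomp (K := K) P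
  refine ⟨k, hk, ?_⟩
  have h2 : 0 < v (2 : K) := by rw [hv2]; exact_mod_cast he
  rw [h, v.map_mul, ftw_v_odd v hint h2 hu, zero_add, v.map_pow, hv2]
  rw [← WithTop.coe_nsmul, nsmul_eq_mul]

end field

end Fermat.Agent.Lib.Frey
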