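/-
S13 moonshot, package (iv) "the prime 2" (helper2): the parallelogram law `fuc_Law` for the
unsigned level on `Y² + XY = X³ + a₂ X² + a₄ X` (`0 ≤ v 2`, `v (1 + 4 a₂) = 0`, `v a₄ = m > 0`),
and the abstract tail: every `p`-torsion point differs from a multiple of a point of level `2m/p`
by a point of level `0`.
-/
import Fermat.Agent.Lib.F2.LawField
import Fermat.Agent.Lib.F2.Curve
import Fermat.Agent.Lib.Frey.ULevelGlue

set_option autoImplicit false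

namespace Fermat.Agent.Lib.Frey

open WeierstrassCurve WeierstrassCurve.Affine WeierstrassCurve.Affine.Point

variable {K : Type*} [Field K] (v : AddValuation K (WithTop ℚ))

section law

variable {a₂ a₄ : K} {m : ℚ} [DecidableEq K]

/-- the parallelogram law for `P = Q` -/
theorem ftw_law_self (hc : ftw_Ctx v (1 + 4 * a₂) a₄ m) {x y : K}
    (h : (ftw_curve a₂ a₄).toAffine.Nonsingular x y) :
    fuc_lvl v m (Point.some x y h + Point.some x y h) =
      min (2 * fuc_lvl v m (Point.some x y h)) (2 * m - 2 * fuc_lvl v m (Point.some x y h)) := by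
  have hm := hc.hm
  have hspec := fuc_lvl_some_spec v m h
  have heq := ftw_eqn h
  by_cases hy : 2 * y + x = 0
  · rw [ftw_dbl_zero h hy, fuc_lvl_zero]
    refine (ftw_lvl_of_D_eq_zero hc ?_ hspec).symm
    unfold ftw_D
    rw [← ftw_two_y_sq heq, hy]; ring
  · obtain ⟨hne, hX⟩ := ftw_X_dbl h hy
    refine fuc_lvl_eq_of_X v hm hne ?_
    rw [hX]
    refine ftw_lemmaDup hc ?_ ?_ hspec
    · unfold ftw_D
      rw [← ftw_two_y_sq heq]
      exact pow_ne_zero 2 hy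
    · unfold ftw_D
      exact ftw_dbl_id hy heq

theorem ftw_law_some (hc : ftw_Ctx v (1 + 4 * a₂) a₄ m)
    {x₁ y₁ x₂ y₂ : K} (h₁ : (ftw_curve a₂ a₄).toAffine.Nonsingular x₁ y₁)
    (h₂ : (ftw_curve a₂ a₄).toAffine.Nonsingular x₂ y₂) :
    let P := Point.some x₁ y₁ h₁
    let Q := Point.some x₂ y₂ h₂
    (fuc_lvl v m (P + Q) = min (fuc_lvl v m P + fuc_lvl v m Q) (2 * m - fuc_lvl v m P - fuc_lvl v m Q) ∧
      fuc_lvl v m (P - Q) = |fuc_lvl v m P - fuc_lvl v m Q|) ∨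
    (fuc_lvl v m (P + Q) = |fuc_lvl v m P - fuc_lvl v m Q| ∧
      fuc_lvl v m (P - Q) = min (fuc_lvl v m P + fuc_lvl v m Q) (2 * m - fuc_lvl v m P - fuc_lvl v m Q)) := by
  intro P Q
  have hm := hc.hm
  by_cases hx : x₁ = x₂
  · subst hx
    have hlv : fuc_lvl v m Q = fuc_lvl v m P :=
      fuc_lvl_eq_of_isLvl v hm h₂ (fuc_lvl_some_spec v m h₁)
    rcases Y_eq_of_X_eq h₁.1 h₂.1 rfl with hy | hy
    · -- Q = P
      subst hy
      left
      refine ⟨?_, ?_⟩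
      · have := ftw_law_self v hc h₁
        rw [this]; congr 1 <;> ring
      · show fuc_lvl v m (P - P) = _
        rw [sub_self, sub_self, abs_zero]; rfl
    · -- Q = -P
      have hQ : Q = -P := by
        show Point.some x₁ y₂ h₂ = -Point.some x₁ y₁ h₁
        rw [Point.neg_some]
        have : y₂ = (ftw_curve a₂ a₄).toAffine.negY x₁ y₁ := by
          rw [hy, negY_negY]
        subst this; rfl
      right
      refine ⟨?_, ?_⟩
      · rw [hQ, add_neg_cancel, fuc_lvl_neg v hm, sub_self, abs_zero]; rfl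
      · rw [hQ, sub_neg_eq_add, fuc_lvl_neg v hm]
        have := ftw_law_self v hc h₁
        rw [this]; congr 1 <;> ring
  · obtain ⟨n1, n2, e1, e2⟩ := ftw_X_add_sub h₁ h₂ hx
    have q1 := ftw_eqn h₁
    have q2 := ftw_eqn h₂
    have hS := ftw_sum hx q1 q2
    have hP := ftw_prod hx q1 q2
    have hpair : ftw_Pair (1 + 4 * a₂) a₄ x₁ x₂ (fe1_X (P + Q)) (fe1_X (P - Q)) := by
      refine ⟨hx, ?_, ?_⟩
      · rw [e1, e2, hS]; rfl
      · rw [e1, e2, hP]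
    obtain ⟨b₁, b₂, l1, l2, hb⟩ := ftw_lemmaU hc hpair
      (fuc_lvl_some_spec v m h₁) (fuc_lvl_some_spec v m h₂)
    rw [fuc_lvl_eq_of_X v hm n1 l1, fuc_lvl_eq_of_X v hm n2 l2]
    exact hb

/-- the parallelogram law for the unsigned level on `Y² + XY = X³ + a₂ X² + a₄ X` -/
theorem ftw_law (hc : ftw_Ctx v (1 + 4 * a₂) a₄ m) :
    fuc_Law (fuc_lvl v m (W := (ftw_curve a₂ a₄).toAffine)) m := by
  have hm := hc.hm
  intro P Q
  rcases P with _ | ⟨x₁, y₁, h₁⟩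
  · left
    have hQ0 := fuc_lvl_nonneg v hm Q
    have hQm := fuc_lvl_le v hm Q
    change (fuc_lvl v m (0 + Q) = _ ∧ fuc_lvl v m (0 - Q) = _)
    have hz : fuc_lvl v m (Point.zero : (ftw_curve a₂ a₄).toAffine.Point) = 0 := rfl
    rw [zero_add, zero_sub, fuc_lvl_neg v hm, hz]
    refine ⟨fuc_min_val (Or.inl ⟨by ring, by linarith⟩), fuc_abs_val (Or.inr ⟨by ring, by linarith⟩)⟩
  rcases Q with _ | ⟨x₂, y₂, h₂⟩
  · left
    have hP0 := fuc_lvl_nonneg v hm (Point.some x₁ y₁ h₁)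
    have hPm := fuc_lvl_le v hm (Point.some x₁ y₁ h₁)
    change (fuc_lvl v m (Point.some x₁ y₁ h₁ + 0) = _ ∧ fuc_lvl v m (Point.some x₁ y₁ h₁ - 0) = _)
    have hz : fuc_lvl v m (Point.zero : (ftw_curve a₂ a₄).toAffine.Point) = 0 := rfl
    rw [add_zero, sub_zero, hz]
    refine ⟨fuc_min_val (Or.inl ⟨by ring, by linarith⟩), fuc_abs_val (Or.inl ⟨by ring, by linarith⟩)⟩
  exact ftw_law_some v hc h₁ h₂

/-- `E₀` (level `0`) is closed under addition -/
theorem ftw_lvl_add_zero (hc : ftw_Ctx v (1 + 4 * a₂) a₄ m)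
    {P Q : (ftw_curve a₂ a₄).toAffine.Point} (hP : fuc_lvl v m P = 0) (hQ : fuc_lvl v m Q = 0) :
    fuc_lvl v m (P + Q) = 0 := by
  have hm := hc.hm
  rcases ftw_law v hc P Q with ⟨h, -⟩ | ⟨h, -⟩
  · rw [h, hP, hQ]; simp [hm.le]
  · rw [h, hP, hQ]; simp

/-- adding a point of level `0` does not change the level -/
theorem ftw_lvl_add_of_zero (hc : ftw_Ctx v (1 + 4 * a₂) a₄ m)
    {P Q : (ftw_curve a₂ a₄).toAffine.Point} (hQ : fuc_lvl v m Q = 0) :
    fuc_lvl v m (P + Q) = fuc_lvl v m P := by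
  have hm := hc.hm
  have hP0 := fuc_lvl_nonneg v hm P
  have hPm := fuc_lvl_le v hm P
  rcases ftw_law v hc P Q with ⟨h, -⟩ | ⟨h, -⟩
  · rw [h, hQ]; exact (fuc_min_val (Or.inl ⟨by ring, by linarith⟩)).symm
  · rw [h, hQ]; exact (fuc_abs_val (Or.inl ⟨by ring, by linarith⟩)).symm

omit [DecidableEq K] in
/-- level `0` is `E₀` -/
theorem ftw_lvl_eq_zero_iff (hm : 0 < m) {P : (ftw_curve a₂ a₄).toAffine.Point} :
    fuc_lvl v m P = 0 ↔ fl_InE0 v P := by
  refine ⟨fuc_inE0_of_lvl_zero v hm, ?_⟩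
  rintro (rfl | ⟨x, y, h, rfl, hx⟩)
  · rfl
  · exact fuc_lvl_eq_of_isLvl v hm h (Or.inl ⟨hx, rfl⟩)

/-- `E₀` is closed under addition -/
theorem ftw_E0_add (hc : ftw_Ctx v (1 + 4 * a₂) a₄ m)
    {P Q : (ftw_curve a₂ a₄).toAffine.Point} (hP : fl_InE0 v P) (hQ : fl_InE0 v Q) :
    fl_InE0 v (P + Q) :=
  (ftw_lvl_eq_zero_iff v hc.hm).mp (ftw_lvl_add_zero v hc
    ((ftw_lvl_eq_zero_iff v hc.hm).mpr hP) ((ftw_lvl_eq_zero_iff v hc.hm).mpr hQ))

omit [DecidableEq K] in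
theorem ftw_E0_neg (hm : 0 < m) {P : (ftw_curve a₂ a₄).toAffine.Point} (hP : fl_InE0 v P) :
    fl_InE0 v (-P) := by
  rw [← ftw_lvl_eq_zero_iff v hm] at hP ⊢
  rw [fuc_lvl_neg v hm]; exact hP

/-- `E₀` is closed under subtraction -/
theorem ftw_E0_sub (hc : ftw_Ctx v (1 + 4 * a₂) a₄ m)
    {P Q : (ftw_curve a₂ a₄).toAffine.Point} (hP : fl_InE0 v P) (hQ : fl_InE0 v Q) :
    fl_InE0 v (P - Q) := by
  rw [sub_eq_add_neg]; exact ftw_E0_add v hc hP (ftw_E0_neg v hc.hm hQ)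

/-- `E₀` is closed under multiples -/
theorem ftw_E0_nsmul (hc : ftw_Ctx v (1 + 4 * a₂) a₄ m)
    {P : (ftw_curve a₂ a₄).toAffine.Point} (hP : fl_InE0 v P) (k : ℕ) : fl_InE0 v (k • P) := by
  induction k with
  | zero => rw [zero_nsmul]; exact Or.inl rfl
  | succ k ih => rw [succ_nsmul]; exact ftw_E0_add v hc ih hP

/-- the level of a multiple: `lvl (k • P) ≡ ± k · lvl P (mod 2m ℤ)` -/
theorem ftw_lvl_nsmul (hc : ftw_Ctx v (1 + 4 * a₂) a₄ m)
    (P : (ftw_curve a₂ a₄).toAffine.Point) (k : ℕ) :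
    ∃ z : ℤ, fuc_lvl v m (k • P) = k * fuc_lvl v m P + z * (2 * m) ∨
      fuc_lvl v m (k • P) = -(k * fuc_lvl v m P) + z * (2 * m) :=
  fuc_level_nsmul hc.hm (fuc_lvl_nonneg v hc.hm) (fuc_lvl_le v hc.hm) (ftw_law v hc) P k

/-- **(L3) for the model at `2`**: a `p`-torsion point differs from a multiple of a point of
level `2m/p` by a point of level `0`. -/
theorem ftw_exists_sub_level_zero (hc : ftw_Ctx v (1 + 4 * a₂) a₄ m) {p : ℕ} (hp : 0 < p)
    {x P0 : (ftw_curve a₂ a₄).toAffine.Point} (hx : p • x = 0)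
    (hP0 : fuc_lvl v m P0 = 2 * m / p) : ∃ j : ℤ, fuc_lvl v m (x - j • P0) = 0 :=
  fuc_exists_sub_level_zero (fuc_lvl v m (W := (ftw_curve a₂ a₄).toAffine)) m hc.hm
    (fuc_lvl_nonneg v hc.hm) (fuc_lvl_le v hc.hm) (ftw_law v hc) p hp x P0 hx hP0

end law

end Fermat.Agent.Lib.Frey
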