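/-
S13 moonshot, package (iv) "the prime 2" (helper2): the ABSTRACT inertia theorem for
`Y² + XY = X³ + a₂ X² + a₄ X` in residue characteristic `2` (`0 < v 2`, `0 ≤ v a₂`, `v a₄ = m > 0`):
a ring endomorphism `σ` preserving `v`, trivial on residues, fixing `a₂, a₄` and a point `P₀` of
level `2m/p` (or any `p`-torsion point of nonzero level) fixes every `p`-torsion point (`p` an odd
prime).
-/
import Fermat.Agent.Lib.F2.LawPoint
import Fermat.Agent.Lib.F2.Diff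
import Fermat.Agent.Lib.Frey.Abstract

set_option autoImplicit false

namespace Fermat.Agent.Lib.Frey

open WeierstrassCurve WeierstrassCurve.Affine WeierstrassCurve.Affine.Point

/-! ### Levels of multiples: a point of level `2m/p` among the multiples of a torsion point -/

section abstractLevel

variable {G : Type*} [AddCommGroup G] {a : G → ℚ} {m : ℚ}

theorem ftw_exists_mult_level (hm : 0 < m) (h0 : ∀ P, 0 ≤ a P) (hle : ∀ P, a P ≤ m)
    (hU : fuc_Law a m) {p : ℕ} (hp : p.Prime) {x : G} (hx : p • x = 0) (hax : a x ≠ 0) :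
    ∃ i : ℕ, a (i • x) = 2 * m / p := by
  have hppos : (0 : ℚ) < p := by exact_mod_cast hp.pos
  have hp2 : (2 : ℚ) ≤ p := by exact_mod_cast hp.two_le
  -- `p * a x = z' * 2m`
  obtain ⟨z', hz'⟩ : ∃ z' : ℤ, (p : ℚ) * a x = z' * (2 * m) := by
    obtain ⟨z, hz⟩ := fuc_level_nsmul hm h0 hle hU x p
    rw [hx, fuc_level_zero hU] at hz
    rcases hz with hz | hz
    · exact ⟨-z, by push_cast; linarith⟩
    · exact ⟨z, by linarith⟩
  have hapos : 0 < a x := lt_of_le_of_ne (h0 x) (Ne.symm hax)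
  have hz'pos : 0 < z' := by
    by_contra hneg
    rw [not_lt] at hneg
    have : (z' : ℚ) ≤ 0 := by exact_mod_cast hneg
    have h1 : (p : ℚ) * a x ≤ 0 := by rw [hz']; nlinarith
    nlinarith
  have hz'lt : z' < p := by
    by_contra hge
    rw [not_lt] at hge
    have : (p : ℚ) ≤ z' := by exact_mod_cast hge
    have h1 := hle x
    have h2 : (p : ℚ) * (2 * m) ≤ (z' : ℚ) * (2 * m) := by nlinarith
    rw [← hz'] at h2
    nlinarith
  -- `z'` is invertible modulo `p`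
  obtain ⟨n, hn⟩ := Int.eq_ofNat_of_zero_le hz'pos.le
  have hnpos : 0 < n := by omega
  have hnlt : n < p := by omega
  have hcop : Nat.Coprime n p := by
    rw [Nat.coprime_comm]
    exact (Nat.Prime.coprime_iff_not_dvd hp).mpr (Nat.not_dvd_of_pos_of_lt hnpos hnlt)
  obtain ⟨i, -, hi⟩ := Nat.exists_mul_mod_eq_one_of_coprime hcop hp.one_lt
  -- `n * i = 1 + p * w`
  have hdiv : n * i = 1 + p * (n * i / p) := by
    have := Nat.div_add_mod (n * i) p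
    rw [hi] at this
    omega
  set w := n * i / p with hw
  refine ⟨i, ?_⟩
  have hax' : a x = (n : ℚ) * (2 * m) / p := by
    rw [eq_div_iff hppos.ne']
    have : (z' : ℚ) = n := by rw [hn]; norm_cast
    rw [← this, ← hz']; ring
  have hia : (i : ℚ) * a x = 2 * m / p + (w : ℚ) * (2 * m) := by
    rw [hax']
    have : ((n * i : ℕ) : ℚ) = ((1 + p * w : ℕ) : ℚ) := by rw [hdiv]
    push_cast at this
    have e : (i : ℚ) * ((n : ℚ) * (2 * m) / p) = ((n : ℚ) * i) * (2 * m) / p := by ring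
    rw [e, this, add_mul, add_div, one_mul, mul_assoc, mul_div_assoc, mul_div_cancel_left₀ _ hppos.ne']
  have hnear : fuc_Near m (2 * m / p) (a (i • x)) := by
    obtain ⟨z₁, hz₁⟩ := fuc_level_nsmul hm h0 hle hU x i
    rcases hz₁ with hz₁ | hz₁
    · exact ⟨w + z₁, Or.inl (by rw [hz₁, hia]; push_cast; ring)⟩
    · exact ⟨z₁ - w, Or.inr (by rw [hz₁, hia]; push_cast; ring)⟩
  have hr0 : 0 ≤ 2 * m / p := by positivity
  have hrm : 2 * m / p ≤ m := by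
    rw [div_le_iff₀ hppos]; nlinarith
  exact fuc_near_unique hm (h0 _) hr0 (hle _) hrm hnear (fuc_near_self m _)

end abstractLevel

variable {K : Type*} [Field K] [DecidableEq K] (v : AddValuation K (WithTop ℚ))

section ctx

variable {v} {a₂ a₄ : K} {m : ℚ}

omit [DecidableEq K] in
/-- the standing hypotheses in residue characteristic `2` -/
theorem ftw_ctx_of_two (h2 : 0 < v 2) (ha2 : 0 ≤ v a₂) (ha4 : v a₄ = (m : WithTop ℚ))
    (hm : 0 < m) : ftw_Ctx v (1 + 4 * a₂) a₄ m := by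
  refine ⟨h2.le, ?_, ha4, hm⟩
  have h4 : 0 < v (4 * a₂) := by
    have : (4 : K) * a₂ = 2 * (2 * a₂) := by ring
    rw [this]
    exact ftw_pos_mul_left h2 (ftw_nn_mul h2.le ha2)
  have : v (1 + 4 * a₂) = v 1 := by
    apply v.map_add_eq_of_lt_left
    rw [v.map_one]; exact h4
  rw [this, v.map_one]; rfl

omit [DecidableEq K] in
theorem ftw_curve_map (σ : K →+* K) (h2 : σ a₂ = a₂) (h4 : σ a₄ = a₄) :
    (ftw_curve a₂ a₄).map σ = ftw_curve a₂ a₄ := by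
  ext <;> simp [ftw_curve, WeierstrassCurve.map, h2, h4]

end ctx

section main

variable {v} {a₂ a₄ : K} {m : ℚ} {σ : K →+* K}
  (hW : (ftw_curve a₂ a₄).map σ = ftw_curve a₂ a₄)

/-- the abstract inertia theorem, decomposition form -/
theorem ftw_fixed_of_sub_inE0 (hσv : ∀ a, v (σ a) = v a)
    (hσI : ∀ a, 0 ≤ v a → 0 < v (σ a - a)) (h2 : 0 < v 2) (ha2 : 0 ≤ v a₂) (ha4 : 0 ≤ v a₄)
    {p : ℕ} (hp : p.Prime) (hp2 : p ≠ 2) (hvp : v (p : K) = 0)
    {x P₀ : (ftw_curve a₂ a₄).toAffine.Point} (hP₀ : fab_sigma σ _ hW P₀ = P₀) (hx : p • x = 0)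
    (j : ℤ) (hj : fl_InE0 v (x - j • P₀)) : fab_sigma σ _ hW x = x := by
  set s := fab_sigma σ _ hW with hs
  have hD : s x - x = s (x - j • P₀) - (x - j • P₀) := by
    rw [map_sub, map_zsmul, hP₀]; abel
  have hE1 : fl_InE1 v (s x - x) := by
    rw [hD]
    rcases hj with h0 | ⟨a, b, h, hab, ha⟩
    · rw [h0, _root_.map_zero, sub_zero]; left; rfl
    · rw [hab]
      rcases lt_or_eq_of_le ha with ha' | ha'
      · have h1 : fl_InE1 v (Point.some a b h) := Or.inr ⟨a, b, h, rfl, ha'⟩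
        exact ftw_sub_mem v ha2 ha4 (fab_sigma_mem_E1 hW hσv h1) h1
      · have hb : 0 ≤ v b := ftw_y_integral v ha2 ha4 ha'.ge (ftw_eqn h)
        rw [hs, fab_sigma_some]
        exact ftw_diff_mem v h2 ha2 ha4 _ h ha' (hσI a ha'.ge) (hσI b hb)
  have hp' : p • (s x - x) = 0 := by
    rw [smul_sub, ← map_nsmul, hx, _root_.map_zero, sub_zero]
  exact sub_eq_zero.mp (ftw_torsion v ha2 ha4 p hp hp2 hvp hE1 hp')

/-- **abstract inertia theorem at `2`**: a `σ`-fixed point of level `2m/p`. -/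
theorem ftw_fixed_of_level (hσv : ∀ a, v (σ a) = v a)
    (hσI : ∀ a, 0 ≤ v a → 0 < v (σ a - a)) (h2 : 0 < v 2) (ha2 : 0 ≤ v a₂)
    (ha4 : v a₄ = (m : WithTop ℚ)) (hm : 0 < m)
    {p : ℕ} (hp : p.Prime) (hp2 : p ≠ 2) (hvp : v (p : K) = 0)
    {x P₀ : (ftw_curve a₂ a₄).toAffine.Point} (hP₀ : fab_sigma σ _ hW P₀ = P₀)
    (hlvl : fuc_lvl v m P₀ = 2 * m / p) (hx : p • x = 0) : fab_sigma σ _ hW x = x := by
  have hc := ftw_ctx_of_two h2 ha2 ha4 hm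
  obtain ⟨j, hj⟩ := ftw_exists_sub_level_zero v hc hp.pos hx hlvl
  have ha4' : 0 ≤ v a₄ := by rw [ha4]; exact_mod_cast hm.le
  exact ftw_fixed_of_sub_inE0 hW hσv hσI h2 ha2 ha4' hp hp2 hvp hP₀ hx j
    (fuc_inE0_of_lvl_zero v hm hj)

/-- **abstract inertia theorem at `2`**, second form: a `σ`-fixed `p`-torsion point which is not
in `E₀`. -/
theorem ftw_fixed_of_torsion_level (hσv : ∀ a, v (σ a) = v a)
    (hσI : ∀ a, 0 ≤ v a → 0 < v (σ a - a)) (h2 : 0 < v 2) (ha2 : 0 ≤ v a₂)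
    (ha4 : v a₄ = (m : WithTop ℚ)) (hm : 0 < m)
    {p : ℕ} (hp : p.Prime) (hp2 : p ≠ 2) (hvp : v (p : K) = 0)
    {x x₀ : (ftw_curve a₂ a₄).toAffine.Point} (hx₀ : fab_sigma σ _ hW x₀ = x₀)
    (hpx₀ : p • x₀ = 0) (hlvl : fuc_lvl v m x₀ ≠ 0) (hx : p • x = 0) :
    fab_sigma σ _ hW x = x := by
  have hc := ftw_ctx_of_two h2 ha2 ha4 hm
  obtain ⟨i, hi⟩ := ftw_exists_mult_level hm (fuc_lvl_nonneg v hm) (fuc_lvl_le v hm)
    (ftw_law v hc) hp hpx₀ hlvl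
  refine ftw_fixed_of_level hW hσv hσI h2 ha2 ha4 hm hp hp2 hvp (P₀ := i • x₀) ?_ hi hx
  rw [map_nsmul, hx₀]

end main

/-! ### Coordinate forms (the shapes consumed by the wiring) -/

/-- **Multiplicative reduction at `2`** (verbatim analogue of `fq_IfaceMult`): `0 < v 2`,
`0 ≤ v a₂`, `v a₄ = m > 0`, `p` an odd prime which is a unit, and a `σ`-fixed point `(X₀, Y₀)` with
`v X₀ = 2 m / p`: then `σ` fixes every `p`-torsion point of `Y² + XY = X³ + a₂ X² + a₄ X`. -/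
def ftw_IfaceMult2 : Prop :=
  ∀ {K : Type} [Field K] [DecidableEq K] (v : AddValuation K (WithTop ℚ)) (σ : K ≃+* K),
    (∀ a : K, v (σ a) = v a) → (∀ a : K, 0 ≤ v a → 0 < v (σ a - a)) →
    ∀ (a₂ a₄ : K) (m : ℚ), σ a₂ = a₂ → σ a₄ = a₄ → 0 < m → 0 ≤ v a₂ → v a₄ = (m : ℚ) → 0 < v 2 →
    ∀ (p : ℕ), p.Prime → p ≠ 2 → v (p : K) = 0 →
    ∀ (X₀ Y₀ : K), (⟨1, a₂, 0, a₄, 0⟩ : WeierstrassCurve K).toAffine.Nonsingular X₀ Y₀ →
      σ X₀ = X₀ → σ Y₀ = Y₀ → v X₀ = ((2 * m / p : ℚ) : WithTop ℚ) →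
    ∀ (X Y : K) (h : (⟨1, a₂, 0, a₄, 0⟩ : WeierstrassCurve K).toAffine.Nonsingular X Y),
      p • (Affine.Point.some X Y h) = 0 → σ X = X ∧ σ Y = Y

theorem ftw_ifaceMult2 : ftw_IfaceMult2 := by
  intro K _ _ v σ hσv hσI a₂ a₄ m hσ2 hσ4 hm ha2 ha4 h2 p hp hp2 hvp X₀ Y₀ h₀ hX₀ hY₀ hvX₀ X Y h hn
  have hW : (ftw_curve a₂ a₄).map (σ : K →+* K) = ftw_curve a₂ a₄ :=
    ftw_curve_map (σ : K →+* K) hσ2 hσ4
  have hp3 : (2 : ℚ) < p := by
    have := lt_of_le_of_ne hp.two_le (Ne.symm hp2)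
    exact_mod_cast this
  have hppos : (0 : ℚ) < p := by linarith
  have hlvl : fuc_lvl v m (W := (ftw_curve a₂ a₄).toAffine) (Point.some X₀ Y₀ h₀) = 2 * m / p := by
    refine fuc_lvl_eq_of_isLvl v hm h₀ (Or.inr (Or.inl ⟨2 * m / p, hvX₀, by positivity, ?_, rfl⟩))
    rw [div_lt_iff₀ hppos]; nlinarith
  have hfix : fab_sigma (σ : K →+* K) _ hW (Point.some X₀ Y₀ h₀) = Point.some X₀ Y₀ h₀ :=
    fab_sigma_eq_of_coords hW hX₀ hY₀
  have := ftw_fixed_of_level (v := v) (σ := (σ : K →+* K)) hW hσv hσI h2 ha2 ha4 hm hp hp2 hvp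
    hfix hlvl (x := Point.some X Y h) hn
  exact fab_coords_of_sigma_eq hW this

/-- second form: a `σ`-fixed `p`-torsion point outside `E₀` (i.e. with `0 < v X₁`, e.g. `X₁ = 0`). -/
theorem ftw_fixes_of_fixed_torsion {K : Type*} [Field K] [DecidableEq K]
    (v : AddValuation K (WithTop ℚ)) (σ : K ≃+* K)
    (hσv : ∀ a : K, v (σ a) = v a) (hσI : ∀ a : K, 0 ≤ v a → 0 < v (σ a - a))
    (a₂ a₄ : K) (m : ℚ) (hσ2 : σ a₂ = a₂) (hσ4 : σ a₄ = a₄) (hm : 0 < m) (ha2 : 0 ≤ v a₂)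
    (ha4 : v a₄ = (m : ℚ)) (h2 : 0 < v 2) (p : ℕ) (hp : p.Prime) (hp2 : p ≠ 2)
    (hvp : v (p : K) = 0) (X₁ Y₁ : K)
    (h₁ : (⟨1, a₂, 0, a₄, 0⟩ : WeierstrassCurve K).toAffine.Nonsingular X₁ Y₁)
    (hX₁ : σ X₁ = X₁) (hY₁ : σ Y₁ = Y₁) (hvX₁ : 0 < v X₁)
    (hn₁ : p • (Affine.Point.some X₁ Y₁ h₁) = 0)
    (X Y : K) (h : (⟨1, a₂, 0, a₄, 0⟩ : WeierstrassCurve K).toAffine.Nonsingular X Y)
    (hn : p • (Affine.Point.some X Y h) = 0) : σ X = X ∧ σ Y = Y := by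
  have hW : (ftw_curve a₂ a₄).map (σ : K →+* K) = ftw_curve a₂ a₄ :=
    ftw_curve_map (σ : K →+* K) hσ2 hσ4
  have hlvl : fuc_lvl v m (W := (ftw_curve a₂ a₄).toAffine) (Point.some X₁ Y₁ h₁) ≠ 0 := by
    intro h0
    have := (ftw_lvl_eq_zero_iff v hm).mp h0
    rcases this with h' | ⟨x, y, hxy, hP, hx⟩
    · exact Point.some_ne_zero _ h'
    · have hxx : X₁ = x := by injection hP
      rw [← hxx] at hx
      exact absurd hvX₁ (not_lt.mpr hx)
  have hfix : fab_sigma (σ : K →+* K) _ hW (Point.some X₁ Y₁ h₁) = Point.some X₁ Y₁ h₁ :=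
    fab_sigma_eq_of_coords hW hX₁ hY₁
  have := ftw_fixed_of_torsion_level (v := v) (σ := (σ : K →+* K)) hW hσv hσI h2 ha2 ha4 hm hp hp2
    hvp hfix hn₁ hlvl (x := Point.some X Y h) hn
  exact fab_coords_of_sigma_eq hW this

end Fermat.Agent.Lib.Frey
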