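/-
S13 moonshot, package "the prime 2", piece (NR-E0): the COUNTING CORE of (NoRatPt).

On `Y² + XY = X³ + a₂X² + a₄X` over a valued field of residue characteristic `2`, a subgroup `S`
of points whose coordinates have residues in `𝔽₂` (e.g. the rational points) has no `p`-torsion in
`E₀` for a prime `p ≥ 5` with `v p = 0`: a nonzero `x ∈ S ∩ E₀[p]` and its double `2x` lie in
`E₀ ∖ E₁` (no `p`-torsion in `E₁`), so both reduce to one of the two affine points `(1, 0)`,
`(1, 1)` of the reduction; these are exchanged by negation, hence `2x ≡ x` or `2x ≡ -x`, i.e.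
`x ∈ E₁` or `3x ∈ E₁` by the difference lemma (L1), and then `x = 0`.

* `ftg_noRat_E0`     : the statement with "`E₀` is closed under doubling" as a hypothesis;
* `ftg_noRat_E0_two` : the same with that hypothesis discharged by the level law of
                       `Lib/F2/LawPoint` (`v a₄ = m > 0`).
-/
import Mathlib
import Fermat.Agent.Lib.F2.DiffTwo
import Fermat.Agent.Lib.KW.GenE1
import Fermat.Agent.Lib.F2.Inertia

set_option autoImplicit false

namespace Fermat.Agent.Lib.F2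

open WeierstrassCurve WeierstrassCurve.Affine Fermat.Agent.Lib.Frey Fermat.Agent.Lib.KW

/-- an element killed by two coprime integers is zero -/
lemma ftg_eq_zero_of_coprime {A : Type*} [AddGroup A] {x : A} {m n : ℕ} (hmn : Nat.Coprime m n)
    (hm : m • x = 0) (hn : n • x = 0) : x = 0 := by
  have h1 := addOrderOf_dvd_of_nsmul_eq_zero hm
  have h2 := addOrderOf_dvd_of_nsmul_eq_zero hn
  have h3 := Nat.dvd_gcd h1 h2
  rw [hmn.gcd_eq_one, Nat.dvd_one] at h3
  exact AddMonoid.addOrderOf_eq_one_iff.mp h3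

variable {K : Type*} [Field K]

lemma ftg_pos_add (v : AddValuation K (WithTop ℚ)) {a b : K} (ha : 0 < v a) (hb : 0 < v b) :
    0 < v (a + b) :=
  lt_of_lt_of_le (lt_min ha hb) (v.map_add a b)

lemma ftg_pos_sub (v : AddValuation K (WithTop ℚ)) {a b : K} (ha : 0 < v a) (hb : 0 < v b) :
    0 < v (a - b) :=
  lt_of_lt_of_le (lt_min ha hb) (v.map_sub a b)

variable [DecidableEq K]

/-- **(NR-E0), the counting core of (NoRatPt).**  On `Y² + XY = X³ + a₂X² + a₄X` over a valued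
field of residue characteristic `2`, let `S` be a subgroup of points whose coordinates have
residues in `𝔽₂` (e.g. the rational points).  Then `S ∩ E₀` has no `p`-torsion for a prime `p ≥ 5`
which is a unit: the reduction of `S ∩ E₀` has at most two affine points `(1, 0)`, `(1, 1)`,
exchanged by negation. -/
theorem ftg_noRat_E0 (v : AddValuation K (WithTop ℚ)) {a₂ a₄ : K}
    (h2 : 0 < v (2 : K)) (ha2 : 0 ≤ v a₂) (ha4 : 0 ≤ v a₄)
    {p : ℕ} (hp : p.Prime) (hp5 : 5 ≤ p) (hvp : v (p : K) = 0)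
    (S : AddSubgroup (⟨1, a₂, 0, a₄, 0⟩ : WeierstrassCurve K).toAffine.Point)
    (hS : ∀ X Y h, (Affine.Point.some X Y h :
        (⟨1, a₂, 0, a₄, 0⟩ : WeierstrassCurve K).toAffine.Point) ∈ S →
      (v X = 0 → 0 < v (X - 1)) ∧ (0 ≤ v Y → 0 < v Y ∨ 0 < v (Y - 1)))
    (hE0 : ∀ P : (⟨1, a₂, 0, a₄, 0⟩ : WeierstrassCurve K).toAffine.Point,
      fl_InE0 v P → fl_InE0 v (P + P)) :
    ∀ x ∈ S, p • x = 0 → fl_InE0 v x → x = 0 := by
  intro x hxS hpx hx0
  -- integrality of the model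
  have ha1 : 0 ≤ v (⟨1, a₂, 0, a₄, 0⟩ : WeierstrassCurve K).a₁ := by
    show 0 ≤ v (1 : K); rw [v.map_one]
  have ha3 : 0 ≤ v (⟨1, a₂, 0, a₄, 0⟩ : WeierstrassCurve K).a₃ := by
    show 0 ≤ v (0 : K); rw [v.map_zero]; exact le_top
  have ha6 : 0 ≤ v (⟨1, a₂, 0, a₄, 0⟩ : WeierstrassCurve K).a₆ := by
    show 0 ≤ v (0 : K); rw [v.map_zero]; exact le_top
  -- `E₁` has no `p`-torsion
  have hE1 : ∀ P : (⟨1, a₂, 0, a₄, 0⟩ : WeierstrassCurve K).toAffine.Point,
      fl_InE1 v P → p • P = 0 → P = 0 := fun P hP hpP =>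
    kwg_E1_torsion_free v ha1 ha2 ha3 ha4 ha6 hvp hP hpP
  have hL1 := ftg_L1_mk v ha2 ha4 h2
  have hc2 : Nat.Coprime 2 p := (Nat.coprime_primes Nat.prime_two hp).mpr (by omega)
  have hc3 : Nat.Coprime 3 p := (Nat.coprime_primes Nat.prime_three hp).mpr (by omega)
  by_contra hne
  -- `x = (X, Y)` with `v X ≤ 0`
  rcases hx0 with rfl | ⟨X, Y, h, rfl, hvX⟩
  · exact hne rfl
  -- `x ∉ E₁`, hence `v X = 0`
  have hXlt : ¬ v X < 0 := fun hlt => hne (hE1 _ (Or.inr ⟨X, Y, h, rfl, hlt⟩) hpx)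
  have hX0 : v X = 0 := le_antisymm hvX (not_lt.mp hXlt)
  have hYint : 0 ≤ v Y := ftg_y_integral v ha1 ha2 ha3 ha4 ha6 h.1 hX0.ge
  obtain ⟨hSX, hSY⟩ := hS X Y h hxS
  have hX1 : 0 < v (X - 1) := hSX hX0
  have hY01 := hSY hYint
  -- the double
  have h2S : Affine.Point.some X Y h + Affine.Point.some X Y h ∈ S := S.add_mem hxS hxS
  have h2E0 := hE0 _ (Or.inr ⟨X, Y, h, rfl, hvX⟩)
  have hp2 : p • (Affine.Point.some X Y h + Affine.Point.some X Y h) = 0 := by
    rw [nsmul_add, hpx, add_zero]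
  rcases hd : Affine.Point.some X Y h + Affine.Point.some X Y h with _ | ⟨X2, Y2, h'⟩
  · -- `2x = 0`
    refine hne (ftg_eq_zero_of_coprime hc2 ?_ hpx)
    rw [two_nsmul]; exact hd
  rw [hd] at h2S h2E0 hp2
  rcases h2E0 with h0 | ⟨X2', Y2', h'', he, hvX2⟩
  · exact Affine.Point.some_ne_zero h' h0
  simp only [Affine.Point.some.injEq] at he
  obtain ⟨rfl, rfl⟩ := he
  have hX2lt : ¬ v X2 < 0 := fun hlt =>
    Affine.Point.some_ne_zero h' (hE1 _ (Or.inr ⟨X2, Y2, h', rfl, hlt⟩) hp2)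
  have hX20 : v X2 = 0 := le_antisymm hvX2 (not_lt.mp hX2lt)
  have hY2int : 0 ≤ v Y2 := ftg_y_integral v ha1 ha2 ha3 ha4 ha6 h'.1 hX20.ge
  obtain ⟨hSX2, hSY2⟩ := hS X2 Y2 h' h2S
  have hX21 : 0 < v (X2 - 1) := hSX2 hX20
  have hY201 := hSY2 hY2int
  have hXX : 0 < v (X2 - X) := by
    have : X2 - X = (X2 - 1) - (X - 1) := by ring
    rw [this]; exact ftg_pos_sub v hX21 hX1
  -- same reduction: `2x - x ∈ E₁`
  have hsame : 0 < v (Y2 - Y) → False := by
    intro hYY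
    have hE := hL1 X2 Y2 X Y h' h hX20 hXX hYY
    rw [← hd, add_sub_cancel_right] at hE
    exact hne (hE1 _ hE hpx)
  -- opposite reduction: `2x + x ∈ E₁`
  have hopp : 0 < v (Y2 + Y + X) → False := by
    intro hYY
    have hns : (⟨1, a₂, 0, a₄, 0⟩ : WeierstrassCurve K).toAffine.Nonsingular X (-Y - X) := by
      have := (Affine.nonsingular_neg (W' := (⟨1, a₂, 0, a₄, 0⟩ : WeierstrassCurve K).toAffine)
        X Y).mpr h
      simpa [Affine.negY] using this
    have hneg : -Affine.Point.some X Y h = Affine.Point.some X (-Y - X) hns := by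
      rw [Affine.Point.neg_some]
      congr 1
      simp [Affine.negY]
    have hE := hL1 X2 Y2 X (-Y - X) h' hns hX20 hXX (by
      have : Y2 - (-Y - X) = Y2 + Y + X := by ring
      rw [this]; exact hYY)
    rw [← hneg, ← hd, sub_neg_eq_add] at hE
    have h3 : (3 : ℕ) • Affine.Point.some X Y h = 0 := by
      have e : (3 : ℕ) • Affine.Point.some X Y h =
          Affine.Point.some X Y h + Affine.Point.some X Y h + Affine.Point.some X Y h := by
        rw [succ_nsmul, two_nsmul]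
      rw [e]
      refine hE1 _ hE ?_
      rw [nsmul_add, nsmul_add, hpx, add_zero, add_zero]
    exact hne (ftg_eq_zero_of_coprime hc3 h3 hpx)
  rcases hY01 with hY | hY <;> rcases hY201 with hY2 | hY2
  · exact hsame (ftg_pos_sub v hY2 hY)
  · refine hopp ?_
    have : Y2 + Y + X = (Y2 - 1) + Y + (X - 1) + 2 := by ring
    rw [this]
    exact ftg_pos_add v (ftg_pos_add v (ftg_pos_add v hY2 hY) hX1) h2
  · refine hopp ?_
    have : Y2 + Y + X = Y2 + (Y - 1) + (X - 1) + 2 := by ring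
    rw [this]
    exact ftg_pos_add v (ftg_pos_add v (ftg_pos_add v hY2 hY) hX1) h2
  · refine hsame ?_
    have : Y2 - Y = (Y2 - 1) - (Y - 1) := by ring
    rw [this]; exact ftg_pos_sub v hY2 hY

/-- **(NR-E0)** with the closure of `E₀` under doubling supplied by the level law at `2`
(`v a₄ = m > 0`). -/
theorem ftg_noRat_E0_two (v : AddValuation K (WithTop ℚ)) {a₂ a₄ : K} {m : ℚ}
    (h2 : 0 < v (2 : K)) (ha2 : 0 ≤ v a₂) (ha4 : v a₄ = (m : WithTop ℚ)) (hm : 0 < m)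
    {p : ℕ} (hp : p.Prime) (hp5 : 5 ≤ p) (hvp : v (p : K) = 0)
    (S : AddSubgroup (⟨1, a₂, 0, a₄, 0⟩ : WeierstrassCurve K).toAffine.Point)
    (hS : ∀ X Y h, (Affine.Point.some X Y h :
        (⟨1, a₂, 0, a₄, 0⟩ : WeierstrassCurve K).toAffine.Point) ∈ S →
      (v X = 0 → 0 < v (X - 1)) ∧ (0 ≤ v Y → 0 < v Y ∨ 0 < v (Y - 1))) :
    ∀ x ∈ S, p • x = 0 → fl_InE0 v x → x = 0 := by
  have hm' : ((0 : ℚ) : WithTop ℚ) ≤ (m : WithTop ℚ) := by exact_mod_cast hm.le
  refine ftg_noRat_E0 v h2 ha2 (by rw [ha4]; exact hm') hp hp5 hvp S hS ?_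
  intro P hP
  exact ftw_E0_add (a₂ := a₂) (a₄ := a₄) v (ftw_ctx_of_two h2 ha2 ha4 hm) hP hP

end Fermat.Agent.Lib.F2
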