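/-
S13, the prime `2` (W2): on `W₂ : y² + x y = x³ + a₂ x² + a₄ x` with `0 < v 2`, `0 ≤ v a₂`,
`v a₄ = m > 0`, every `τ`-fixed abscissa `X₀` of intermediate valuation `0 < v X₀ < m` carries a
`τ`-fixed nonsingular point `(X₀, X₀ w)`, `w² + w = a₂ + X₀ + a₄ / X₀` (`τ` trivial on the residue
field): the two roots `w`, `-1 - w` differ by the unit `2 w + 1`.
-/
import Mathlib

set_option autoImplicit false

namespace Fermat.Agent.Lib.F2

open WeierstrassCurve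

variable {K : Type*} [Field K] (v : AddValuation K (WithTop ℚ))

/-- The model at `2`: `y² + x y = x³ + a₂ x² + a₄ x`. -/
def ftx_W (a₂ a₄ : K) : WeierstrassCurve K := ⟨1, a₂, 0, a₄, 0⟩

@[simp] lemma ftx_W_a₁ (a₂ a₄ : K) : (ftx_W a₂ a₄).a₁ = 1 := rfl
@[simp] lemma ftx_W_a₂ (a₂ a₄ : K) : (ftx_W a₂ a₄).a₂ = a₂ := rfl
@[simp] lemma ftx_W_a₃ (a₂ a₄ : K) : (ftx_W a₂ a₄).a₃ = 0 := rfl
@[simp] lemma ftx_W_a₄ (a₂ a₄ : K) : (ftx_W a₂ a₄).a₄ = a₄ := rfl
@[simp] lemma ftx_W_a₆ (a₂ a₄ : K) : (ftx_W a₂ a₄).a₆ = 0 := rfl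

lemma ftx_W_equation_iff (a₂ a₄ x y : K) :
    (ftx_W a₂ a₄).toAffine.Equation x y ↔ y ^ 2 + x * y = x ^ 3 + a₂ * x ^ 2 + a₄ * x := by
  rw [Affine.equation_iff]
  simp only [ftx_W_a₁, ftx_W_a₂, ftx_W_a₃, ftx_W_a₄, ftx_W_a₆]
  constructor <;> intro h <;> linear_combination h

/-- A root of `w² + w = c` with `c` integral is integral. -/
theorem ftx_root_integral {w c : K} (hw : w ^ 2 + w = c) (hc : 0 ≤ v c) : 0 ≤ v w := by
  by_contra hneg
  rw [not_le] at hneg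
  have hw0 : w ≠ 0 := by
    rintro rfl
    rw [AddValuation.map_zero] at hneg
    exact not_top_lt hneg
  obtain ⟨r, hr⟩ := WithTop.ne_top_iff_exists.mp ((AddValuation.ne_top_iff v).mpr hw0)
  have hr0 : r < 0 := by
    rw [← hr] at hneg
    exact_mod_cast hneg
  have h2 : v (w ^ 2) = ((2 * r : ℚ) : WithTop ℚ) := by
    rw [AddValuation.map_pow, ← hr, ← WithTop.coe_nsmul, nsmul_eq_mul]
    norm_num
  have hlt : v (w ^ 2) < v w := by
    rw [h2, ← hr]
    exact_mod_cast (by linarith : 2 * r < r)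
  have := AddValuation.map_add_eq_of_lt_left (v := v) hlt
  rw [hw, h2] at this
  rw [this] at hc
  have : (0 : ℚ) ≤ 2 * r := by exact_mod_cast hc
  linarith

/-- `2 w + 1` is a unit when `0 < v 2` and `w` is integral. -/
theorem ftx_two_mul_add_one_unit (h2 : 0 < v (2 : K)) {w : K} (hw : 0 ≤ v w) :
    v (2 * w + 1) = 0 := by
  have h1 : (0 : WithTop ℚ) < v (2 * w) := by
    rw [v.map_mul]
    exact lt_of_lt_of_le h2 (le_add_of_nonneg_right hw)
  have := AddValuation.map_add_eq_of_lt_right (v := v) (x := 2 * w) (y := (1 : K))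
    (by rw [AddValuation.map_one]; exact h1)
  rw [this, AddValuation.map_one]

/-- A root of `w² + w = c` (`c` integral and `τ`-fixed, `0 < v 2`) is `τ`-fixed. -/
theorem ftx_root_fixed (τ : K ≃+* K) (hτI : ∀ a, 0 ≤ v a → 0 < v (τ a - a))
    (h2 : 0 < v (2 : K)) {w c : K} (hw : w ^ 2 + w = c) (hc : 0 ≤ v c) (hτc : τ c = c) :
    τ w = w := by
  have hwi := ftx_root_integral v hw hc
  have h1 : τ w ^ 2 + τ w = c := by
    rw [← map_pow, ← map_add, hw, hτc]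
  have h3 : (τ w - w) * (τ w + w + 1) = 0 := by linear_combination h1 - hw
  rcases mul_eq_zero.mp h3 with h | h
  · exact sub_eq_zero.mp h
  · exfalso
    have h4 : τ w - w = -(2 * w + 1) := by linear_combination h
    have h5 := hτI w hwi
    rw [h4, AddValuation.map_neg, ftx_two_mul_add_one_unit v h2 hwi] at h5
    exact lt_irrefl _ h5

variable [IsAlgClosed K]

/-- Existence of a root of `w² + w = c`. -/
theorem ftx_exists_root (c : K) : ∃ w : K, w ^ 2 + w = c := by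
  have hdeg : (Polynomial.X ^ 2 + Polynomial.X - Polynomial.C c : Polynomial K).degree ≠ 0 := by
    have : (Polynomial.X ^ 2 + Polynomial.X - Polynomial.C c : Polynomial K).degree = 2 := by
      compute_degree!
    rw [this]
    norm_num
  obtain ⟨w, hw⟩ := IsAlgClosed.exists_root _ hdeg
  refine ⟨w, ?_⟩
  simp only [Polynomial.IsRoot.def, Polynomial.eval_sub, Polynomial.eval_add, Polynomial.eval_pow,
    Polynomial.eval_X, Polynomial.eval_C] at hw
  linear_combination hw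

/-- **(W2)** A `τ`-fixed abscissa of intermediate valuation carries a `τ`-fixed nonsingular point of
`W₂`. -/
theorem ftx_exists_fixed_point (τ : K ≃+* K) (hτI : ∀ a, 0 ≤ v a → 0 < v (τ a - a))
    (h2 : 0 < v (2 : K)) {a₂ a₄ : K} (hτa₂ : τ a₂ = a₂) (hτa₄ : τ a₄ = a₄) (ha₂ : 0 ≤ v a₂)
    {m s : ℚ} (ha₄ : v a₄ = (m : WithTop ℚ)) {X₀ : K} (hτX₀ : τ X₀ = X₀)
    (hvX₀ : v X₀ = (s : WithTop ℚ)) (hs0 : 0 < s) (hsm : s < m) :
    ∃ Y₀ : K, (ftx_W a₂ a₄).toAffine.Nonsingular X₀ Y₀ ∧ τ Y₀ = Y₀ := by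
  have hX₀0 : X₀ ≠ 0 := by
    rintro rfl
    rw [AddValuation.map_zero] at hvX₀
    exact WithTop.top_ne_coe hvX₀
  set c : K := a₂ + X₀ + a₄ / X₀ with hc
  have hvX₀pos : (0 : WithTop ℚ) ≤ v X₀ := by
    rw [hvX₀]; exact_mod_cast hs0.le
  have hvdiv : (0 : WithTop ℚ) ≤ v (a₄ / X₀) := by
    have hmul : v (X₀ * (a₄ / X₀)) = (m : WithTop ℚ) := by
      rw [mul_div_cancel₀ a₄ hX₀0, ha₄]
    rw [v.map_mul, hvX₀] at hmul
    rcases eq_or_ne (v (a₄ / X₀)) ⊤ with htop | hne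
    · rw [htop]; exact le_top
    · obtain ⟨r, hr⟩ := WithTop.ne_top_iff_exists.mp hne
      rw [← hr, ← WithTop.coe_add] at hmul
      have h1 : s + r = m := by exact_mod_cast hmul
      rw [← hr]
      have : (0 : ℚ) ≤ r := by linarith
      exact_mod_cast this
  have hvc : 0 ≤ v c := by
    rw [hc]
    exact v.map_le_add (v.map_le_add ha₂ hvX₀pos) hvdiv
  have hτc : τ c = c := by
    rw [hc, map_add, map_add, map_div₀, hτa₂, hτa₄, hτX₀]
  obtain ⟨w, hw⟩ := ftx_exists_root c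
  have hτw := ftx_root_fixed v τ hτI h2 hw hvc hτc
  have hwi := ftx_root_integral v hw hvc
  have hunit := ftx_two_mul_add_one_unit v h2 hwi
  have hne : 2 * w + 1 ≠ 0 := by
    intro h0
    rw [h0, AddValuation.map_zero] at hunit
    exact WithTop.top_ne_zero hunit
  refine ⟨X₀ * w, ?_, by rw [map_mul, hτX₀, hτw]⟩
  rw [Affine.nonsingular_iff']
  refine ⟨(ftx_W_equation_iff a₂ a₄ X₀ (X₀ * w)).mpr ?_, Or.inr ?_⟩
  · have h1 : X₀ * (a₄ / X₀) = a₄ := mul_div_cancel₀ a₄ hX₀0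
    have h3 : X₀ ^ 2 * (w ^ 2 + w) = X₀ ^ 2 * c := by rw [hw]
    rw [hc] at h3
    linear_combination h3 + X₀ * h1
  · simp only [ftx_W_a₁, ftx_W_a₃]
    have : 2 * (X₀ * w) + 1 * X₀ + 0 = X₀ * (2 * w + 1) := by ring
    rw [this]
    exact mul_ne_zero hX₀0 hne

end Fermat.Agent.Lib.F2
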