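/-
S13, the prime `2`: arithmetic of the Frey curve `y² + x y = x³ + a₂ x² + a₄ x` at `2`:
`a₂ = (b^p − 1 − a^p)/4 ∈ ℤ`, `v₂ (a₄) = v₂ (−a^p b^p / 16) = p · v₂ b − 4 =: m > 0`, `gcd (p, 2m) = 1`.
-/
import Mathlib
import Fermat.Prelude.Def_FLTPrelim_FreyPackage
import Fermat.Agent.Lib.F2.WireP0

set_option autoImplicit false

namespace Fermat.Agent.Lib.F2

open WeierstrassCurve

/-- `a ≡ 3 mod 4`. -/
theorem ftx_a_mod (P : FreyPackage) : P.a % 4 = 3 := by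
  have h : ((P.a : ℤ) : ZMod 4) = ((3 : ℤ) : ZMod 4) := by simpa using P.ha4
  rw [ZMod.intCast_eq_intCast_iff_dvd_sub] at h
  omega

/-- `b` is even. -/
theorem ftx_b_even (P : FreyPackage) : (2 : ℤ) ∣ P.b :=
  (ZMod.intCast_zmod_eq_zero_iff_dvd P.b 2).1 P.hb2

/-- `a` is odd. -/
theorem ftx_a_odd (P : FreyPackage) : ¬ (2 : ℤ) ∣ P.a := by
  have := ftx_a_mod P
  omega

/-- `4 ∣ b^p − 1 − a^p`. -/
theorem ftx_four_dvd (P : FreyPackage) : (4 : ℤ) ∣ P.b ^ P.p - 1 - P.a ^ P.p := by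
  have ha : P.a ^ P.p % 4 = 3 := by
    have h1 : P.a ≡ -1 [ZMOD 4] := by
      have := ftx_a_mod P
      unfold Int.ModEq
      omega
    have h2 := h1.pow P.p
    rw [P.hp_odd.neg_one_pow] at h2
    unfold Int.ModEq at h2
    omega
  have hb : (4 : ℤ) ∣ P.b ^ P.p := by
    obtain ⟨b', hb'⟩ := ftx_b_even P
    rw [hb', mul_pow]
    have h4 : (4 : ℤ) ∣ 2 ^ P.p := by
      have : (2 : ℤ) ^ 2 ∣ 2 ^ P.p := pow_dvd_pow 2 (by have := P.hp5; omega)
      simpa using this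
    exact Dvd.dvd.mul_right h4 _
  omega

/-- The integer `a₂` of the Frey curve. -/
theorem ftx_a₂_int (P : FreyPackage) : ∃ k : ℤ, P.freyCurve.a₂ = (k : ℚ) := by
  obtain ⟨k, hk⟩ := ftx_four_dvd P
  refine ⟨k, ?_⟩
  have h : ((P.b : ℚ) ^ P.p - 1 - (P.a : ℚ) ^ P.p) = 4 * (k : ℚ) := by exact_mod_cast hk
  show ((P.b : ℚ) ^ P.p - 1 - (P.a : ℚ) ^ P.p) / 4 = (k : ℚ)
  rw [h]
  ring

/-- `m = p · v₂ b − 4`, the `2`-adic valuation of `a₄`. -/
def ftx_m (P : FreyPackage) : ℕ := P.p * padicValInt 2 P.b - 4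

theorem ftx_one_le_val_b (P : FreyPackage) : 1 ≤ padicValInt 2 P.b := by
  have h := (padicValInt_dvd_iff (p := 2) 1 P.b).mp (by simpa using ftx_b_even P)
  rcases h with h | h
  · exact absurd h P.hb0
  · exact h

theorem ftx_m_add (P : FreyPackage) : ftx_m P + 4 = P.p * padicValInt 2 P.b := by
  have h1 := ftx_one_le_val_b P
  have h5 := P.hp5
  have : 5 ≤ P.p * padicValInt 2 P.b := by nlinarith
  unfold ftx_m
  omega

theorem ftx_m_pos (P : FreyPackage) : 0 < ftx_m P := by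
  have h1 := ftx_one_le_val_b P
  have h5 := P.hp5
  have : 5 ≤ P.p * padicValInt 2 P.b := by nlinarith
  have := ftx_m_add P
  omega

/-- `gcd (p, 2 m) = 1`. -/
theorem ftx_coprime (P : FreyPackage) : Nat.Coprime P.p (2 * ftx_m P) := by
  rw [Nat.Prime.coprime_iff_not_dvd P.pp]
  intro h
  rcases (Nat.Prime.dvd_mul P.pp).mp h with h2 | hm
  · have := Nat.le_of_dvd (by norm_num) h2
    have := P.hp5
    omega
  · have h4 : P.p ∣ 4 := by
      have h5 : P.p ∣ ftx_m P + 4 := by rw [ftx_m_add]; exact dvd_mul_right _ _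
      exact (Nat.dvd_add_right hm).mp h5
    have := Nat.le_of_dvd (by norm_num) h4
    have := P.hp5
    omega

/-- `a₄ ≠ 0`. -/
theorem ftx_a₄_ne_zero (P : FreyPackage) : P.freyCurve.a₄ ≠ 0 := by
  show -((P.a : ℚ) ^ P.p) * ((P.b : ℚ) ^ P.p) / 16 ≠ 0
  have ha : (P.a : ℚ) ≠ 0 := by exact_mod_cast P.ha0
  have hb : (P.b : ℚ) ≠ 0 := by exact_mod_cast P.hb0
  have h1 := pow_ne_zero P.p ha
  have h2 := pow_ne_zero P.p hb
  exact div_ne_zero (mul_ne_zero (neg_ne_zero.mpr h1) h2) (by norm_num)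

/-- `v₂ (a₄) = m`. -/
theorem ftx_padicValRat_a₄ (P : FreyPackage) :
    padicValRat 2 P.freyCurve.a₄ = (ftx_m P : ℤ) := by
  have : Fact (Nat.Prime 2) := ⟨Nat.prime_two⟩
  have ha : (P.a : ℚ) ≠ 0 := by exact_mod_cast P.ha0
  have hb : (P.b : ℚ) ≠ 0 := by exact_mod_cast P.hb0
  have hap := pow_ne_zero P.p ha
  have hbp := pow_ne_zero P.p hb
  show padicValRat 2 (-((P.a : ℚ) ^ P.p) * ((P.b : ℚ) ^ P.p) / 16) = (ftx_m P : ℤ)
  have h16 : (16 : ℚ) = (2 : ℚ) ^ 4 := by norm_num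
  rw [padicValRat.div (mul_ne_zero (neg_ne_zero.mpr hap) hbp) (by norm_num),
    padicValRat.mul (neg_ne_zero.mpr hap) hbp, padicValRat.neg, padicValRat.pow,
    padicValRat.pow, h16, padicValRat.pow]
  have h2 : padicValRat 2 (2 : ℚ) = 1 := by
    have := padicValRat.self (p := 2) (by norm_num)
    simpa using this
  have ha0 : padicValRat 2 (P.a : ℚ) = 0 := by
    rw [padicValRat.of_int]
    have : padicValInt 2 P.a = 0 := padicValInt.eq_zero_of_not_dvd (by simpa using ftx_a_odd P)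
    rw [this]; rfl
  have hb0 : padicValRat 2 (P.b : ℚ) = (padicValInt 2 P.b : ℤ) := padicValRat.of_int
  rw [h2, ha0, hb0]
  have := ftx_m_add P
  push_cast
  have h' : ((ftx_m P : ℕ) : ℤ) + 4 = (P.p : ℤ) * (padicValInt 2 P.b : ℤ) := by exact_mod_cast this
  linarith

/-- The Frey curve over an extension `K` of `ℚ` is the model `ftx_W a₂ a₄`. -/
theorem ftx_frey_baseChange (P : FreyPackage) (K : Type*) [Field K] [Algebra ℚ K] :
    P.freyCurve.baseChange K =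
      ftx_W (algebraMap ℚ K P.freyCurve.a₂) (algebraMap ℚ K P.freyCurve.a₄) := by
  ext <;> simp [WeierstrassCurve.baseChange, WeierstrassCurve.map, FreyPackage.freyCurve, ftx_W]

end Fermat.Agent.Lib.F2
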