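/-
S13, the prime `2`, Galois plumbing (W1): an automorphism `σ` preserving a valuation `v` and acting
trivially on the residue field, which fixes `c`, moves a `p`-th root `α` of `c` (`v p = 0`) by a
`σ`-fixed `p`-th root of unity; hence `σ ^ p` fixes `α`.
-/
import Mathlib

set_option autoImplicit false

namespace Fermat.Agent.Lib.F2

open Finset

section roots

variable {K : Type*} [Field K] (v : AddValuation K (WithTop ℚ))

/-- If `0 < v (η - 1)` then `0 ≤ v η`. -/
theorem ftx_nonneg_of_sub_one_pos {η : K} (h : 0 < v (η - 1)) : 0 ≤ v η := by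
  have h1 : η = (η - 1) + 1 := by ring
  rw [h1]
  refine le_trans ?_ (v.map_add _ _)
  rw [AddValuation.map_one]
  exact le_min h.le le_rfl

/-- If `0 < v (η - 1)` then `0 < v (η ^ i - 1)` for every `i`. -/
theorem ftx_pow_sub_one_pos {η : K} (h : 0 < v (η - 1)) (i : ℕ) : 0 < v (η ^ i - 1) := by
  have hη := ftx_nonneg_of_sub_one_pos v h
  induction i with
  | zero =>
    rw [pow_zero, sub_self, AddValuation.map_zero]
    exact WithTop.coe_lt_top (0 : ℚ)
  | succ i ih =>
    have e : η ^ (i + 1) - 1 = η * (η ^ i - 1) + (η - 1) := by ring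
    rw [e]
    refine lt_of_lt_of_le ?_ (v.map_add _ _)
    refine lt_min ?_ h
    rw [v.map_mul]
    exact lt_of_lt_of_le ih (le_add_of_nonneg_left hη)

/-- A `p`-th root of unity congruent to `1` modulo the maximal ideal is `1` (`p` a unit). -/
theorem ftx_root_of_unity_eq_one {p : ℕ} (hvp : v (p : K) = 0) {η : K} (hη : η ^ p = 1)
    (h : 0 < v (η - 1)) : η = 1 := by
  by_contra hne
  have hne' : η - 1 ≠ 0 := sub_ne_zero.mpr hne
  have hsum : ∑ i ∈ range p, η ^ i = 0 := by
    have := geom_sum_mul η p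
    rw [hη, sub_self] at this
    rcases mul_eq_zero.mp this with h0 | h0
    · exact h0
    · exact absurd h0 hne'
  have hp : (p : K) = ∑ i ∈ range p, (1 - η ^ i) := by
    rw [sum_sub_distrib, hsum, sub_zero, sum_const, card_range, nsmul_eq_mul, mul_one]
  have hpos : (0 : WithTop ℚ) < v (∑ i ∈ range p, (1 - η ^ i)) := by
    refine AddValuation.map_lt_sum' v (WithTop.coe_lt_top (0 : ℚ)) ?_
    intro i _
    rw [← AddValuation.map_neg, neg_sub]
    exact ftx_pow_sub_one_pos v h i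
  rw [← hp, hvp] at hpos
  exact lt_irrefl _ hpos

end roots

section kummer

variable {F K : Type*} [Field F] [Field K] [Algebra F K] (v : AddValuation K (WithTop ℚ))

/-- **Kummer plumbing.**  `σ` is trivial on the residue field of `v` and fixes `α ^ p`
(`α ≠ 0`, `v p = 0`): then `σ α = ζ α` with `σ ζ = ζ`, `ζ ^ p = 1`. -/
theorem ftx_kummer_zeta (σ : K ≃ₐ[F] K)
    (hσI : ∀ a, 0 ≤ v a → 0 < v (σ a - a)) {p : ℕ} (hp : p ≠ 0) (hvp : v (p : K) = 0) {α : K}
    (hα0 : α ≠ 0) (hα : σ (α ^ p) = α ^ p) :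
    ∃ ζ : K, σ α = ζ * α ∧ σ ζ = ζ ∧ ζ ^ p = 1 := by
  have hσα0 : σ α ≠ 0 := by
    intro h
    exact hα0 ((map_eq_zero σ).mp h)
  refine ⟨σ α / α, (div_mul_cancel₀ _ hα0).symm, ?_, ?_⟩
  · -- `ζ` is fixed
    set ζ := σ α / α with hζ
    have hζp : ζ ^ p = 1 := by
      rw [hζ, div_pow, ← map_pow, hα, div_self (pow_ne_zero p hα0)]
    have hζ0 : ζ ≠ 0 := by
      intro h0
      rw [h0, zero_pow hp] at hζp
      exact zero_ne_one hζp
    have hvζ : v ζ = 0 := by
      have h1 : v (ζ ^ p) = 0 := by rw [hζp, AddValuation.map_one]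
      rw [AddValuation.map_pow] at h1
      have hne : v ζ ≠ ⊤ := (AddValuation.ne_top_iff v).mpr hζ0
      obtain ⟨r, hr⟩ := WithTop.ne_top_iff_exists.mp hne
      rw [← hr, ← WithTop.coe_nsmul] at h1
      have h2 : p • r = 0 := by exact_mod_cast h1
      rw [nsmul_eq_mul] at h2
      rcases mul_eq_zero.mp h2 with h3 | h3
      · exact absurd (by exact_mod_cast h3) hp
      · rw [← hr, h3]; rfl
    have hη : (σ ζ / ζ) ^ p = 1 := by
      rw [div_pow, ← map_pow, hζp, map_one, div_one]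
    have hpos : 0 < v (σ ζ / ζ - 1) := by
      have e : σ ζ / ζ - 1 = (σ ζ - ζ) / ζ := by field_simp
      rw [e, AddValuation.map_div, hvζ, sub_zero]
      exact hσI ζ hvζ.ge
    have := ftx_root_of_unity_eq_one v hvp hη hpos
    rw [div_eq_one_iff_eq hζ0] at this
    exact this
  · rw [div_pow, ← map_pow, hα, div_self (pow_ne_zero p hα0)]

/-- **Kummer plumbing, conclusion**: `σ ^ p` fixes `α`. -/
theorem ftx_kummer_pow_fixed (σ : K ≃ₐ[F] K)
    (hσI : ∀ a, 0 ≤ v a → 0 < v (σ a - a)) {p : ℕ} (hp : p ≠ 0) (hvp : v (p : K) = 0) {α : K}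
    (hα0 : α ≠ 0) (hα : σ (α ^ p) = α ^ p) : (σ ^ p) α = α := by
  obtain ⟨ζ, h1, h2, h3⟩ := ftx_kummer_zeta v σ hσI hp hvp hα0 hα
  have key : ∀ k : ℕ, (σ ^ k) α = ζ ^ k * α := by
    intro k
    induction k with
    | zero => simp
    | succ k ih =>
      rw [pow_succ', AlgEquiv.mul_apply, ih, map_mul, map_pow, h2, h1]
      ring
  rw [key p, h3, one_mul]

end kummer

end Fermat.Agent.Lib.F2
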