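/-
S13, the prime `2` (W3a): the interface statement `s13_IfaceLocal2` (the image of inertia at `2`
in `Aut E[p]` is killed by `p`) from the abstract multiplicative-reduction statement at residue
characteristic `2` (`ftx_IfaceMult2`, the analogue of `fq_IfaceMult`).

Proof: for `σ ∈ I_A`, `τ = σ ^ p ∈ I_A` fixes `α = 2^{1/p}` (`WireKummer`), hence the point
`P₀ = (X₀, X₀ w)`, `X₀ = α ^ (2 m)` of level `2 m / p` (`WireP0`), `m = v₂ (a₄) = p v₂(b) − 4`.
-/
import Mathlib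
import Fermat.Prelude.Def_FLTPrelim_FreyPackage
import Fermat.Prelude.Def_FLTPrelim_GaloisRep
import Fermat.Prelude.Def_FLTPrelim_Ramification
import Fermat.Agent.Lib.Frey.OrdInertia
import Fermat.Agent.Lib.Frey.FqMain
import Fermat.Agent.Lib.S13.Iface
import Fermat.Agent.Lib.F2.WireKummer
import Fermat.Agent.Lib.F2.WireP0
import Fermat.Agent.Lib.F2.WireArith

set_option autoImplicit false

namespace Fermat.Agent.Lib.F2

open WeierstrassCurve Fermat.Agent.Lib.Frey Fermat.Agent.Lib.S13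

/-- **Multiplicative reduction at residue characteristic `2`** (abstract core, to be supplied by
the level package): on `y² + x y = x³ + a₂ x² + a₄ x` with `0 < v 2`, `0 ≤ v a₂`, `v a₄ = m > 0`,
an automorphism `σ` preserving `v`, trivial on the residue field, fixing `a₂`, `a₄` and a point
`(X₀, Y₀)` with `v X₀ = 2 m / p` fixes every `p`-torsion point (`p` odd prime, `v p = 0`). -/
def ftx_IfaceMult2 : Prop :=
  ∀ {K : Type} [Field K] [DecidableEq K] (v : AddValuation K (WithTop ℚ)) (σ : K ≃+* K),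
    (∀ a : K, v (σ a) = v a) → (∀ a : K, 0 ≤ v a → 0 < v (σ a - a)) →
    ∀ (a₂ a₄ : K) (m : ℚ), σ a₂ = a₂ → σ a₄ = a₄ → 0 < m → 0 ≤ v a₂ → v a₄ = (m : ℚ) →
    0 < v (2 : K) →
    ∀ (p : ℕ), p.Prime → p ≠ 2 → v (p : K) = 0 →
    ∀ (X₀ Y₀ : K), (ftx_W a₂ a₄).toAffine.Nonsingular X₀ Y₀ → σ X₀ = X₀ → σ Y₀ = Y₀ →
      v X₀ = ((2 * m / p : ℚ) : WithTop ℚ) →
    ∀ (X Y : K) (h : (ftx_W a₂ a₄).toAffine.Nonsingular X Y),
      p • (Affine.Point.some X Y h) = 0 → σ X = X ∧ σ Y = Y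

section

variable {K : Type} [Field K] [DecidableEq K] [IsAlgClosed K] [CharZero K] [Algebra ℚ K]

/-- Abstract form of (Local2): `τ` preserves `v`, is trivial on the residue field, and fixes a
`p`-th root `α` of `2` (`v 2 = 1`): then `τ` fixes the coordinates of every `p`-torsion point of
the Frey curve over `K`. -/
theorem ftx_local2_core (hMult : ftx_IfaceMult2) (v : AddValuation K (WithTop ℚ)) (τ : K ≃+* K)
    (hτv : ∀ a : K, v (τ a) = v a) (hτI : ∀ a : K, 0 ≤ v a → 0 < v (τ a - a))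
    (hv2 : v (2 : K) = 1) (hint : ∀ z : ℤ, 0 ≤ v (z : K))
    (hrat : ∀ r : ℚ, r ≠ 0 → v (algebraMap ℚ K r) = ((padicValRat 2 r : ℚ) : WithTop ℚ))
    (hτrat : ∀ r : ℚ, τ (algebraMap ℚ K r) = algebraMap ℚ K r)
    (P : FreyPackage) {α : K} (hα : α ^ P.p = 2) (hτα : τ α = α) :
    fq_Fixes τ P.p (P.freyCurve.baseChange K) := by
  have hp2 : P.p ≠ 2 := by have := P.hp5; omega
  have hpos2 : (0 : WithTop ℚ) < v (2 : K) := by rw [hv2]; exact zero_lt_one
  have hvp : v (P.p : K) = 0 := by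
    have h2 : ¬ ((2 : ℕ) : ℤ) ∣ (P.p : ℤ) := by
      have := P.hp_odd
      rw [Nat.odd_iff] at this
      omega
    have := fq_v_int_of_not_dvd v Nat.prime_two hint (by simpa using hpos2) h2
    simpa using this
  -- the coefficients
  set a₂ : K := algebraMap ℚ K P.freyCurve.a₂ with ha₂
  set a₄ : K := algebraMap ℚ K P.freyCurve.a₄ with ha₄
  have hva₂ : 0 ≤ v a₂ := by
    obtain ⟨k, hk⟩ := ftx_a₂_int P
    rw [ha₂, hk]
    have : algebraMap ℚ K (k : ℚ) = (k : K) := map_intCast _ k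
    rw [this]
    exact hint k
  have hva₄ : v a₄ = (((ftx_m P : ℕ) : ℚ) : WithTop ℚ) := by
    rw [ha₄, hrat _ (ftx_a₄_ne_zero P), ftx_padicValRat_a₄]
    norm_cast
  have hmpos : (0 : ℚ) < ((ftx_m P : ℕ) : ℚ) := by exact_mod_cast ftx_m_pos P
  -- the valuation of `α`
  have hα0 : α ≠ 0 := by
    rintro rfl
    rw [zero_pow P.hp0] at hα
    exact two_ne_zero hα.symm
  obtain ⟨β, hβ⟩ := WithTop.ne_top_iff_exists.mp ((AddValuation.ne_top_iff v).mpr hα0)
  have hpq : (0 : ℚ) < (P.p : ℚ) := by exact_mod_cast P.hppos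
  have hβp : (P.p : ℚ) * β = 1 := by
    have h1 := fq_v_pow_coe v hβ.symm P.p
    rw [hα, hv2] at h1
    exact_mod_cast h1.symm
  -- the fixed abscissa
  set N : ℕ := 2 * ftx_m P with hN
  have hvX₀ : v (α ^ N) = ((2 * ((ftx_m P : ℕ) : ℚ) / P.p : ℚ) : WithTop ℚ) := by
    rw [fq_v_pow_coe v hβ.symm N]
    congr 1
    have hβ' : β = 1 / (P.p : ℚ) := by
      rw [eq_div_iff hpq.ne']
      linarith
    rw [hN, hβ']
    push_cast
    ring
  have hs0 : (0 : ℚ) < 2 * ((ftx_m P : ℕ) : ℚ) / P.p := by positivity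
  have hsm : 2 * ((ftx_m P : ℕ) : ℚ) / P.p < ((ftx_m P : ℕ) : ℚ) := by
    rw [div_lt_iff₀ hpq]
    have : (5 : ℚ) ≤ (P.p : ℚ) := by exact_mod_cast P.hp5
    nlinarith
  obtain ⟨Y₀, hns, hτY₀⟩ := ftx_exists_fixed_point v τ hτI hpos2 (hτrat _) (hτrat _) hva₂ hva₄
    (X₀ := α ^ N) (by rw [map_pow, hτα]) hvX₀ hs0 hsm
  refine fq_Fixes_of_eq (ftx_frey_baseChange P K) ?_
  intro X Y h hn
  exact hMult v τ hτv hτI a₂ a₄ _ (hτrat _) (hτrat _) hmpos hva₂ hva₄ hpos2 P.p P.pp hp2 hvp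
    (α ^ N) Y₀ hns (by rw [map_pow, hτα]) hτY₀ hvX₀ X Y h hn

end

/-- **(Local2)** from the abstract core at `2`. -/
theorem ftx_ifaceLocal2 (hMult : ftx_IfaceMult2) : s13_IfaceLocal2 := by
  intro P A hA σ hσ x
  obtain ⟨v, hv2, -, -, hint, -, hrat, hin⟩ :=
    ford_exists_v (K := AlgebraicClosure ℚ) A Nat.prime_two hA
  have hv2' : v (2 : AlgebraicClosure ℚ) = 1 := by simpa using hv2
  -- `τ = σ ^ p` lies in the inertia group
  have hτ : σ ^ P.p ∈ A.inertiaSubgroupIn ℚ := Subgroup.pow_mem _ hσ _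
  obtain ⟨hτv, hτI⟩ := hin (σ ^ P.p) hτ
  obtain ⟨-, hσI⟩ := hin σ hσ
  -- the `p`-th root of `2`
  obtain ⟨α, hα⟩ := IsAlgClosed.exists_pow_nat_eq (2 : AlgebraicClosure ℚ) P.hppos
  have hα0 : α ≠ 0 := by
    rintro rfl
    rw [zero_pow P.hp0] at hα
    exact two_ne_zero hα.symm
  have hvp : v (P.p : AlgebraicClosure ℚ) = 0 := by
    have hpos2 : (0 : WithTop ℚ) < v ((2 : ℕ) : AlgebraicClosure ℚ) := by
      rw [hv2]; exact zero_lt_one
    have h2 : ¬ ((2 : ℕ) : ℤ) ∣ (P.p : ℤ) := by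
      have := P.hp_odd
      rw [Nat.odd_iff] at this
      omega
    have := fq_v_int_of_not_dvd v Nat.prime_two hint hpos2 h2
    simpa using this
  have hτα : (σ ^ P.p) α = α := by
    refine ftx_kummer_pow_fixed v σ hσI P.hp0 hvp hα0 ?_
    rw [hα, map_ofNat]
  have hF := ftx_local2_core hMult v
    ((σ ^ P.p : AlgebraicClosure ℚ ≃ₐ[ℚ] AlgebraicClosure ℚ) :
      AlgebraicClosure ℚ ≃+* AlgebraicClosure ℚ)
    hτv hτI hv2' hint hrat (fun r => (σ ^ P.p).commutes r) P hα hτα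
  apply Subtype.ext
  obtain ⟨pt, hpt⟩ := x
  change (σ ^ P.p) • pt = pt
  have hn : P.p • pt = 0 := by
    have := (Submodule.mem_torsionBy_iff _ _).mp hpt
    rwa [natCast_zsmul] at this
  rcases pt with _ | ⟨X, Y, h⟩
  · rfl
  · obtain ⟨hX, hY⟩ := hF X Y h hn
    change Affine.Point.map (σ ^ P.p).toAlgHom (Affine.Point.some X Y h) = _
    rw [Affine.Point.map_some]
    exact fvc_some_congr hX hY _ _

end Fermat.Agent.Lib.F2
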