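/-
S13, the prime `2`: **`s13_IfaceLocal2` PROVED** — the image of inertia at `2` in `Aut E[p]` of the
Frey curve is killed by `p`.  (`WireLocal2.ftx_ifaceLocal2` fed with helper2's abstract inertia
theorem at residue characteristic `2`, `ftw_ifaceMult2`.)
-/
import Fermat.Agent.Lib.F2.WireLocal2
import Fermat.Agent.Lib.F2.Inertia

set_option autoImplicit false

namespace Fermat.Agent.Lib.F2

open Fermat.Agent.Lib.Frey Fermat.Agent.Lib.S13

/-- The abstract core in the `ftx_W` spelling. -/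
theorem ftx_ifaceMult2 : ftx_IfaceMult2 := by
  intro K _ _ v σ hσv hσI a₂ a₄ m h2 h4 hm ha2 ha4 hv2 p hp hp2 hvp X₀ Y₀ h₀ hX₀ hY₀ hvX₀ X Y h hn
  exact ftw_ifaceMult2 v σ hσv hσI a₂ a₄ m h2 h4 hm ha2 ha4 hv2 p hp hp2 hvp X₀ Y₀ h₀ hX₀ hY₀
    hvX₀ X Y h hn

/-- **(Local2)**: for every place `A` of `ℚ̄` over `2`, every `σ ∈ I_A` and every `x ∈ E[p]`,
`σ ^ p • x = x`. -/
theorem ftx_s13_ifaceLocal2 : s13_IfaceLocal2 := ftx_ifaceLocal2 ftx_ifaceMult2

end Fermat.Agent.Lib.F2
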