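/-
S13, the prime `2`, (NoRatPt), level part: on `y² + x y = x³ + a₂ x² + a₄ x` with `0 < v 2`,
`0 ≤ v a₂`, `v a₄ = M ∈ ℕ`, `M > 0`, `gcd (p, 2 M) = 1`, a `p`-torsion point `(X, Y)` with
`0 < v X` whose abscissa has integral valuation (or vanishes) does not exist: its unsigned level
`s ∈ {1, …, M}` would satisfy `p s ∈ 2 M ℤ`.
-/
import Mathlib
import Fermat.Agent.Lib.F2.Inertia

set_option autoImplicit false

namespace Fermat.Agent.Lib.F2

open WeierstrassCurve WeierstrassCurve.Affine Fermat.Agent.Lib.Frey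

variable {K : Type*} [Field K] [DecidableEq K] (v : AddValuation K (WithTop ℚ))

/-- **(NoRatPt), level part.** -/
theorem ftx_noRat_level {a₂ a₄ : K} {M : ℕ} (h2 : 0 < v (2 : K)) (ha2 : 0 ≤ v a₂)
    (ha4 : v a₄ = (((M : ℕ) : ℚ) : WithTop ℚ)) (hM : 0 < M) {p : ℕ}
    (hcop : Nat.Coprime p (2 * M)) {X Y : K} (h : (ftw_curve a₂ a₄).toAffine.Nonsingular X Y)
    (hpx : p • (Point.some X Y h) = 0) (hX : 0 < v X)
    (hint : X ≠ 0 → ∃ n : ℤ, v X = ((n : ℚ) : WithTop ℚ)) : False := by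
  have hm : (0 : ℚ) < (M : ℚ) := by exact_mod_cast hM
  have hc := ftw_ctx_of_two h2 ha2 ha4 hm
  -- the level is a positive integer `≤ M`
  obtain ⟨s, hs1, hsM, hlvl⟩ : ∃ s : ℕ, 0 < s ∧ s ≤ M ∧
      fuc_lvl v (M : ℚ) (Point.some X Y h) = (s : ℚ) := by
    by_cases hX0 : X = 0
    · refine ⟨M, hM, le_rfl, ?_⟩
      refine fuc_lvl_eq_of_isLvl v hm h (Or.inr (Or.inr ⟨?_, rfl⟩))
      rw [hX0, AddValuation.map_zero]; exact le_top
    · obtain ⟨n, hn⟩ := hint hX0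
      have hn0 : 0 < n := by
        rw [hn] at hX
        have : (0 : ℚ) < (n : ℚ) := by exact_mod_cast hX
        exact_mod_cast this
      by_cases hnM : n < (M : ℤ)
      · refine ⟨n.toNat, by omega, by omega, ?_⟩
        have hcast : ((n.toNat : ℕ) : ℚ) = (n : ℚ) := by
          have : ((n.toNat : ℕ) : ℤ) = n := Int.toNat_of_nonneg hn0.le
          exact_mod_cast this
        rw [hcast]
        refine fuc_lvl_eq_of_isLvl v hm h (Or.inr (Or.inl ⟨(n : ℚ), hn, ?_, ?_, rfl⟩))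
        · exact_mod_cast hn0
        · exact_mod_cast hnM
      · refine ⟨M, hM, le_rfl, ?_⟩
        refine fuc_lvl_eq_of_isLvl v hm h (Or.inr (Or.inr ⟨?_, rfl⟩))
        rw [hn]
        have : ((M : ℕ) : ℚ) ≤ (n : ℚ) := by exact_mod_cast (not_lt.mp hnM)
        exact_mod_cast this
  have hzero : fuc_lvl v (M : ℚ) (p • (Point.some X Y h)) = 0 := by
    rw [hpx]; rfl
  have hdvd : (2 * M) ∣ s * p := by
    obtain ⟨z, hz | hz⟩ := ftw_lvl_nsmul v hc (Point.some X Y h) p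
    · rw [hzero, hlvl] at hz
      have h1 : ((s * p : ℕ) : ℤ) = ((2 * M : ℕ) : ℤ) * (-z) := by
        have : ((s : ℚ) * (p : ℚ)) = (2 * (M : ℚ)) * (-(z : ℚ)) := by linarith
        exact_mod_cast this
      exact Int.natCast_dvd_natCast.mp ⟨-z, h1⟩
    · rw [hzero, hlvl] at hz
      have h1 : ((s * p : ℕ) : ℤ) = ((2 * M : ℕ) : ℤ) * z := by
        have : ((s : ℚ) * (p : ℚ)) = (2 * (M : ℚ)) * (z : ℚ) := by linarith
        exact_mod_cast this
      exact Int.natCast_dvd_natCast.mp ⟨z, h1⟩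
  have hdvd' : (2 * M) ∣ s := hcop.symm.dvd_of_dvd_mul_right hdvd
  have := Nat.le_of_dvd hs1 hdvd'
  omega

end Fermat.Agent.Lib.F2
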