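/-
S13, the prime `2`, (NoRatPt), abstract core.  On `W₂ : y² + x y = x³ + a₂ x² + a₄ x` with `0 < v 2`,
`0 ≤ v a₂`, `v a₄ = M ∈ ℕ`, `M > 0`, `p ≥ 5` prime with `v p = 0` and `gcd (p, 2 M) = 1`: a subgroup
`S` of points whose coordinates have residue field `𝔽₂` and integral valuations (e.g. the rational
points) contains no nonzero `p`-torsion point.

* counting core: a `p`-torsion point `x ∈ S ∩ E₀` vanishes (`x`, `2x` reduce into the two affine
  nonsingular `𝔽₂`-points `(1, 0)`, `(1, 1)`, so `x ∈ E₁` or `3 x ∈ E₁`);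
* level part (`WireNoRatLevel`): `x ∉ E₀` is impossible.
-/
import Mathlib
import Fermat.Agent.Lib.F2.Inertia
import Fermat.Agent.Lib.F2.WireNoRatLevel

set_option autoImplicit false

namespace Fermat.Agent.Lib.F2

open WeierstrassCurve WeierstrassCurve.Affine Fermat.Agent.Lib.Frey

/-- A point killed by two coprime integers vanishes. -/
theorem ftx_eq_zero_of_coprime {G : Type*} [AddGroup G] {x : G} {a b : ℕ} (hab : Nat.Coprime a b)
    (ha : a • x = 0) (hb : b • x = 0) : x = 0 := by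
  have h1 := addOrderOf_dvd_of_nsmul_eq_zero ha
  have h2 := addOrderOf_dvd_of_nsmul_eq_zero hb
  have h3 := Nat.dvd_gcd h1 h2
  rw [hab] at h3
  exact AddMonoid.addOrderOf_eq_one_iff.mp (Nat.dvd_one.mp h3)

variable {K : Type*} [Field K] [DecidableEq K] (v : AddValuation K (WithTop ℚ))

omit [DecidableEq K] in
theorem ftx_pos_sub {a b : K} (ha : 0 < v a) (hb : 0 < v b) : 0 < v (a - b) := by
  rw [sub_eq_add_neg]
  exact ftw_pos_add ha (by rwa [v.map_neg])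

/-- **(NoRatPt), counting core**: a `p`-torsion point of `S ∩ E₀` vanishes. -/
theorem ftx_noRat_E0 {a₂ a₄ : K} {m : ℚ} (h2 : 0 < v (2 : K)) (ha2 : 0 ≤ v a₂)
    (ha4 : v a₄ = (m : WithTop ℚ)) (hm : 0 < m) {p : ℕ} (hp : p.Prime) (hp5 : 5 ≤ p)
    (hvp : v (p : K) = 0) (S : AddSubgroup (ftw_curve a₂ a₄).toAffine.Point)
    (hS : ∀ (X Y : K) (h : (ftw_curve a₂ a₄).toAffine.Nonsingular X Y), Point.some X Y h ∈ S →
      (v X = 0 → 0 < v (X - 1)) ∧ (0 ≤ v Y → 0 < v Y ∨ 0 < v (Y - 1)))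
    {x : (ftw_curve a₂ a₄).toAffine.Point} (hxS : x ∈ S) (hpx : p • x = 0)
    (hx0 : fl_InE0 v x) : x = 0 := by
  have hc := ftw_ctx_of_two h2 ha2 ha4 hm
  have ha4' : 0 ≤ v a₄ := by rw [ha4]; exact_mod_cast hm.le
  have hp2 : p ≠ 2 := by omega
  have hp3 : p ≠ 3 := by omega
  have hcop2 : Nat.Coprime p 2 := (Nat.coprime_primes hp Nat.prime_two).mpr hp2
  have hcop3 : Nat.Coprime p 3 := (Nat.coprime_primes hp Nat.prime_three).mpr hp3
  have hE1 : ∀ y : (ftw_curve a₂ a₄).toAffine.Point, fl_InE1 v y → p • y = 0 → y = 0 :=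
    fun y hy hpy => ftw_torsion v ha2 ha4' p hp hp2 hvp hy hpy
  by_contra hne
  rcases hx0 with h0 | ⟨X, Y, h, rfl, hX⟩
  · exact hne h0
  have hX0 : v X = 0 := by
    rcases lt_or_eq_of_le hX with hlt | heq
    · exact absurd (hE1 _ (Or.inr ⟨X, Y, h, rfl, hlt⟩) hpx) hne
    · exact heq
  have hxE0 : fl_InE0 v (Point.some X Y h) := Or.inr ⟨X, Y, h, rfl, hX⟩
  have h2S : Point.some X Y h + Point.some X Y h ∈ S := S.add_mem hxS hxS
  have h2E0 : fl_InE0 v (Point.some X Y h + Point.some X Y h) := ftw_E0_add v hc hxE0 hxE0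
  have hp2x : p • (Point.some X Y h + Point.some X Y h) = 0 := by
    rw [smul_add, hpx, add_zero]
  have h2ne : Point.some X Y h + Point.some X Y h ≠ 0 := by
    intro h0
    have : 2 • Point.some X Y h = 0 := by rw [two_nsmul]; exact h0
    exact hne (ftx_eq_zero_of_coprime hcop2 hpx this)
  rcases h2E0 with h0 | ⟨X₂, Y₂, h₂, h2eq, hX₂⟩
  · exact h2ne h0
  have hX₂0 : v X₂ = 0 := by
    rcases lt_or_eq_of_le hX₂ with hlt | heq
    · exact absurd (hE1 _ (Or.inr ⟨X₂, Y₂, h₂, h2eq, hlt⟩) hp2x) h2ne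
    · exact heq
  have h2S' : Point.some X₂ Y₂ h₂ ∈ S := by rw [← h2eq]; exact h2S
  obtain ⟨hSX, hSY⟩ := hS X Y h hxS
  obtain ⟨hSX₂, hSY₂⟩ := hS X₂ Y₂ h₂ h2S'
  have hY : 0 ≤ v Y := ftw_y_integral v ha2 ha4' hX0.ge (ftw_eqn h)
  have hY₂ : 0 ≤ v Y₂ := ftw_y_integral v ha2 ha4' hX₂0.ge (ftw_eqn h₂)
  have hdx : 0 < v (X₂ - X) := by
    have : X₂ - X = (X₂ - 1) - (X - 1) := by ring
    rw [this]; exact ftx_pos_sub v (hSX₂ hX₂0) (hSX hX0)
  have hcase : 0 < v (Y₂ - Y) ∨ 0 < v (Y₂ - (-Y - X)) := by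
    rcases hSY hY with hy | hy <;> rcases hSY₂ hY₂ with hy₂ | hy₂
    · left; exact ftx_pos_sub v hy₂ hy
    · right
      have : Y₂ - (-Y - X) = (Y₂ - 1) + Y + (X - 1) + 2 := by ring
      rw [this]
      exact ftw_pos_add (ftw_pos_add (ftw_pos_add hy₂ hy) (hSX hX0)) h2
    · right
      have : Y₂ - (-Y - X) = Y₂ + (Y - 1) + (X - 1) + 2 := by ring
      rw [this]
      exact ftw_pos_add (ftw_pos_add (ftw_pos_add hy₂ hy) (hSX hX0)) h2
    · left
      have : Y₂ - Y = (Y₂ - 1) - (Y - 1) := by ring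
      rw [this]; exact ftx_pos_sub v hy₂ hy
  rcases hcase with hdy | hdy
  · -- `2x − x = x ∈ E₁`
    have h3 := ftw_diff_mem v h2 ha2 ha4' h₂ h hX0 hdx hdy
    rw [← h2eq, add_sub_cancel_right] at h3
    exact hne (hE1 _ h3 hpx)
  · -- `2x − (−x) = 3x ∈ E₁`
    have hnegns : (ftw_curve a₂ a₄).toAffine.Nonsingular X (-Y - X) := by
      have := (nonsingular_neg (W' := (ftw_curve a₂ a₄).toAffine) X Y).mpr h
      rwa [ftw_negY] at this
    have hneg : -Point.some X Y h = Point.some X (-Y - X) hnegns := by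
      rw [Point.neg_some]
      congr 1
      exact ftw_negY
    have h3 := ftw_diff_mem v h2 ha2 ha4' h₂ hnegns hX0 hdx hdy
    rw [← h2eq, ← hneg, sub_neg_eq_add] at h3
    have h4 : Point.some X Y h + Point.some X Y h + Point.some X Y h = 3 • Point.some X Y h := by
      rw [succ_nsmul, two_nsmul]
    rw [h4] at h3
    have h5 : p • (3 • Point.some X Y h) = 0 := by
      rw [smul_comm, hpx, smul_zero]
    have h6 := hE1 _ h3 h5
    exact hne (ftx_eq_zero_of_coprime hcop3 hpx h6)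

/-- **(NoRatPt), abstract core.** -/
theorem ftx_noRat_abstract (W : WeierstrassCurve K) {a₂ a₄ : K} (hW : W = ftw_curve a₂ a₄)
    {M : ℕ} (h2 : 0 < v (2 : K)) (ha2 : 0 ≤ v a₂)
    (ha4 : v a₄ = (((M : ℕ) : ℚ) : WithTop ℚ)) (hM : 0 < M) {p : ℕ} (hp : p.Prime) (hp5 : 5 ≤ p)
    (hvp : v (p : K) = 0) (hcop : Nat.Coprime p (2 * M)) (S : AddSubgroup W.toAffine.Point)
    (hS : ∀ (X Y : K) (h : W.toAffine.Nonsingular X Y), Point.some X Y h ∈ S →
      (v X = 0 → 0 < v (X - 1)) ∧ (0 ≤ v Y → 0 < v Y ∨ 0 < v (Y - 1)) ∧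
      (X ≠ 0 → ∃ n : ℤ, v X = ((n : ℚ) : WithTop ℚ)))
    {x : W.toAffine.Point} (hxS : x ∈ S) (hpx : p • x = 0) : x = 0 := by
  subst hW
  have hm : (0 : ℚ) < (M : ℚ) := by exact_mod_cast hM
  by_cases hx0 : fl_InE0 v x
  · exact ftx_noRat_E0 v h2 ha2 ha4 hm hp hp5 hvp S
      (fun X Y h hmem => ⟨(hS X Y h hmem).1, (hS X Y h hmem).2.1⟩) hxS hpx hx0
  · exfalso
    rcases x with _ | ⟨X, Y, h⟩
    · exact hx0 (Or.inl rfl)
    · have hX : 0 < v X := by
        by_contra hle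
        exact hx0 (Or.inr ⟨X, Y, h, rfl, not_lt.mp hle⟩)
      exact ftx_noRat_level v h2 ha2 ha4 hM hcop h hpx hX (hS X Y h hxS).2.2

end Fermat.Agent.Lib.F2
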