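/-
S13, the prime `2`, (NoRatPt), rational numbers: the residue field of `ℚ` at `2` is `𝔽₂`
(`v r = 0 ⇒ 0 < v (r − 1)` for rational `r`), and an element of `ℚ̄` fixed by `Gal(ℚ̄/ℚ)` is rational.
-/
import Mathlib
import Fermat.Agent.Lib.Frey.FqArith

set_option autoImplicit false

namespace Fermat.Agent.Lib.F2

open Fermat.Agent.Lib.Frey

section residue

variable {K : Type*} [Field K] [CharZero K] [Algebra ℚ K] (v : AddValuation K (WithTop ℚ))

/-- A rational number which is a unit at `2` is congruent to `1` modulo the maximal ideal. -/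
theorem ftx_rat_unit_sub_one (hint : ∀ z : ℤ, 0 ≤ v (z : K)) (h2 : 0 < v (2 : K)) (r : ℚ)
    (hr : v (algebraMap ℚ K r) = 0) : 0 < v (algebraMap ℚ K r - 1) := by
  have h2' : (0 : WithTop ℚ) < v ((2 : ℕ) : K) := by simpa using h2
  set x : K := algebraMap ℚ K r with hx
  have hd0 : (r.den : K) ≠ 0 := by exact_mod_cast r.den_nz
  have hxd : x * (r.den : K) = (r.num : K) := by
    have h1 : (r : ℚ) * (r.den : ℚ) = (r.num : ℚ) := Rat.mul_den_eq_num r
    have h3 := congrArg (algebraMap ℚ K) h1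
    rw [map_mul, map_natCast, map_intCast] at h3
    exact h3
  have hcop : Nat.Coprime r.num.natAbs r.den := r.reduced
  -- the denominator is odd
  have hdodd : ¬ ((2 : ℕ) : ℤ) ∣ ((r.den : ℕ) : ℤ) := by
    intro hd
    have hnodd : ¬ ((2 : ℕ) : ℤ) ∣ r.num := by
      intro hn
      have h4 : (2 : ℕ) ∣ r.num.natAbs := Int.natCast_dvd.mp hn
      have h5 : (2 : ℕ) ∣ r.den := Int.natCast_dvd_natCast.mp hd
      have := Nat.dvd_gcd h4 h5
      rw [hcop] at this
      omega
    have hvn : v (r.num : K) = 0 := fq_v_int_of_not_dvd v Nat.prime_two hint h2' hnodd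
    have hvd : 0 < v (((r.den : ℕ) : ℤ) : K) := fq_v_int_pos_of_dvd v hint h2' hd
    have h6 := congrArg v hxd
    rw [v.map_mul, hr, zero_add, hvn] at h6
    rw [Int.cast_natCast, h6] at hvd
    exact lt_irrefl _ hvd
  have hvd : v (r.den : K) = 0 := by
    have := fq_v_int_of_not_dvd v Nat.prime_two hint h2' hdodd
    simpa using this
  have hvn : v (r.num : K) = 0 := by
    have h6 := congrArg v hxd
    rw [v.map_mul, hr, zero_add, hvd] at h6
    exact h6.symm
  have hnodd : ¬ ((2 : ℕ) : ℤ) ∣ r.num := by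
    intro hn
    have := fq_v_int_pos_of_dvd v hint h2' hn
    rw [hvn] at this
    exact lt_irrefl _ this
  -- `num − den` is even
  obtain ⟨k, hk⟩ : (2 : ℤ) ∣ r.num - (r.den : ℤ) := by
    have h7 : ¬ (2 : ℤ) ∣ r.num := by simpa using hnodd
    have h8 : ¬ (2 : ℤ) ∣ (r.den : ℤ) := by simpa using hdodd
    omega
  have hkey : (x - 1) * (r.den : K) = 2 * (k : K) := by
    have : ((r.num - (r.den : ℤ) : ℤ) : K) = ((2 * k : ℤ) : K) := by rw [hk]
    push_cast at this
    rw [sub_mul, hxd, one_mul]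
    exact this
  have h9 := congrArg v hkey
  rw [v.map_mul, hvd, add_zero, v.map_mul] at h9
  rw [h9]
  exact lt_of_lt_of_le h2 (le_add_of_nonneg_right (hint k))

/-- An integral rational number is congruent to `0` or `1`. -/
theorem ftx_rat_integral_cases (hint : ∀ z : ℤ, 0 ≤ v (z : K)) (h2 : 0 < v (2 : K)) (r : ℚ)
    (hr : 0 ≤ v (algebraMap ℚ K r)) :
    0 < v (algebraMap ℚ K r) ∨ 0 < v (algebraMap ℚ K r - 1) := by
  rcases lt_or_eq_of_le hr with h | h
  · exact Or.inl h
  · exact Or.inr (ftx_rat_unit_sub_one v hint h2 r h.symm)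

end residue

/-- An element of `ℚ̄` fixed by the absolute Galois group is rational. -/
theorem ftx_rational_of_fixed (x : AlgebraicClosure ℚ)
    (hx : ∀ σ : AlgebraicClosure ℚ ≃ₐ[ℚ] AlgebraicClosure ℚ, σ x = x) :
    ∃ r : ℚ, algebraMap ℚ (AlgebraicClosure ℚ) r = x := by
  have h1 : Algebra.IsAlgebraic ℚ (AlgebraicClosure ℚ) := AlgebraicClosure.isAlgebraic ℚ
  have h2 : IsAlgClosure ℚ (AlgebraicClosure ℚ) := ⟨inferInstance, h1⟩
  have : IsGalois ℚ (AlgebraicClosure ℚ) := IsAlgClosure.isGalois ℚ (AlgebraicClosure ℚ)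
  exact (InfiniteGalois.mem_range_algebraMap_iff_fixed x).mpr hx

end Fermat.Agent.Lib.F2
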