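/-
S13, the prime `2`: **`s13_IfaceNoRatPt` PROVED** — the Frey curve has no rational point of order
`p`: a point of `E[p](ℚ̄)` fixed by `Gal(ℚ̄/ℚ)` vanishes.

Proof: the fixed points form a subgroup `S` whose affine points have rational coordinates; w.r.t. the
`2`-adic valuation `v` attached to a place of `ℚ̄` over `2` these have residue field `𝔽₂` and integral
valuations, and the abstract core `ftx_noRat_abstract` applies with `M = v₂(a₄) = p v₂(b) − 4`,
`gcd (p, 2 M) = 1`.
-/
import Mathlib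
import Fermat.Prelude.Def_FLTPrelim_FreyPackage
import Fermat.Prelude.Def_FLTPrelim_GaloisRep
import Fermat.Prelude.Def_FLTPrelim_Ramification
import Fermat.Agent.Lib.Frey.OrdInertia
import Fermat.Agent.Lib.Mz.Places
import Fermat.Agent.Lib.S13.Iface
import Fermat.Agent.Lib.F2.WireArith
import Fermat.Agent.Lib.F2.WireNoRatRat
import Fermat.Agent.Lib.F2.WireNoRatCore

set_option autoImplicit false

namespace Fermat.Agent.Lib.F2

open WeierstrassCurve WeierstrassCurve.Affine Fermat.Agent.Lib.Frey Fermat.Agent.Lib.S13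
  Fermat.Agent.Lib.Mz

/-- **(NoRatPt)**: the Frey curve has no rational point of order `p`. -/
theorem ftx_s13_ifaceNoRatPt : s13_IfaceNoRatPt := by
  intro P x hx
  obtain ⟨A, hA⟩ := ptm_exists_liesOverPrime 2 Nat.prime_two
  obtain ⟨v, hv2, -, -, hint, -, hrat, -⟩ :=
    ford_exists_v (K := AlgebraicClosure ℚ) A Nat.prime_two hA
  have hv2' : v (2 : AlgebraicClosure ℚ) = 1 := by simpa using hv2
  have hpos2 : (0 : WithTop ℚ) < v (2 : AlgebraicClosure ℚ) := by rw [hv2']; exact zero_lt_one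
  have hvp : v (P.p : AlgebraicClosure ℚ) = 0 := by
    have h2 : ¬ ((2 : ℕ) : ℤ) ∣ (P.p : ℤ) := by
      have := P.hp_odd
      rw [Nat.odd_iff] at this
      omega
    have := fq_v_int_of_not_dvd v Nat.prime_two hint (by simpa using hpos2) h2
    simpa using this
  have hva₂ : 0 ≤ v (algebraMap ℚ (AlgebraicClosure ℚ) P.freyCurve.a₂) := by
    obtain ⟨k, hk⟩ := ftx_a₂_int P
    rw [hk]
    have : algebraMap ℚ (AlgebraicClosure ℚ) (k : ℚ) = (k : AlgebraicClosure ℚ) :=
      map_intCast _ k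
    rw [this]
    exact hint k
  have hva₄ : v (algebraMap ℚ (AlgebraicClosure ℚ) P.freyCurve.a₄) =
      (((ftx_m P : ℕ) : ℚ) : WithTop ℚ) := by
    rw [hrat _ (ftx_a₄_ne_zero P), ftx_padicValRat_a₄]
    norm_cast
  -- the subgroup of fixed points
  let S : AddSubgroup (P.freyCurve⁄(AlgebraicClosure ℚ)).Point :=
    { carrier := {pt | ∀ σ : AlgebraicClosure ℚ ≃ₐ[ℚ] AlgebraicClosure ℚ, σ • pt = pt}
      add_mem' := fun {a b} ha hb σ => by
        have h1 : σ • (a + b) = σ • a + σ • b := (Point.map σ.toAlgHom).map_add a b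
        rw [h1, ha σ, hb σ]
      zero_mem' := fun σ => rfl
      neg_mem' := fun {a} ha σ => by
        have h1 : σ • (-a) = -(σ • a) := (Point.map σ.toAlgHom).map_neg a
        rw [h1, ha σ] }
  have hxS : (x : (P.freyCurve⁄(AlgebraicClosure ℚ)).Point) ∈ S := by
    intro σ
    exact congrArg Subtype.val (hx σ)
  have hpx : P.p • (x : (P.freyCurve⁄(AlgebraicClosure ℚ)).Point) = 0 := by
    have := (Submodule.mem_torsionBy_iff _ _).mp x.2
    rwa [natCast_zsmul] at this
  -- coordinates of fixed points are rational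
  have hcoord : ∀ (X Y : AlgebraicClosure ℚ)
      (h : (P.freyCurve⁄(AlgebraicClosure ℚ)).Nonsingular X Y), Point.some X Y h ∈ S →
      (∃ r : ℚ, algebraMap ℚ (AlgebraicClosure ℚ) r = X) ∧
        (∃ r : ℚ, algebraMap ℚ (AlgebraicClosure ℚ) r = Y) := by
    intro X Y h hmem
    have hfix : ∀ σ : AlgebraicClosure ℚ ≃ₐ[ℚ] AlgebraicClosure ℚ, σ X = X ∧ σ Y = Y := by
      intro σ
      have h1 := hmem σ
      rw [Point.algEquiv_smul_def, Point.map_some, Point.some.injEq] at h1
      exact h1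
    exact ⟨ftx_rational_of_fixed X (fun σ => (hfix σ).1),
      ftx_rational_of_fixed Y (fun σ => (hfix σ).2)⟩
  have hS : ∀ (X Y : AlgebraicClosure ℚ)
      (h : (P.freyCurve.baseChange (AlgebraicClosure ℚ)).toAffine.Nonsingular X Y),
      Point.some X Y h ∈ S →
      (v X = 0 → 0 < v (X - 1)) ∧ (0 ≤ v Y → 0 < v Y ∨ 0 < v (Y - 1)) ∧
      (X ≠ 0 → ∃ n : ℤ, v X = ((n : ℚ) : WithTop ℚ)) := by
    intro X Y h hmem
    obtain ⟨⟨r, rfl⟩, ⟨s, rfl⟩⟩ := hcoord X Y h hmem
    refine ⟨fun h0 => ftx_rat_unit_sub_one v hint hpos2 r h0,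
      fun h0 => ftx_rat_integral_cases v hint hpos2 s h0, fun hne => ?_⟩
    have hr : r ≠ 0 := by
      rintro rfl
      exact hne (map_zero _)
    exact ⟨padicValRat 2 r, hrat r hr⟩
  have key := ftx_noRat_abstract v (P.freyCurve.baseChange (AlgebraicClosure ℚ))
    (ftx_frey_baseChange P (AlgebraicClosure ℚ)) hpos2 hva₂ hva₄ (ftx_m_pos P) P.pp P.hp5 hvp
    (ftx_coprime P) S hS hxS hpx
  exact Subtype.ext key

end Fermat.Agent.Lib.F2
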